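import Fermat.Agent.Period.Gamma0Count

/-!
# The cusps of `Γ₀(N)`
-/

set_option autoImplicit false

noncomputable section

open scoped MatrixGroups
open ModularGroup CongruenceSubgroup

namespace FermatAgent.Period

variable {N : ℕ}

/-- The gcd governing the cusps lying over a divisor. -/
abbrev cuspGcd (N d : ℕ) : ℕ := Nat.gcd d (N / d)

lemma cuspGcd_dvd_left (d : ℕ) : cuspGcd N d ∣ d := Nat.gcd_dvd_left _ _

lemma neZero_of_mem_divisors (d : N.divisors) : NeZero (d : ℕ) :=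
  ⟨(Nat.pos_of_mem_divisors d.2).ne'⟩

/-- A lift of a unit modulo `gcd(d, N / d)` to a natural number prime to `d`. -/
def cuspLift (d : N.divisors) (e : (ZMod (cuspGcd N d))ˣ) : (ZMod (d : ℕ))ˣ :=
  have := neZero_of_mem_divisors d
  (ZMod.unitsMap_surjective (cuspGcd_dvd_left (d : ℕ)) e).choose

lemma unitsMap_cuspLift (d : N.divisors) (e : (ZMod (cuspGcd N d))ˣ) :
    ZMod.unitsMap (cuspGcd_dvd_left (d : ℕ)) (cuspLift d e) = e :=
  have := neZero_of_mem_divisors d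
  (ZMod.unitsMap_surjective (cuspGcd_dvd_left (d : ℕ)) e).choose_spec

variable [NeZero N]

lemma cuspOf_pairCoset_eq_iff (v w : PrimPair N) :
    cuspOf (Gamma0 N) (pairCoset v) = cuspOf (Gamma0 N) (pairCoset w) ↔
      ∃ (n : ℤ) (u : (ZMod N)ˣ),
        v.1 = ((u : ZMod N) * (w.1.1 + (n : ZMod N) * w.1.2), (u : ZMod N) * w.1.2) := by
  have key : ∀ n : ℤ, ((T : SL(2, ℤ)) ^ n • pairCoset w = pairCoset v) ↔
      ∃ u : (ZMod N)ˣ,
        v.1 = ((u : ZMod N) * (w.1.1 + (n : ZMod N) * w.1.2), (u : ZMod N) * w.1.2) := by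
    intro n
    obtain ⟨x, hx, hxe⟩ := smul_pairCoset ((T : SL(2, ℤ)) ^ n) w
    simp [coe_T_zpow] at hxe
    rw [hx, pairCoset_eq_iff]
    exact exists_congr fun u => by rw [hxe, Prod.smul_mk, smul_eq_mul, smul_eq_mul]
  rw [cuspOf_eq_iff]
  exact exists_congr key

/-- The representing pair of a cusp. -/
def cuspPair (d : N.divisors) (e : (ZMod (cuspGcd N d))ˣ) : PrimPair N :=
  ⟨((((cuspLift d e : ZMod (d : ℕ))).val : ℕ), ((d : ℕ) : ZMod N)), by
    have := neZero_of_mem_divisors d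
    have h := Nat.isCoprime_iff_coprime.mpr (ZMod.val_coe_unit_coprime (cuspLift d e))
    simpa using h.map (Int.castRingHom (ZMod N))⟩

/-- The parametrisation of the cusps. -/
def cuspParam (x : Σ d : N.divisors, (ZMod (cuspGcd N d))ˣ) : CuspSet (Gamma0 N) :=
  cuspOf (Gamma0 N) (pairCoset (cuspPair x.1 x.2))

lemma gcd_eq_of_modEq_unit_mul {d d' : ℕ} (hd : d ∣ N) (hd' : d' ∣ N) (u : (ZMod N)ˣ)
    (h : (d : ZMod N) = (u : ZMod N) * (d' : ZMod N)) : d = d' := by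
  rw [← ZMod.natCast_zmod_val (u : ZMod N), ← Nat.cast_mul, ZMod.natCast_eq_natCast_iff] at h
  calc d = Nat.gcd d N := (Nat.gcd_eq_left hd).symm
    _ = Nat.gcd ((u : ZMod N).val * d') N := h.gcd_eq
    _ = Nat.gcd d' N := Nat.Coprime.gcd_mul_left_cancel d' (ZMod.val_coe_unit_coprime u)
    _ = d' := Nat.gcd_eq_left hd'

lemma cuspParam_injective : Function.Injective (cuspParam (N := N)) := by
  rintro ⟨⟨d, hd⟩, e⟩ ⟨⟨d', hd'⟩, e'⟩ h
  obtain ⟨n, u, hu⟩ := (cuspOf_pairCoset_eq_iff _ _).mp h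
  simp only [cuspPair, Prod.mk.injEq] at hu
  obtain ⟨h1, h2⟩ := hu
  obtain rfl : d = d' :=
    gcd_eq_of_modEq_unit_mul (Nat.dvd_of_mem_divisors hd) (Nat.dvd_of_mem_divisors hd') u h2
  have hdN := Nat.dvd_of_mem_divisors hd
  have hgd : cuspGcd N d ∣ d := cuspGcd_dvd_left d
  have hgn : cuspGcd N d ∣ N / d := Nat.gcd_dvd_right _ _
  have hgN : cuspGcd N d ∣ N := hgd.trans hdN
  have hu1 : ZMod.castHom hgN (ZMod (cuspGcd N d)) (u : ZMod N) = 1 := by
    rw [← ZMod.natCast_zmod_val (u : ZMod N), map_natCast]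
    have h3 : (u : ZMod N).val * d ≡ 1 * d [MOD N] := by
      rw [← ZMod.natCast_eq_natCast_iff]
      push_cast
      rw [ZMod.natCast_zmod_val, one_mul]
      exact h2.symm
    have h4 : (u : ZMod N).val ≡ 1 [MOD N / d] :=
      Nat.ModEq.mul_right_cancel' (Nat.pos_of_mem_divisors hd).ne'
        (by rwa [Nat.div_mul_cancel hdN])
    rw [(ZMod.natCast_eq_natCast_iff _ _ _).mpr (h4.of_dvd hgn), Nat.cast_one]
  have hd0 : (d : ZMod (cuspGcd N d)) = 0 := (ZMod.natCast_eq_zero_iff _ _).mpr hgd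
  have h5 := congrArg (ZMod.castHom hgN (ZMod (cuspGcd N d))) h1
  rw [map_natCast, map_mul, map_add, map_mul, map_natCast, map_natCast, map_intCast, hu1, one_mul,
    hd0, mul_zero, add_zero] at h5
  have : NeZero d := ⟨(Nat.pos_of_mem_divisors hd).ne'⟩
  have key : ∀ e : (ZMod (cuspGcd N d))ˣ,
      (((cuspLift ⟨d, hd⟩ e : ZMod d)).val : ZMod (cuspGcd N d)) = (e : ZMod (cuspGcd N d)) := by
    intro e
    conv_rhs => rw [← unitsMap_cuspLift ⟨d, hd⟩ e]
    rw [ZMod.unitsMap_def, Units.coe_map]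
    exact (ZMod.natCast_val _).trans rfl
  rw [key, key] at h5
  obtain rfl := Units.ext h5
  rfl

lemma cuspParam_surjective : Function.Surjective (cuspParam (N := N)) := by
  intro o
  obtain ⟨x, rfl⟩ := cuspOf_surjective o
  obtain ⟨⟨⟨a, c⟩, hac⟩, rfl⟩ := pairCoset_surjective x
  -- normalise the second entry to a divisor of `N`
  set d := Nat.gcd c.val N with hdef
  have hdN : d ∣ N := Nat.gcd_dvd_right _ _
  have hd : d ∈ N.divisors := Nat.mem_divisors.mpr ⟨hdN, NeZero.ne N⟩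
  have hd0 : 0 < d := Nat.pos_of_mem_divisors hd
  obtain ⟨c1, hc1⟩ : d ∣ c.val := Nat.gcd_dvd_left _ _
  have hcop : c1.Coprime (N / d) := by
    have h := Nat.coprime_div_gcd_div_gcd (hdef ▸ hd0 : 0 < Nat.gcd c.val N)
    rw [← hdef] at h
    rwa [hc1, Nat.mul_div_cancel_left _ hd0] at h
  obtain ⟨W, hW⟩ := ZMod.unitsMap_surjective (Nat.div_dvd_of_dvd hdN) (ZMod.unitOfCoprime c1 hcop)
  have hWd : (W : ZMod N) * (d : ZMod N) = c := by
    have h1 : ((W : ZMod N).val : ZMod (N / d)) = (c1 : ZMod (N / d)) := by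
      have := congrArg Units.val hW
      rw [ZMod.unitsMap_def, Units.coe_map, ZMod.coe_unitOfCoprime] at this
      rw [← this]
      exact (ZMod.natCast_val _).trans rfl
    have h2 := ((ZMod.natCast_eq_natCast_iff _ _ _).mp h1).mul_right' d
    rw [Nat.div_mul_cancel hdN, ← ZMod.natCast_eq_natCast_iff] at h2
    push_cast at h2
    rw [ZMod.natCast_zmod_val] at h2
    rw [h2, mul_comm, ← Nat.cast_mul, ← hc1, ZMod.natCast_zmod_val]
  set a0 : ZMod N := ((W⁻¹ : (ZMod N)ˣ) : ZMod N) * a with ha0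
  have hW1 : (W : ZMod N) * ((W⁻¹ : (ZMod N)ˣ) : ZMod N) = 1 := W.mul_inv
  have ha0d : a0.val.Coprime d := by
    refine Nat.coprime_of_dvd fun p hp hpa hpd => ?_
    obtain ⟨s, t, hst⟩ := hac
    have h : (((s * (W : ZMod N)).val * a0.val + (t * (W : ZMod N)).val * d : ℕ) : ZMod N)
        = ((1 : ℕ) : ZMod N) := by
      push_cast
      simp only [ZMod.natCast_zmod_val, ha0]
      linear_combination hst + s * a * hW1 + t * hWd
    have h' := (ZMod.natCast_eq_natCast_iff _ _ _).mp h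
    exact hp.not_dvd_one ((h'.dvd_iff (hpd.trans hdN)).mp
      (dvd_add (hpa.mul_left _) (hpd.mul_left _)))
  have : NeZero d := ⟨hd0.ne'⟩
  set au : (ZMod d)ˣ := ZMod.unitOfCoprime a0.val ha0d
  set e := ZMod.unitsMap (cuspGcd_dvd_left (N := N) d) au
  refine ⟨⟨⟨d, hd⟩, e⟩, ?_⟩
  rw [cuspParam, cuspOf_pairCoset_eq_iff]
  set e' : (ZMod d)ˣ := cuspLift ⟨d, hd⟩ e
  set R : ℕ := ((e' * au⁻¹ : (ZMod d)ˣ) : ZMod d).val
  have hR : R ≡ 1 [MOD Nat.gcd d (N / d)] := by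
    rw [← ZMod.natCast_eq_natCast_iff, Nat.cast_one]
    have h : ZMod.unitsMap (cuspGcd_dvd_left (N := N) d) (e' * au⁻¹) = 1 := by
      rw [map_mul, map_inv, show ZMod.unitsMap (cuspGcd_dvd_left (N := N) d) e' = e from
        unitsMap_cuspLift ⟨d, hd⟩ e, mul_inv_cancel]
    have h' := congrArg Units.val h
    rw [ZMod.unitsMap_def, Units.coe_map, Units.val_one] at h'
    rw [← h']
    exact (ZMod.natCast_val _).trans rfl
  obtain ⟨k, hkd, hkn⟩ := Nat.chineseRemainder' hR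
  have hk : k.Coprime N := by
    rw [← Nat.mul_div_cancel' hdN]
    refine Nat.Coprime.mul_right ?_ ?_
    · have h1 : R.Coprime d := ZMod.val_coe_unit_coprime _
      exact (hkd.gcd_eq.trans h1 : Nat.gcd k d = 1)
    · exact (hkn.gcd_eq.trans (Nat.gcd_one_left _) : Nat.gcd k (N / d) = 1)
  set K : (ZMod N)ˣ := ZMod.unitOfCoprime k hk
  have hKd : (K : ZMod N) * (d : ZMod N) = d := by
    rw [ZMod.coe_unitOfCoprime, ← Nat.cast_mul, ZMod.natCast_eq_natCast_iff]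
    have h2 := hkn.mul_right' d
    rwa [Nat.div_mul_cancel hdN, one_mul] at h2
  obtain ⟨m, hm⟩ : (d : ℤ) ∣ ((e' : ZMod d).val : ℤ) - (k : ℤ) * (a0.val : ℤ) := by
    rw [← ZMod.intCast_zmod_eq_zero_iff_dvd]
    push_cast
    rw [ZMod.natCast_zmod_val]
    have hkk : (k : ZMod d) = ((e' * au⁻¹ : (ZMod d)ˣ) : ZMod d) := by
      rw [(ZMod.natCast_eq_natCast_iff _ _ _).mpr hkd, ZMod.natCast_zmod_val]
    have hau : ((a0.val : ℕ) : ZMod d) = (au : ZMod d) := rfl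
    rw [hkk, hau, ← Units.val_mul, inv_mul_cancel_right, sub_self]
  set n : ZMod N := ((K⁻¹ : (ZMod N)ˣ) : ZMod N) * (m : ZMod N)
  refine ⟨(n.val : ℤ), K * W⁻¹, ?_⟩
  simp only [cuspPair, Prod.mk.injEq, Int.cast_natCast, ZMod.natCast_zmod_val, Units.val_mul]
  have hm' := congrArg (Int.cast : ℤ → ZMod N) hm
  push_cast at hm'
  rw [ZMod.natCast_zmod_val] at hm'
  have hK1 : (K : ZMod N) * ((K⁻¹ : (ZMod N)ˣ) : ZMod N) = 1 := K.mul_inv
  have hKk : (K : ZMod N) = (k : ZMod N) := ZMod.coe_unitOfCoprime k hk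
  have hW2 : ((W⁻¹ : (ZMod N)ˣ) : ZMod N) * (W : ZMod N) = 1 := W.inv_mul
  constructor
  · simp only [n]
    linear_combination hm' - a0 * hKk + (K : ZMod N) * ha0
      + (K : ZMod N) * ((W⁻¹ : (ZMod N)ˣ) : ZMod N) * ((K⁻¹ : (ZMod N)ˣ) : ZMod N) *
        (m : ZMod N) * hWd
      - (K : ZMod N) * ((K⁻¹ : (ZMod N)ˣ) : ZMod N) * (m : ZMod N) * (d : ZMod N) * hW2
      - (m : ZMod N) * (d : ZMod N) * hK1
  · linear_combination (-1 : ZMod N) * hKd + (K : ZMod N) * ((W⁻¹ : (ZMod N)ˣ) : ZMod N) * hWd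
      - (K : ZMod N) * (d : ZMod N) * hW2

/-- The number of cusps of `Γ₀(N)`. -/
theorem card_cuspSet_Gamma0 : Nat.card (CuspSet (Gamma0 N)) = ModularCurve.cuspCount N := by
  rw [← Nat.card_congr (Equiv.ofBijective _ ⟨cuspParam_injective (N := N), cuspParam_surjective⟩),
    Nat.card_sigma, ModularCurve.cuspCount, ← Finset.sum_coe_sort N.divisors]
  refine Finset.sum_congr rfl fun d _ => ?_
  have : NeZero (cuspGcd N d) :=
    ⟨fun h => (Nat.pos_of_mem_divisors d.2).ne' (Nat.gcd_eq_zero_iff.mp h).1⟩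
  rw [Nat.card_eq_fintype_card, ZMod.card_units_eq_totient]

end FermatAgent.Period
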