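import Fermat.Agent.Period.Coset
import Fermat.Prelude.Def_ModularCurve_PeriodMap

/-!
# An upper bound for the space of parabolic homomorphisms

For a finite-index `Γ ≤ SL(2, ℤ)` containing `-1`, a parabolic homomorphism gives a parabolic
cocycle on the permutation module, which is determined by its values at `S` and `S * T`. Counting
gives `6 dim + 3 ν₂ + 4 ν₃ + 6 c ≤ μ + 12`, i.e. `dim ≤ 2 g`.
-/

set_option autoImplicit false

noncomputable section

open scoped MatrixGroups
open ModularGroup MulAction

namespace FermatAgent.Period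

open ModularCurve.Period

variable {Γ : Subgroup SL(2, ℤ)}

/-- The element of `Γ` by which `g` moves the chosen representative of a coset. -/
def transition (g : SL(2, ℤ)) (x : Cosets Γ) : Γ :=
  ⟨(g • x).out⁻¹ * g * x.out, by
    rw [mul_assoc, ← QuotientGroup.eq, QuotientGroup.out_eq',
      show (QuotientGroup.mk (g * x.out) : Cosets Γ) = g • QuotientGroup.mk x.out from rfl,
      QuotientGroup.out_eq']⟩

/-- The transition element of a coset. -/
lemma coe_transition (g : SL(2, ℤ)) (x : Cosets Γ) :
    ((transition g x : Γ) : SL(2, ℤ)) = (g • x).out⁻¹ * g * x.out := rfl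

lemma transition_mul (g h : SL(2, ℤ)) (x : Cosets Γ) :
    transition (g * h) x = transition g (h • x) * transition h x := by
  apply Subtype.ext
  rw [Subgroup.coe_mul, coe_transition, coe_transition, coe_transition, mul_smul]
  group

section Cocycle

variable {A : Type*} [AddCommGroup A]

/-- The cocycle attached to a homomorphism. -/
def cocycleOf (φ : Additive Γ →+ A) (g : SL(2, ℤ)) (x : Cosets Γ) : A :=
  φ (Additive.ofMul (transition g x))

/-- The cocycle relation. -/
lemma cocycleOf_mul (φ : Additive Γ →+ A) (g h : SL(2, ℤ)) (x : Cosets Γ) :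
    cocycleOf φ (g * h) x = cocycleOf φ g (h • x) + cocycleOf φ h x := by
  rw [cocycleOf, transition_mul, ofMul_mul, map_add]; rfl

/-- The cocycle at the identity. -/
lemma cocycleOf_one (φ : Additive Γ →+ A) (x : Cosets Γ) : cocycleOf φ 1 x = 0 := by
  have h := cocycleOf_mul φ 1 1 x
  rw [one_mul, one_smul] at h
  simpa using h

lemma coe_neg_one_SL : (((-1 : SL(2, ℤ))) : Matrix (Fin 2) (Fin 2) ℤ) = -1 := by simp

/-- The cocycle at `-1`. -/
lemma cocycleOf_neg_one (hneg : (-1 : SL(2, ℤ)) ∈ Γ) {φ : Additive Γ →+ A}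
    (hφ : IsParabolicHom Γ φ) (x : Cosets Γ) : cocycleOf φ (-1) x = 0 := by
  refine hφ _ ?_
  rw [coe_transition, neg_one_smul_coset hneg, Matrix.SpecialLinearGroup.coe_mul,
    Matrix.trace_mul_comm, ← Matrix.SpecialLinearGroup.coe_mul, ← mul_assoc, mul_inv_cancel,
    one_mul, coe_neg_one_SL, Matrix.one_fin_two]
  simp [Matrix.trace_fin_two]

/-- The cocycle at powers of `T`. -/
lemma cocycleOf_T_pow (φ : Additive Γ →+ A) (n : ℕ) (x : Cosets Γ) :
    cocycleOf φ ((T : SL(2, ℤ)) ^ n) x
      = ∑ i ∈ Finset.range n, cocycleOf φ T ((T : SL(2, ℤ)) ^ i • x) := by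
  induction n generalizing x with
  | zero => simp [cocycleOf_one]
  | succ n ih => rw [pow_succ', cocycleOf_mul, ih, Finset.sum_range_succ, add_comm]

/-- Parabolic cocycles vanish on the stabilisers of cusps. -/
lemma cocycleOf_T_pow_eq_zero {φ : Additive Γ →+ A} (hφ : IsParabolicHom Γ φ) (n : ℕ)
    (x : Cosets Γ) (hx : (T : SL(2, ℤ)) ^ n • x = x) :
    cocycleOf φ ((T : SL(2, ℤ)) ^ n) x = 0 := by
  refine hφ _ ?_
  rw [coe_transition, hx, Matrix.SpecialLinearGroup.coe_mul, Matrix.trace_mul_comm,
    ← Matrix.SpecialLinearGroup.coe_mul, ← mul_assoc, mul_inv_cancel, one_mul, ← zpow_natCast,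
    coe_T_zpow]
  simp [Matrix.trace_fin_two]

end Cocycle

/-- Some power of `T` fixes all cosets. -/
lemma exists_pos_T_pow_smul_eq [Γ.FiniteIndex] :
    ∃ L : ℕ, 0 < L ∧ ∀ x : Cosets Γ, (T : SL(2, ℤ)) ^ L • x = x := by
  classical
  refine ⟨orderOf (MulAction.toPermHom SL(2, ℤ) (Cosets Γ) T), orderOf_pos _, fun x => ?_⟩
  have h : MulAction.toPermHom SL(2, ℤ) (Cosets Γ)
      ((T : SL(2, ℤ)) ^ orderOf (MulAction.toPermHom SL(2, ℤ) (Cosets Γ) T)) = 1 := by
    rw [map_pow, pow_orderOf_eq_one]
  simpa using congrArg (fun e : Equiv.Perm (Cosets Γ) => e x) h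

variable (K : Type*) [Field K] [Γ.FiniteIndex]

open scoped Classical in
variable (Γ) in
/-- Summation of a function over each cusp orbit. -/
def cuspSum : (Cosets Γ → K) →ₗ[K] (CuspSet Γ → K) where
  toFun f o :=
    ∑ x : Cosets Γ, if cuspOf Γ x = o then f x else 0
  map_add' f g := by
    funext o
    simp only [Pi.add_apply, ← Finset.sum_add_distrib]
    exact Finset.sum_congr rfl fun x _ => by split <;> simp
  map_smul' c f := by
    funext o
    simp only [Pi.smul_apply, smul_eq_mul, RingHom.id_apply, Finset.mul_sum, mul_ite, mul_zero]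

/-- Sums over cycles are invariant under `T`. -/
lemma cuspSum_pullback_T (f : Cosets Γ → K) :
    cuspSum Γ K (pullback Γ K T f) = cuspSum Γ K f := by
  classical
  funext o
  simp only [cuspSum, LinearMap.coe_mk, AddHom.coe_mk, pullback_apply]
  refine Fintype.sum_equiv (MulAction.toPerm (T : SL(2, ℤ))) _ _ fun x => ?_
  simp only [MulAction.toPerm_apply, cuspOf_T_smul]

open scoped Classical in
lemma cuspSum_single (x : Cosets Γ) :
    cuspSum Γ K (Pi.single x 1) = Pi.single (cuspOf Γ x) 1 := by
  funext o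
  simp only [cuspSum, LinearMap.coe_mk, AddHom.coe_mk]
  rw [Finset.sum_eq_single x]
  · simp [Pi.single_apply, eq_comm]
  · intro b _ hb; simp [hb]
  · intro h; exact absurd (Finset.mem_univ x) h

variable (Γ) in
/-- Pairs of eigenvectors, sent to the cusp sums of the value of the cocycle at `T`. -/
def cocycleDefect : (minusTwo Γ K × minusThree Γ K) →ₗ[K] (CuspSet Γ → K) :=
  cuspSum Γ K ∘ₗ
    (Submodule.subtype _ ∘ₗ LinearMap.snd K _ _
      - pullback Γ K T ∘ₗ Submodule.subtype _ ∘ₗ LinearMap.fst K _ _)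

/-- The defect of a pair. -/
lemma cocycleDefect_apply (a : minusTwo Γ K) (b : minusThree Γ K) :
    cocycleDefect Γ K (a, b) = cuspSum Γ K ((b : Cosets Γ → K) - pullback Γ K T a) := rfl

/-- The defect has rank at least the number of cusps minus one. -/
lemma card_cuspSet_le (hneg : (-1 : SL(2, ℤ)) ∈ Γ) :
    Nat.card (CuspSet Γ) ≤ Module.finrank K (LinearMap.range (cocycleDefect Γ K)) + 1 := by
  classical
  set R := LinearMap.range (cocycleDefect Γ K) with hR
  let v : Cosets Γ → ((CuspSet Γ → K) ⧸ R) := fun x => R.mkQ (Pi.single (cuspOf Γ x) 1)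
  have hS : ∀ x, v ((S : SL(2, ℤ)) • x) = v x := by
    intro x
    have hmem : (Pi.single ((S : SL(2, ℤ)) • x) 1 - Pi.single x 1 : Cosets Γ → K)
        ∈ minusTwo Γ K := by
      rw [minusTwo, LinearMap.mem_ker]
      funext y
      have e1 : ((S : SL(2, ℤ)) • y = (S : SL(2, ℤ)) • x) ↔ y = x := smul_left_cancel_iff _
      have e2 : ((S : SL(2, ℤ)) • y = x) ↔ y = (S : SL(2, ℤ)) • x := by
        constructor
        · rintro rfl; rw [S_smul_S_smul hneg]
        · rintro rfl; rw [S_smul_S_smul hneg]
      simp only [LinearMap.add_apply, Module.End.one_apply, Pi.add_apply, Pi.sub_apply,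
        pullback_apply, Pi.single_apply, Pi.zero_apply]
      simp only [e1, e2]
      ring
    apply eq_of_sub_eq_zero
    change R.mkQ _ - R.mkQ _ = 0
    rw [← map_sub, Submodule.mkQ_apply, Submodule.Quotient.mk_eq_zero, ← neg_mem_iff]
    refine ⟨(⟨_, hmem⟩, 0), ?_⟩
    rw [cocycleDefect_apply]
    simp only [Submodule.coe_zero, zero_sub, map_neg, cuspSum_pullback_T, map_sub, cuspSum_single]
  have hU : ∀ x, v (ellThree • x) = v x := by
    intro x
    rw [ellThree, mul_smul, hS]
    simp only [v, cuspOf_T_smul]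
  have hconst := const_of_invariant v hS hU
  obtain ⟨x0⟩ : Nonempty (Cosets Γ) := ⟨QuotientGroup.mk 1⟩
  have hspan : ∀ z : (CuspSet Γ → K) ⧸ R, ∃ a : K, a • v x0 = z := by
    intro z
    obtain ⟨f, rfl⟩ := R.mkQ_surjective z
    refine ⟨∑ o, f o, ?_⟩
    rw [Finset.sum_smul]
    conv_rhs => rw [show f = ∑ o, f o • (Pi.single o (1 : K) : CuspSet Γ → K) from by
      funext o; simp [Pi.single_apply]]
    rw [map_sum]
    refine Finset.sum_congr rfl fun o _ => ?_
    obtain ⟨x, rfl⟩ := cuspOf_surjective o
    rw [map_smul, hconst x0 x]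
  have h1 : Module.finrank K ((CuspSet Γ → K) ⧸ R) ≤ 1 := finrank_le_one _ hspan
  have h2 := Submodule.finrank_quotient_add_finrank R
  rw [Module.finrank_pi, ← Nat.card_eq_fintype_card] at h2
  omega

variable [CharZero K]

lemma cuspSum_cocycleOf_T {φ : Additive Γ →+ K} (hφ : IsParabolicHom Γ φ) :
    cuspSum Γ K (cocycleOf φ (T : SL(2, ℤ))) = 0 := by
  obtain ⟨L, hL, hfix⟩ := exists_pos_T_pow_smul_eq (Γ := Γ)
  set f : Cosets Γ → K := cocycleOf φ (T : SL(2, ℤ))
  have hz : (∑ i ∈ Finset.range L, pullback Γ K ((T : SL(2, ℤ)) ^ i)) f = 0 := by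
    funext x
    rw [LinearMap.sum_apply, Finset.sum_apply]
    simp only [pullback_apply, Pi.zero_apply]
    rw [← cocycleOf_T_pow φ L x, cocycleOf_T_pow_eq_zero hφ L x (hfix x)]
  have hinv : ∀ i : ℕ, cuspSum Γ K (pullback Γ K ((T : SL(2, ℤ)) ^ i) f) = cuspSum Γ K f := by
    intro i
    induction i with
    | zero =>
      congr 1
      funext x
      simp
    | succ i ih =>
      rw [show pullback Γ K ((T : SL(2, ℤ)) ^ (i + 1)) f
          = pullback Γ K T (pullback Γ K ((T : SL(2, ℤ)) ^ i) f) from by
        funext x; simp [pow_succ, mul_smul], cuspSum_pullback_T, ih]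
  have h := congrArg (cuspSum Γ K) hz
  rw [LinearMap.sum_apply, map_sum, Finset.sum_congr rfl (fun i _ => hinv i), map_zero,
    Finset.sum_const, Finset.card_range, ← Nat.cast_smul_eq_nsmul K] at h
  exact (smul_eq_zero.mp h).resolve_left (Nat.cast_ne_zero.mpr hL.ne')

section Bound

variable (hneg : (-1 : SL(2, ℤ)) ∈ Γ)

section

omit [Γ.FiniteIndex] [CharZero K]

/-- The cocycle of a homomorphism, modified by a coboundary. -/
def twistedCocycle (φ : Additive Γ →+ K) (v : Cosets Γ → K) (g : SL(2, ℤ)) (x : Cosets Γ) : K :=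
  cocycleOf φ g x + (v (g • x) - v x)

/-- The twisted cocycle relation. -/
lemma twistedCocycle_mul (φ : Additive Γ →+ K) (v : Cosets Γ → K) (g h : SL(2, ℤ))
    (x : Cosets Γ) :
    twistedCocycle K φ v (g * h) x
      = twistedCocycle K φ v g (h • x) + twistedCocycle K φ v h x := by
  simp only [twistedCocycle, cocycleOf_mul, mul_smul]; ring

include hneg in
lemma twistedCocycle_neg_one {φ : Additive Γ →+ K} (hφ : IsParabolicHom Γ φ) (v : Cosets Γ → K)
    (x : Cosets Γ) : twistedCocycle K φ v (-1) x = 0 := by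
  simp [twistedCocycle, cocycleOf_neg_one hneg hφ, neg_one_smul_coset hneg]

include hneg in
lemma twistedCocycle_S_mem {φ : Additive Γ →+ K} (hφ : IsParabolicHom Γ φ) (v : Cosets Γ → K) :
    twistedCocycle K φ v (S : SL(2, ℤ)) ∈ minusTwo Γ K := by
  rw [minusTwo, LinearMap.mem_ker]
  funext x
  have h := twistedCocycle_mul K φ v (S : SL(2, ℤ)) S x
  rw [S_mul_self, twistedCocycle_neg_one K hneg hφ] at h
  simp only [LinearMap.add_apply, Module.End.one_apply, Pi.add_apply, pullback_apply,
    Pi.zero_apply]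
  rw [add_comm]
  exact h.symm

include hneg in
lemma twistedCocycle_ellThree_mem {φ : Additive Γ →+ K} (hφ : IsParabolicHom Γ φ)
    (v : Cosets Γ → K) : twistedCocycle K φ v ellThree ∈ minusThree Γ K := by
  rw [minusThree, LinearMap.mem_ker]
  funext x
  have h := twistedCocycle_mul K φ v (ellThree * ellThree) ellThree x
  rw [ellThree_sq_mul, twistedCocycle_neg_one K hneg hφ, twistedCocycle_mul] at h
  simp only [LinearMap.add_apply, Module.End.one_apply, Module.End.mul_apply, Pi.add_apply,
    pullback_apply, Pi.zero_apply]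
  linear_combination h.symm

end

variable (Γ) in
/-- The coboundary parameters: functions vanishing at the base coset. -/
def baseKer : Submodule K (Cosets Γ → K) :=
  LinearMap.ker (LinearMap.proj (R := K) (φ := fun _ => K) (QuotientGroup.mk 1 : Cosets Γ))

omit [CharZero K] in
/-- The kernel at the base coset has dimension the index minus one. -/
lemma finrank_baseKer : Module.finrank K (baseKer Γ K) + 1 = Γ.index := by
  have hsurj : Function.Surjective (LinearMap.proj (R := K) (φ := fun _ => K)
      (QuotientGroup.mk 1 : Cosets Γ)) := fun a => ⟨fun _ => a, rfl⟩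
  have h := LinearMap.finrank_range_add_finrank_ker (LinearMap.proj (R := K) (φ := fun _ => K)
    (QuotientGroup.mk 1 : Cosets Γ))
  rw [LinearMap.range_eq_top.mpr hsurj, finrank_top, Module.finrank_self, finrank_cosets] at h
  change 1 + Module.finrank K (baseKer Γ K) = _ at h
  omega

omit [Γ.FiniteIndex] in
/-- An element of `Γ` fixes the base coset, and the cocycle there is the homomorphism. -/
lemma cocycleOf_base {A : Type*} [AddCommGroup A] (φ : Additive Γ →+ A) (γ : Γ) :
    (γ : SL(2, ℤ)) • (QuotientGroup.mk 1 : Cosets Γ) = QuotientGroup.mk 1 ∧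
      cocycleOf φ (γ : SL(2, ℤ)) (QuotientGroup.mk 1) = φ (Additive.ofMul γ) := by
  set x0 : Cosets Γ := QuotientGroup.mk 1
  have hout : x0.out ∈ Γ := by
    have h' : (QuotientGroup.mk x0.out : Cosets Γ) = QuotientGroup.mk 1 :=
      QuotientGroup.out_eq' x0
    rw [QuotientGroup.eq] at h'
    simpa using h'
  have hfix : ((γ : Γ) : SL(2, ℤ)) • x0 = x0 := by
    change (QuotientGroup.mk (((γ : Γ) : SL(2, ℤ)) * 1) : Cosets Γ) = QuotientGroup.mk 1
    rw [QuotientGroup.eq]; simp
  have htr : transition ((γ : Γ) : SL(2, ℤ)) x0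
      = (⟨x0.out, hout⟩ : Γ)⁻¹ * γ * ⟨x0.out, hout⟩ := by
    apply Subtype.ext; rw [coe_transition, hfix]; rfl
  refine ⟨hfix, ?_⟩
  rw [cocycleOf, htr]
  simp only [ofMul_mul, ofMul_inv, map_add, map_neg]
  abel

/-- A parabolic homomorphism and a coboundary, sent to the values at the generators. -/
def twistedPair : (parabolicHoms K Γ K × baseKer Γ K) →ₗ[K] LinearMap.ker (cocycleDefect Γ K) :=
  { toFun := fun p =>
      ⟨(⟨twistedCocycle K p.1.1 p.2.1 S, twistedCocycle_S_mem K hneg p.1.2 p.2.1⟩,
        ⟨twistedCocycle K p.1.1 p.2.1 ellThree,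
          twistedCocycle_ellThree_mem K hneg p.1.2 p.2.1⟩), by
        rw [LinearMap.mem_ker, cocycleDefect_apply]
        have hT : (twistedCocycle K p.1.1 p.2.1 ellThree
            - pullback Γ K T (twistedCocycle K p.1.1 p.2.1 S) : Cosets Γ → K)
            = cocycleOf p.1.1 T + (pullback Γ K T p.2.1 - p.2.1) := by
          funext x
          simp only [Pi.sub_apply, pullback_apply, Pi.add_apply, ellThree, twistedCocycle_mul]
          rw [show twistedCocycle K p.1.1 p.2.1 T x
            = cocycleOf p.1.1 T x + (p.2.1 ((T : SL(2, ℤ)) • x) - p.2.1 x) from rfl]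
          ring
        change cuspSum Γ K (_ - _) = 0
        rw [hT, map_add, map_sub, cuspSum_pullback_T, sub_self, add_zero,
          cuspSum_cocycleOf_T K p.1.2]⟩
    map_add' := fun p q => by
      apply Subtype.ext
      refine Prod.ext (Subtype.ext ?_) (Subtype.ext ?_) <;> funext x <;>
        simp [twistedCocycle, cocycleOf] <;> ring
    map_smul' := fun c p => by
      apply Subtype.ext
      refine Prod.ext (Subtype.ext ?_) (Subtype.ext ?_) <;> funext x <;>
        simp [twistedCocycle, cocycleOf] <;> ring }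

/-- The twisted pair is injective. -/
lemma twistedPair_injective : Function.Injective (twistedPair K hneg) := by
  classical
  let x0 : Cosets Γ := QuotientGroup.mk 1
  rw [injective_iff_map_eq_zero]
  intro p hp
  have hS : ∀ x, twistedCocycle K p.1.1 p.2.1 (S : SL(2, ℤ)) x = 0 := fun x =>
    congrFun (congrArg (fun z => (z.1.1 : Cosets Γ → K)) hp) x
  have hU : ∀ x, twistedCocycle K p.1.1 p.2.1 ellThree x = 0 := fun x =>
    congrFun (congrArg (fun z => (z.1.2 : Cosets Γ → K)) hp) x
  have hall : ∀ g : SL(2, ℤ), ∀ x, twistedCocycle K p.1.1 p.2.1 g x = 0 := by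
    intro g
    have hg : g ∈ Subgroup.closure ({S, ellThree} : Set SL(2, ℤ)) := by
      rw [closure_S_ellThree]; trivial
    induction hg using Subgroup.closure_induction with
    | mem a ha =>
      rcases ha with rfl | rfl
      · exact hS
      · exact hU
    | one => intro x; simp [twistedCocycle, cocycleOf_one]
    | mul a b _ _ iha ihb => intro x; rw [twistedCocycle_mul, iha, ihb, add_zero]
    | inv a _ ih =>
      intro x
      have h := twistedCocycle_mul K p.1.1 p.2.1 a a⁻¹ x
      rw [ih, mul_inv_cancel, zero_add] at h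
      rw [← h]; simp [twistedCocycle, cocycleOf_one]
  have hφ : p.1 = 0 := by
    apply Subtype.ext
    refine AddMonoidHom.ext fun γ => ?_
    induction γ with
    | _ γ =>
      obtain ⟨hfix, hco⟩ := cocycleOf_base p.1.1 γ
      have h := hall γ x0
      rw [twistedCocycle, hfix, sub_self, add_zero, hco] at h
      change p.1.1 (Additive.ofMul γ) = 0
      exact h
  have hv : p.2 = 0 := by
    apply Subtype.ext
    funext x
    obtain ⟨g, hg⟩ := MulAction.exists_smul_eq SL(2, ℤ) x0 x
    have h := hall g x0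
    have h0 : p.2.1 x0 = 0 := p.2.2
    rw [twistedCocycle, hφ, hg, h0] at h
    simpa [cocycleOf] using h
  exact Prod.ext hφ hv

include hneg in
/-- **The parabolic bound.** -/
theorem parabolicHoms_bound :
    FiniteDimensional K (parabolicHoms K Γ K) ∧
    6 * Module.finrank K (parabolicHoms K Γ K) + 3 * fixTwo Γ + 4 * fixThree Γ
      + 6 * Nat.card (CuspSet Γ) ≤ Γ.index + 12 := by
  classical
  let W : Submodule K (Cosets Γ → K) := baseKer Γ K
  let Φ := twistedPair (Γ := Γ) K hneg
  have hΦ : Function.Injective Φ := twistedPair_injective K hneg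
  have hfd : FiniteDimensional K (parabolicHoms K Γ K) :=
    Module.Finite.of_injective (Φ ∘ₗ LinearMap.inl K _ W)
      (hΦ.comp LinearMap.inl_injective)
  refine ⟨hfd, ?_⟩
  have h1 := LinearMap.finrank_le_finrank_of_injective hΦ
  rw [Module.finrank_prod] at h1
  have hW := finrank_baseKer (Γ := Γ) K
  have h2 := LinearMap.finrank_range_add_finrank_ker (cocycleDefect Γ K)
  rw [Module.finrank_prod] at h2
  have h3 := card_cuspSet_le K hneg
  have h4 := two_mul_finrank_minusTwo K hneg
  have h5 := three_mul_finrank_minusThree K hneg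
  omega

end Bound

end FermatAgent.Period
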