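import Fermat.Agent.Period.Gamma0Period
import Fermat.Prelude.Def_ModularForm_HeckeOperatorForms
import Fermat.Prelude.Sol.S_ModularForm_heckeT_slash_eq_self_of_mem_Gamma0

/-!
# Hecke operators on homomorphisms of `Γ₀(N)`

The transfer operators attached to the coset representatives `(p 0; 0 1)`, `(1 j; 0 p)` and the
compatibility with `periodMap`.
-/

set_option autoImplicit false

noncomputable section

open scoped MatrixGroups ModularForm Manifold Topology Real OnePoint
open UpperHalfPlane hiding I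
open Filter Function Complex Matrix.SpecialLinearGroup CongruenceSubgroup
open ModularCurve ModularCurve.Period
open P2MW.S_ModularForm_heckeT_slash_eq_self_of_mem_Gamma0.ModularForm

namespace FermatAgent.Period

/-- If a finite sum vanishes along every cycle of a permutation, it vanishes. -/
lemma sum_eq_zero_of_cycle_sums {ι A : Type*} [Fintype ι] [AddCommGroup A] (pm : Equiv.Perm ι)
    (F : ι → A)
    (h : ∀ x, ∑ i ∈ Finset.range (minimalPeriod pm x), F (pm^[i] x) = 0) :
    ∑ x, F x = 0 := by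
  classical
  suffices hs : ∀ s : Finset ι, (∀ x ∈ s, pm x ∈ s) → ∑ x ∈ s, F x = 0 from
    hs Finset.univ fun x _ => Finset.mem_univ _
  intro s
  induction s using Finset.strongInduction with
  | _ s ih =>
    intro hinv
    rcases s.eq_empty_or_nonempty with rfl | ⟨x, hx⟩
    · simp
    set w := minimalPeriod pm x with hw
    have hper : x ∈ periodicPts pm :=
      ⟨orderOf pm, orderOf_pos pm, by
        show pm^[orderOf pm] x = x
        rw [← Equiv.Perm.coe_pow, pow_orderOf_eq_one]; rfl⟩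
    have hw0 : 0 < w := minimalPeriod_pos_of_mem_periodicPts hper
    set O := (Finset.range w).image fun i => pm^[i] x with hO
    have hOs : O ⊆ s := by
      intro y hy
      obtain ⟨i, -, rfl⟩ := Finset.mem_image.mp hy
      clear hy
      induction i with
      | zero => simpa using hx
      | succ i ihi => rw [iterate_succ_apply']; exact hinv _ ihi
    have hOinv : ∀ y ∈ s \ O, pm y ∈ s \ O := by
      intro y hy
      rw [Finset.mem_sdiff] at hy ⊢
      refine ⟨hinv y hy.1, fun hmem => hy.2 ?_⟩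
      obtain ⟨i, hi, hiy⟩ := Finset.mem_image.mp hmem
      refine Finset.mem_image.mpr ⟨(i + (w - 1)) % w, Finset.mem_range.mpr (Nat.mod_lt _ hw0), ?_⟩
      apply pm.injective
      change pm (pm^[(i + (w - 1)) % w] x) = pm y
      rw [hw, iterate_mod_minimalPeriod_eq, ← iterate_succ_apply' pm, Nat.succ_eq_add_one,
        show (i + (minimalPeriod pm x - 1)) + 1 = i + minimalPeriod pm x by omega,
        iterate_add_apply, iterate_minimalPeriod]
      exact hiy
    have hlt : s \ O ⊂ s :=
      Finset.sdiff_ssubset hOs ⟨x, Finset.mem_image.mpr ⟨0, Finset.mem_range.mpr hw0, rfl⟩⟩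
    rw [← Finset.sum_sdiff hOs, ih _ hlt hOinv, zero_add, hO,
      Finset.sum_image (fun i hi j hj hij => iterate_injOn_Iio_minimalPeriod
        (Finset.mem_range.mp hi) (Finset.mem_range.mp hj) hij)]
    exact h x

section Abstract

variable {ι : Type*} [Fintype ι] {Γ : Subgroup SL(2, ℤ)}

/-- A system of double coset representatives stable under right multiplication by `Γ`. -/
structure TransferData (Γ : Subgroup SL(2, ℤ)) (ι : Type*) where
  /-- The representatives. -/
  rep : ι → GL (Fin 2) ℝ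
  det_pos : ∀ i, 0 < (rep i).val.det
  /-- The induced permutation. -/
  perm : Γ → Equiv.Perm ι
  perm_mul : ∀ γ δ, perm (γ * δ) = perm δ * perm γ
  exists_factor : ∀ (γ : Γ) (i : ι), ∃ el : Γ,
    rep i * ((γ : SL(2, ℤ)) : GL (Fin 2) ℝ) = ((el : SL(2, ℤ)) : GL (Fin 2) ℝ) * rep (perm γ i)

namespace TransferData

variable (D : TransferData Γ ι)

section

omit [Fintype ι]

/-- The element of `Γ` produced by moving `γ` to the left of a representative. -/
def factor (γ : Γ) (i : ι) : Γ := (D.exists_factor γ i).choose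

/-- The defining property of the factor. -/
lemma factor_spec (γ : Γ) (i : ι) :
    D.rep i * ((γ : SL(2, ℤ)) : GL (Fin 2) ℝ)
      = ((D.factor γ i : SL(2, ℤ)) : GL (Fin 2) ℝ) * D.rep (D.perm γ i) :=
  (D.exists_factor γ i).choose_spec

/-- The permutation of the identity. -/
lemma perm_one : D.perm 1 = 1 := by
  have h := D.perm_mul 1 1
  rw [one_mul] at h
  exact left_eq_mul.mp h

lemma perm_pow (γ : Γ) (n : ℕ) : D.perm (γ ^ n) = D.perm γ ^ n := by
  induction n with
  | zero => rw [pow_zero, pow_zero, perm_one]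
  | succ n ih => rw [pow_succ, D.perm_mul, ih, pow_succ']

/-- The factor is a cocycle. -/
lemma factor_mul (γ δ : Γ) (i : ι) :
    D.factor (γ * δ) i = D.factor γ i * D.factor δ (D.perm γ i) := by
  apply Subtype.ext
  apply Matrix.SpecialLinearGroup.mapGL_injective (S := ℝ) (R := ℤ)
  have h1 := D.factor_spec (γ * δ) i
  have h2 := D.factor_spec γ i
  have h3 := D.factor_spec δ (D.perm γ i)
  simp only [Subgroup.coe_mul, map_mul] at h1
  rw [D.perm_mul, ← mul_assoc, h2, mul_assoc, h3, ← mul_assoc, Equiv.Perm.mul_apply] at h1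
  rw [Subgroup.coe_mul, map_mul]
  exact (mul_right_cancel h1).symm

/-- The factor of the identity. -/
lemma factor_one (i : ι) : D.factor 1 i = 1 := by
  have h := D.factor_mul 1 1 i
  rw [one_mul, perm_one, Equiv.Perm.one_apply] at h
  exact left_eq_mul.mp h

end

variable (R : Type*) [Semiring R] {A : Type*} [AddCommGroup A] [Module R A]

/-- The transfer operator on homomorphisms. -/
def op : (Additive Γ →+ A) →ₗ[R] (Additive Γ →+ A) where
  toFun φ :=
    { toFun := fun γ => ∑ i, φ (Additive.ofMul (D.factor (Additive.toMul γ) i))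
      map_zero' := by simp [factor_one]
      map_add' := fun γ δ => by
        simp only [toMul_add, factor_mul, ofMul_mul, map_add, Finset.sum_add_distrib]
        congr 1
        exact Equiv.sum_comp (D.perm (Additive.toMul γ))
          (fun i => φ (Additive.ofMul (D.factor (Additive.toMul δ) i))) }
  map_add' φ ψ := by
    refine AddMonoidHom.ext fun γ => ?_
    simp [Finset.sum_add_distrib]
  map_smul' c φ := by
    refine AddMonoidHom.ext fun γ => ?_
    simp [Finset.smul_sum]

/-- The operator sums over the factors. -/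
lemma op_apply (φ : Additive Γ →+ A) (γ : Γ) :
    D.op R φ (Additive.ofMul γ) = ∑ i, φ (Additive.ofMul (D.factor γ i)) := rfl

omit [Fintype ι] in
lemma factor_pow_sum (φ : Additive Γ →+ A) (γ : Γ) (n : ℕ) (i : ι) :
    φ (Additive.ofMul (D.factor (γ ^ n) i))
      = ∑ j ∈ Finset.range n, φ (Additive.ofMul (D.factor γ ((D.perm γ)^[j] i))) := by
  induction n with
  | zero => simp [factor_one]
  | succ n ih =>
    rw [pow_succ, factor_mul, ofMul_mul, map_add, ih, Finset.sum_range_succ, perm_pow,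
      Equiv.Perm.coe_pow]

/-- Powers of a matrix of trace `± 2` have trace `± 2`. -/
lemma trace_pow_sq_eq_four (M : SL(2, ℤ))
    (h : (M : Matrix (Fin 2) (Fin 2) ℤ).trace ^ 2 = 4) (n : ℕ) :
    ((M ^ n : SL(2, ℤ)) : Matrix (Fin 2) (Fin 2) ℤ).trace ^ 2 = 4 := by
  have hdet := M.det_coe
  rw [Matrix.det_fin_two] at hdet
  rw [Matrix.trace_fin_two] at h
  set a := M 0 0; set b := M 0 1; set c := M 1 0; set d := M 1 1
  obtain ⟨ε, hε, hε2⟩ : ∃ ε : ℤ, a + d = 2 * ε ∧ ε * ε = 1 := by
    rcases eq_or_eq_neg_of_sq_eq_sq _ (2 : ℤ) (h.trans (by norm_num)) with h' | h'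
    · exact ⟨1, by linarith, by norm_num⟩
    · exact ⟨-1, by linarith, by norm_num⟩
  have key : ∀ n : ℕ, ((M ^ n : SL(2, ℤ)) : Matrix (Fin 2) (Fin 2) ℤ).trace = 2 * ε ^ n ∧
      ((M ^ (n + 1) : SL(2, ℤ)) : Matrix (Fin 2) (Fin 2) ℤ).trace = 2 * ε ^ (n + 1) := by
    intro n
    induction n with
    | zero => simp [Matrix.trace_fin_two, hε, a, d] at hε ⊢
    | succ n ih =>
      refine ⟨ih.2, ?_⟩
      have e : ((M ^ (n + 2) : SL(2, ℤ)) : Matrix (Fin 2) (Fin 2) ℤ).trace
          = (a + d) * ((M ^ (n + 1) : SL(2, ℤ)) : Matrix (Fin 2) (Fin 2) ℤ).trace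
            - ((M ^ n : SL(2, ℤ)) : Matrix (Fin 2) (Fin 2) ℤ).trace := by
        rw [pow_succ, pow_succ, Matrix.SpecialLinearGroup.coe_mul,
          Matrix.SpecialLinearGroup.coe_mul]
        simp only [Matrix.trace_fin_two, Matrix.mul_apply, Fin.sum_univ_two, a, b, c, d] at hdet ⊢
        linear_combination
          (-((M ^ n : SL(2, ℤ)) 0 0 + (M ^ n : SL(2, ℤ)) 1 1)) * hdet
      rw [e, ih.1, ih.2, hε]
      linear_combination (2 * ε ^ n) * hε2
  rw [(key n).1, mul_pow, ← pow_mul, mul_comm n 2, pow_mul, sq ε, hε2, one_pow]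
  norm_num

/-- Transfer preserves parabolicity. -/
theorem isParabolicHom_op {φ : Additive Γ →+ A} (hφ : IsParabolicHom Γ φ) :
    IsParabolicHom Γ (D.op R φ) := by
  intro γ hγ
  rw [op_apply]
  refine sum_eq_zero_of_cycle_sums (D.perm γ) _ fun i => ?_
  rw [← factor_pow_sum]
  refine hφ _ ?_
  set w := minimalPeriod (D.perm γ) i
  have h := D.factor_spec (γ ^ w) i
  rw [perm_pow, Equiv.Perm.coe_pow, iterate_minimalPeriod] at h
  have h' := congrArg (fun g : GL (Fin 2) ℝ => g.val) h
  simp only [Units.val_mul] at h'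
  set el : SL(2, ℤ) := (D.factor (γ ^ w) i : SL(2, ℤ))
  set g := D.rep i
  have htr : (mapGL ℝ el).val.trace
      = (mapGL ℝ ((γ ^ w : Γ) : SL(2, ℤ))).val.trace := by
    calc (mapGL ℝ el).val.trace
        = ((mapGL ℝ el).val * (g.val * (g⁻¹).val)).trace := by
          rw [← Units.val_mul g, mul_inv_cancel, Units.val_one, mul_one]
      _ = ((g⁻¹).val * ((mapGL ℝ el).val * g.val)).trace := by
          rw [← mul_assoc, Matrix.trace_mul_comm]
      _ = _ := by
          rw [show (mapGL ℝ el).val * g.val = g.val * (mapGL ℝ ((γ ^ w : Γ) : SL(2, ℤ))).val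
            from h'.symm, ← mul_assoc, ← Units.val_mul, inv_mul_cancel, Units.val_one, one_mul]
  have hint : (el : Matrix (Fin 2) (Fin 2) ℤ).trace
      = (((γ ^ w : Γ) : SL(2, ℤ)) : Matrix (Fin 2) (Fin 2) ℤ).trace := by
    have hcast : ∀ M : SL(2, ℤ), (mapGL ℝ M).val.trace
        = (((M : Matrix (Fin 2) (Fin 2) ℤ).trace : ℤ) : ℝ) := fun M => by
      simp [Matrix.trace_fin_two]
    rw [hcast, hcast] at htr
    exact_mod_cast htr
  rw [hint, SubmonoidClass.coe_pow]
  exact trace_pow_sq_eq_four _ hγ w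

end TransferData

/-- The period homomorphism of a sum of slashes is the transfer of the period homomorphism. -/
theorem periodMap_eq_op {N : ℕ} [NeZero N] (D : TransferData (Gamma0 N) ι)
    (f h : CuspForm (Gamma0 N) 2) (hsum : (h : ℍ → ℂ) = ∑ i, (f : ℍ → ℂ) ∣[(2 : ℤ)] D.rep i) :
    periodMap N h = D.op ℂ (periodMap N f) := by
  obtain ⟨P, hP, -⟩ := exists_hasEquivariantPrimitive_of_cuspForm f
  obtain ⟨R, hR, -⟩ := exists_hasEquivariantPrimitive_of_cuspForm h
  have hd : ∀ τ : ℍ, HasDerivAt ((fun z : ℍ => ∑ i, P (D.rep i • z)) ∘ ofComplex)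
      (h τ) (τ : ℂ) := by
    intro τ
    rw [hsum, Finset.sum_apply]
    refine HasDerivAt.fun_sum fun i _ => ?_
    have hg := D.det_pos i
    have h2 := (hP.1 (D.rep i • τ)).comp_of_eq (τ : ℂ) (hasStrictDerivAt_smul hg τ).hasDerivAt
      (by simp)
    have h3 : HasDerivAt ((fun z : ℍ => P (D.rep i • z)) ∘ ofComplex)
        (f (D.rep i • τ) * ((D.rep i).val.det / denom (D.rep i) τ ^ 2)) (τ : ℂ) :=
      h2.congr_of_eventuallyEq (Filter.Eventually.of_forall fun z => by simp)
    refine h3.congr_deriv ?_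
    rw [ModularForm.slash_apply]
    simp only [σ, Matrix.GeneralLinearGroup.val_det_apply, if_pos hg, abs_of_pos hg,
      ContinuousAlgEquiv.refl_apply, zpow_neg]
    norm_num
    ring
  obtain ⟨c, hc⟩ := exists_sub_eq_const hR.1 hd
  refine AddMonoidHom.ext fun γ => ?_
  induction γ with
  | _ γ =>
    change periodMap N h (Additive.ofMul γ) = D.op ℂ (periodMap N f) (Additive.ofMul γ)
    rw [periodMap_apply_eq hR γ UpperHalfPlane.I, TransferData.op_apply]
    have e1 := hc ((γ : SL(2, ℤ)) • UpperHalfPlane.I)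
    have e2 := hc UpperHalfPlane.I
    have e3 : ∀ i, periodMap N f (Additive.ofMul (D.factor γ i))
        = P (D.rep i • ((γ : SL(2, ℤ)) • UpperHalfPlane.I))
          - P (D.rep (D.perm γ i) • UpperHalfPlane.I) := by
      intro i
      rw [periodMap_apply_eq hP _ (D.rep (D.perm γ i) • UpperHalfPlane.I), ModularGroup.sl_moeb,
        ModularGroup.sl_moeb, ← mul_smul, ← mul_smul]
      congr 3
      exact (D.factor_spec γ i).symm
    rw [Finset.sum_congr rfl fun i _ => e3 i, Finset.sum_sub_distrib,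
      Equiv.sum_comp (D.perm γ) (fun i => P (D.rep i • UpperHalfPlane.I))]
    linear_combination e1 - e2

end Abstract

section Gamma0

variable {N p : ℕ}

/-- `N` divides the lower left entry. -/
lemma dvd_apply_one_zero (γ : Gamma0 N) : (N : ℤ) ∣ (γ : SL(2, ℤ)) 1 0 :=
  (ZMod.intCast_zmod_eq_zero_iff_dvd _ _).mp (Gamma0_mem.mp γ.2)

open HeckeSlashInvariance in
lemma redMatrix_mul [Fact p.Prime] (g h : SL(2, ℤ)) :
    redMatrix p (g * h) = redMatrix p h * redMatrix p g := by
  ext i j
  fin_cases i <;> fin_cases j <;>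
    simp [Matrix.mul_apply, Fin.sum_univ_two] <;> ring

/-- The lower left entry vanishes modulo a divisor of `N`. -/
lemma apply_one_zero_mod_eq_zero (hpN : p ∣ N) (γ : Gamma0 N) :
    (((γ : SL(2, ℤ)) 1 0 : ℤ) : ZMod p) = 0 :=
  (ZMod.intCast_zmod_eq_zero_iff_dvd _ _).mpr
    ((Int.natCast_dvd_natCast.mpr hpN).trans (dvd_apply_one_zero γ))

variable [NeZero N]

open HeckeSlashInvariance in
/-- The transfer data of `T_p`. -/
def transferDataT [hp : Fact p.Prime] (hpN : ¬ p ∣ N) :
    TransferData (Gamma0 N) (OnePoint (ZMod p)) where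
  rep := heckeRep p
  det_pos := fun x => by
    induction x using OnePoint.rec with
    | infty => simpa using ModularForm.det_heckeDiagMatrix_pos p
    | coe j => simpa using ModularForm.det_heckeMatrix_pos p j.val
  perm γ := MulAction.toPerm (redMatrix p (γ : SL(2, ℤ)))
  perm_mul γ δ := by
    ext x
    simp [redMatrix_mul, mul_smul]
  exists_factor γ x := by
    obtain ⟨g', hg', hmul⟩ := heckeRep_mul hpN (γ : SL(2, ℤ)) (dvd_apply_one_zero γ) x
    exact ⟨⟨g', Gamma0_mem.mpr ((ZMod.intCast_zmod_eq_zero_iff_dvd _ _).mpr hg')⟩, hmul⟩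

open HeckeSlashInvariance in
/-- The transfer data of `U_p`. -/
def transferDataU [NeZero p] (hpN : p ∣ N) : TransferData (Gamma0 N) (ZMod p) where
  rep x := ModularForm.heckeMatrix p x.val
  det_pos x := by simpa using ModularForm.det_heckeMatrix_pos p x.val
  perm γ := affinePerm (γ : SL(2, ℤ)) (apply_one_zero_mod_eq_zero hpN γ)
  perm_mul γ δ := by
    ext x
    have h1 := unit_of_apply_one_zero_eq_zero _ (apply_one_zero_mod_eq_zero hpN γ)
    have hd := apply_one_zero_mod_eq_zero hpN δ
    have hg := apply_one_zero_mod_eq_zero hpN γ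
    have h2 := unit_of_apply_one_zero_eq_zero _ hd
    simp only [Equiv.Perm.mul_apply, affinePerm_apply, Subgroup.coe_mul,
      Matrix.SpecialLinearGroup.coe_mul, Matrix.mul_apply, Fin.sum_univ_two]
    push_cast
    set a := (((γ : SL(2, ℤ)) 0 0 : ℤ) : ZMod p); set b := (((γ : SL(2, ℤ)) 0 1 : ℤ) : ZMod p)
    set d := (((γ : SL(2, ℤ)) 1 1 : ℤ) : ZMod p); set c := (((γ : SL(2, ℤ)) 1 0 : ℤ) : ZMod p)
    set a' := (((δ : SL(2, ℤ)) 0 0 : ℤ) : ZMod p); set b' := (((δ : SL(2, ℤ)) 0 1 : ℤ) : ZMod p)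
    set d' := (((δ : SL(2, ℤ)) 1 1 : ℤ) : ZMod p); set c' := (((δ : SL(2, ℤ)) 1 0 : ℤ) : ZMod p)
    rw [hg]
    linear_combination (d' * b') * h1
  exists_factor γ x := by
    obtain ⟨g', hg', hmul⟩ := heckeMatrix_mul_of_dvd (γ : SL(2, ℤ))
      ((Int.natCast_dvd_natCast.mpr hpN).trans (dvd_apply_one_zero γ)) x
    refine ⟨⟨g', ?_⟩, hmul⟩
    rw [Gamma0_mem, hg']
    push_cast
    rw [Gamma0_mem.mp γ.2, mul_zero]

/-- `periodMap` intertwines `T_p` with its transfer operator. -/
theorem periodMap_heckeTLin (hp : p.Prime) (hpN : ¬ p ∣ N) (f : CuspForm (Gamma0 N) 2) :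
    haveI : Fact p.Prime := ⟨hp⟩
    periodMap N (CuspForm.heckeTLin 2 hp hpN f) = (transferDataT hpN).op ℂ (periodMap N f) := by
  have : Fact p.Prime := ⟨hp⟩
  have : NeZero p := ⟨hp.ne_zero⟩
  refine periodMap_eq_op _ f _ ?_
  rw [CuspForm.coe_heckeTLin_apply, HeckeSlashInvariance.heckeT_eq_sum_onePoint]
  rfl

/-- `periodMap` intertwines `U_p` with its transfer operator. -/
theorem periodMap_heckeULin [NeZero p] (hpN : p ∣ N) (f : CuspForm (Gamma0 N) 2) :
    periodMap N (CuspForm.heckeULin 2 hpN f) = (transferDataU hpN).op ℂ (periodMap N f) := by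
  refine periodMap_eq_op _ f _ ?_
  rw [CuspForm.coe_heckeULin_apply, HeckeSlashInvariance.heckeU_eq_sum_zmod]
  rfl

end Gamma0

end FermatAgent.Period
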