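import Fermat.Agent.Period.Primitive

/-!
# A weight two cusp form with purely imaginary periods vanishes
-/

set_option autoImplicit false

noncomputable section

open scoped MatrixGroups ModularForm Manifold Topology Real
open UpperHalfPlane hiding I
open Filter Function Complex Matrix.SpecialLinearGroup
open ModularCurve ModularCurve.Period

namespace FermatAgent.Period

variable {Γ : Subgroup SL(2, ℤ)} [Γ.FiniteIndex]

lemma norm_qParam_le_of_half_le_im {w : ℝ} (hw : 0 < w) {z : ℍ} (hz : 1 / 2 ≤ z.im) :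
    ‖Periodic.qParam w (z : ℂ)‖ ≤ Real.exp (-π / w) := by
  rw [Periodic.norm_qParam]
  apply Real.exp_le_exp.mpr
  rw [div_le_div_iff_of_pos_right hw]
  change -2 * π * z.im ≤ -π
  nlinarith [Real.pi_pos]

omit [Γ.FiniteIndex] in
/-- Right coset decomposition through the chosen representatives of left cosets. -/
lemma exists_mem_mul_out_inv (a : SL(2, ℤ)) :
    ∃ (γ : Γ) (x : Cosets Γ), a = (γ : SL(2, ℤ)) * x.out⁻¹ := by
  obtain ⟨h, hh⟩ := QuotientGroup.mk_out_eq_mul Γ a⁻¹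
  exact ⟨h, QuotientGroup.mk a⁻¹, by rw [hh]; group⟩

/-- A cusp form of weight two all of whose periods are purely imaginary is zero. -/
theorem eq_zero_of_re_period_eq_zero (f : CuspForm Γ 2) {P : ℍ → ℂ}
    (hP : ∀ τ : ℍ, HasDerivAt (P ∘ ofComplex) (f τ) (τ : ℂ))
    (hcusp : ∀ δ : SL(2, ℤ), ∃ (L : ℂ) (G : ℂ → ℂ), DifferentiableOn ℂ G (Metric.ball 0 1) ∧
      G 0 = 0 ∧ ∀ τ : ℍ, P (δ • τ) = G (Periodic.qParam (cuspPeriod Γ) τ) + L)
    (hre : ∀ γ : Γ, ((isEquivariantPrimitive_of_hasDerivAt f hP).period γ).re = 0) : f = 0 := by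
  have hw : (0 : ℝ) < cuspPeriod Γ := by exact_mod_cast cuspPeriod_pos
  have hPE := isEquivariantPrimitive_of_hasDerivAt f hP
  have hinv : ∀ (γ : Γ) (τ : ℍ), ‖exp (P ((γ : SL(2, ℤ)) • τ))‖ = ‖exp (P τ)‖ := by
    intro γ τ
    have h : (P ((γ : SL(2, ℤ)) • τ) - P τ).re = 0 := by
      rw [hPE.sub_eq_period]; exact hre γ
    rw [sub_re] at h
    rw [norm_exp, norm_exp, sub_eq_zero.mp h]
  choose L G hGd _hG0 hG using fun x : Cosets Γ => hcusp x.out⁻¹
  set r := Real.exp (-π / (cuspPeriod Γ : ℝ)) with hr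
  have hr1 : r < 1 :=
    Real.exp_lt_one_iff.mpr (div_neg_of_neg_of_pos (neg_neg_of_pos Real.pi_pos) hw)
  have hcpt : ∀ x, ∃ q ∈ Metric.closedBall (0 : ℂ) r, ∀ q' ∈ Metric.closedBall (0 : ℂ) r,
      ‖exp (G x q' + L x)‖ ≤ ‖exp (G x q + L x)‖ := by
    intro x
    have hc : ContinuousOn (fun q => ‖exp (G x q + L x)‖) (Metric.closedBall (0 : ℂ) r) :=
      (((hGd x).mono (Metric.closedBall_subset_ball hr1)).continuousOn.add
        continuousOn_const).cexp.norm
    obtain ⟨q, hq, hmax⟩ := (isCompact_closedBall (0 : ℂ) r).exists_isMaxOn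
      (Metric.nonempty_closedBall.mpr (Real.exp_nonneg _)) hc
    exact ⟨q, hq, fun q' hq' => hmax hq'⟩
  choose q hq hqmax using hcpt
  obtain ⟨x0, -, hx0⟩ := Finset.exists_max_image Finset.univ
    (fun x : Cosets Γ => ‖exp (G x (q x) + L x)‖) ⟨QuotientGroup.mk 1, Finset.mem_univ _⟩
  set M := ‖exp (G x0 (q x0) + L x0)‖
  have hall : ∀ τ : ℍ, ‖exp (P τ)‖ ≤ M := by
    intro τ
    obtain ⟨a, ha⟩ := ModularGroup.exists_one_half_le_im_smul τ
    obtain ⟨γ, x, hγ⟩ := exists_mem_mul_out_inv (Γ := Γ) a⁻¹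
    have hτ : τ = (γ : SL(2, ℤ)) • x.out⁻¹ • (a • τ) := by
      rw [← mul_smul, ← hγ, inv_smul_smul]
    rw [hτ, hinv, hG x]
    refine (hqmax x _ ?_).trans (hx0 x (Finset.mem_univ _))
    rw [mem_closedBall_zero_iff]
    exact norm_qParam_le_of_half_le_im hw ha
  have hmax : IsMaxOn (norm ∘ fun z => exp (G x0 z + L x0)) (Metric.ball (0 : ℂ) 1) (q x0) := by
    intro z hz
    simp only [Set.mem_ofPred_eq, comp_apply]
    rcases eq_or_ne z 0 with rfl | hz0
    · exact hqmax x0 0 (Metric.mem_closedBall_self (Real.exp_nonneg _))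
    · rw [mem_ball_zero_iff] at hz
      have him := Periodic.im_invQParam_pos_of_norm_lt_one hw hz hz0
      have h := hall (x0.out⁻¹ • ⟨_, him⟩)
      rwa [hG x0, Periodic.qParam_right_inv hw.ne' hz0] at h
  have hconst := Complex.eqOn_of_isPreconnected_of_isMaxOn_norm
    (convex_ball (0 : ℂ) 1).isPreconnected
    Metric.isOpen_ball (((hGd x0).add_const (L x0)).cexp)
    (Metric.closedBall_subset_ball hr1 (hq x0)) hmax
  have hslash : (f : ℍ → ℂ) ∣[(2 : ℤ)] x0.out⁻¹ = 0 := by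
    funext τ
    have h1 := (hasDerivAt_comp_smul x0.out⁻¹ hP τ).cexp
    have h2 : HasDerivAt (fun z => exp (((fun w : ℍ => P (x0.out⁻¹ • w)) ∘ ofComplex) z)) 0
        (τ : ℂ) := by
      refine (hasDerivAt_const (τ : ℂ) (exp (G x0 (q x0) + L x0))).congr_of_eventuallyEq
        (Filter.Eventually.of_forall fun z => ?_)
      simp only [comp_apply]
      rw [hG x0]
      exact hconst (by simpa using Periodic.norm_qParam_lt_one hw (ofComplex z).im_pos)
    have h3 := h1.unique h2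
    simpa [exp_ne_zero] using h3
  ext τ
  have h : ((f : ℍ → ℂ) ∣[(2 : ℤ)] x0.out⁻¹) ∣[(2 : ℤ)] x0.out = 0 := by
    rw [hslash, SlashAction.zero_slash]
  rw [← SlashAction.slash_mul, inv_mul_cancel, SlashAction.slash_one] at h
  simpa using congrFun h τ

end FermatAgent.Period
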