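import Fermat.Agent.Period.ParabolicBound

/-!
# The integral lattice of parabolic homomorphisms

For a finite index `Γ ≤ SL(2, ℤ)`, the parabolic homomorphisms with values in a torsion free group
have a common basis of integral homomorphisms with a dual family of group elements.
-/

set_option autoImplicit false

noncomputable section

open scoped MatrixGroups
open Function ModularCurve ModularCurve.Period

namespace FermatAgent.Period

instance groupFG_SL2Z : Group.FG SL(2, ℤ) :=
  ⟨⟨{ModularGroup.S, ellThree}, by simpa using closure_S_ellThree⟩⟩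

variable (Γ : Subgroup SL(2, ℤ))

/-- The subgroup generated by the classes of the elements of trace `±2`. -/
def parKer : AddSubgroup (Additive (Abelianization Γ)) :=
  AddSubgroup.closure {x | ∃ γ : Γ, ((γ : SL(2, ℤ)) : Matrix (Fin 2) (Fin 2) ℤ).trace ^ 2 = 4 ∧
    x = Additive.ofMul (Abelianization.of γ)}

/-- The abelianisation modulo parabolics. -/
abbrev ParQuot : Type := Additive (Abelianization Γ) ⧸ parKer Γ

/-- Its free quotient. -/
abbrev ParFree : Type := ParQuot Γ ⧸ Submodule.torsion ℤ (ParQuot Γ)

/-- The projection to the free quotient. -/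
def parMap : Additive Γ →+ ParFree Γ :=
  (Submodule.torsion ℤ (ParQuot Γ)).mkQ.toAddMonoidHom.comp
    ((QuotientAddGroup.mk' (parKer Γ)).comp (MonoidHom.toAdditive Abelianization.of))

lemma parMap_surjective : Surjective (parMap Γ) :=
  (Submodule.mkQ_surjective _).comp
    ((QuotientAddGroup.mk'_surjective _).comp Quotient.mk''_surjective)

lemma parMap_isParabolicHom : IsParabolicHom Γ (parMap Γ) := by
  intro γ hγ
  have h : QuotientAddGroup.mk' (parKer Γ) (Additive.ofMul (Abelianization.of γ)) = 0 :=
    (QuotientAddGroup.eq_zero_iff _).mpr (AddSubgroup.subset_closure ⟨γ, hγ, rfl⟩)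
  change (Submodule.torsion ℤ (ParQuot Γ)).mkQ
    (QuotientAddGroup.mk' (parKer Γ) (Additive.ofMul (Abelianization.of γ))) = 0
  rw [h, map_zero]

variable {Γ}

/-- A parabolic homomorphism into a torsion free group factors through the free quotient. -/
lemma exists_parFree_factor {A : Type*} [AddCommGroup A] [IsAddTorsionFree A]
    {ψ : Additive Γ →+ A} (hψ : IsParabolicHom Γ ψ) :
    ∃ f : ParFree Γ →ₗ[ℤ] A, ∀ x, f (parMap Γ x) = ψ x := by
  set a : Additive (Abelianization Γ) →+ A :=
    MonoidHom.toAdditiveLeft (Abelianization.lift (AddMonoidHom.toMultiplicativeRight ψ))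
  have ha : ∀ γ : Γ, a (Additive.ofMul (Abelianization.of γ)) = ψ (Additive.ofMul γ) := fun γ => rfl
  have hker : parKer Γ ≤ a.ker := (AddSubgroup.closure_le _).mpr (by
    rintro _ ⟨γ, hγ, rfl⟩
    exact hψ γ hγ)
  set b : ParQuot Γ →ₗ[ℤ] A := (QuotientAddGroup.lift (parKer Γ) a hker).toIntLinearMap
  have htors : Submodule.torsion ℤ (ParQuot Γ) ≤ LinearMap.ker b := by
    intro x hx
    obtain ⟨⟨n, hn⟩, hnx⟩ := hx
    have h : n • b x = 0 := by
      rw [← map_smul]
      exact (congrArg b hnx).trans (map_zero b)
    exact (smul_eq_zero.mp h).resolve_left (nonZeroDivisors.ne_zero hn)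
  exact ⟨(Submodule.torsion ℤ (ParQuot Γ)).liftQ b htors, fun x => ha (Additive.toMul x)⟩

variable (Γ) [Γ.FiniteIndex]

instance moduleFinite_parQuot : Module.Finite ℤ (ParQuot Γ) := by
  have : Group.FG Γ := inferInstance
  have : Group.FG (Abelianization Γ) :=
    Group.fg_of_surjective (f := Abelianization.of) Quotient.mk''_surjective
  have : Module.Finite ℤ (Additive (Abelianization Γ)) :=
    Module.Finite.iff_addGroup_fg.mpr inferInstance
  exact Module.Finite.of_surjective (QuotientAddGroup.mk' (parKer Γ)).toIntLinearMap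
    (QuotientAddGroup.mk'_surjective _)

instance moduleFree_parFree : Module.Free ℤ (ParFree Γ) :=
  Module.free_of_finite_type_torsion_free'

/-- The rank of the lattice of parabolic homomorphisms. -/
def parRank : ℕ := Module.finrank ℤ (ParFree Γ)

/-- A basis of the free quotient. -/
def parBasis : Module.Basis (Fin (parRank Γ)) ℤ (ParFree Γ) := Module.finBasis ℤ _

/-- The basic integral parabolic homomorphisms. -/
def parHom (i : Fin (parRank Γ)) : Additive Γ →+ ℤ :=
  ((parBasis Γ).coord i).toAddMonoidHom.comp (parMap Γ)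

/-- Group elements dual to the basic homomorphisms. -/
def parElt (i : Fin (parRank Γ)) : Γ :=
  Additive.toMul (parMap_surjective Γ (parBasis Γ i)).choose

/-- The chosen elements map to the basis. -/
lemma parMap_parElt (i : Fin (parRank Γ)) :
    parMap Γ (Additive.ofMul (parElt Γ i)) = parBasis Γ i :=
  (parMap_surjective Γ (parBasis Γ i)).choose_spec

/-- The dual homomorphisms on the chosen elements. -/
lemma parHom_parElt (i j : Fin (parRank Γ)) :
    parHom Γ i (Additive.ofMul (parElt Γ j)) = if i = j then 1 else 0 := by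
  simp [parHom, parMap_parElt, Finsupp.single_apply, eq_comm]

/-- The dual homomorphisms are parabolic. -/
lemma isParabolicHom_parHom (i : Fin (parRank Γ)) : IsParabolicHom Γ (parHom Γ i) := by
  intro γ hγ
  simp [parHom, parMap_isParabolicHom Γ γ hγ]

variable {Γ}

/-- **Expansion of a parabolic homomorphism in the integral basis.** -/
theorem eq_sum_parHom {A : Type*} [AddCommGroup A] [IsAddTorsionFree A]
    {ψ : Additive Γ →+ A} (hψ : IsParabolicHom Γ ψ) (x : Additive Γ) :
    ψ x = ∑ i, parHom Γ i x • ψ (Additive.ofMul (parElt Γ i)) := by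
  obtain ⟨f, hf⟩ := exists_parFree_factor hψ
  rw [← hf x]
  conv_lhs => rw [← (parBasis Γ).sum_repr (parMap Γ x), map_sum]
  refine Finset.sum_congr rfl fun i _ => ?_
  rw [map_smul, ← parMap_parElt Γ i, hf]
  rfl

variable (Γ)

/-- Parabolic homomorphisms with values in a torsion free module are vectors of their values on
the dual elements. -/
def parabolicCoords (R A : Type*) [Semiring R] [AddCommGroup A] [Module R A]
    [IsAddTorsionFree A] : parabolicHoms R Γ A ≃ₗ[R] (Fin (parRank Γ) → A) where
  toFun ψ i := ψ.1 (Additive.ofMul (parElt Γ i))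
  map_add' _ _ := rfl
  map_smul' _ _ := rfl
  invFun v :=
    ⟨∑ i, ((smulAddHom ℤ A).flip (v i)).comp (parHom Γ i), fun γ hγ => by
      simp [isParabolicHom_parHom Γ _ γ hγ]⟩
  left_inv ψ := by
    refine Subtype.ext (AddMonoidHom.ext fun x => ?_)
    rw [eq_sum_parHom ψ.2 x]
    simp
  right_inv v := by
    funext j
    simp [parHom_parElt]

/-- Parabolic homomorphisms form a space of dimension the rank. -/
lemma finrank_parabolicHoms (K : Type*) [Field K] [CharZero K] :
    Module.finrank K (parabolicHoms K Γ K) = parRank Γ := by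
  have : IsAddTorsionFree K := .of_isTorsionFree K K
  rw [(parabolicCoords Γ K K).finrank_eq, Module.finrank_fin_fun]

end FermatAgent.Period
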