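import Fermat.Agent.Period.Injective
import Fermat.Prelude.Def_FLTPrelim_Modularity

/-!
# The period map of `Γ₀(N)`: existence, linearity, parabolicity, injectivity of `periodHomPair`
-/

set_option autoImplicit false

noncomputable section

open scoped MatrixGroups ModularForm Manifold Topology Real ComplexConjugate
open UpperHalfPlane hiding I
open Filter Function Complex Matrix.SpecialLinearGroup CongruenceSubgroup
open ModularCurve ModularCurve.Period

namespace FermatAgent.Period

variable {N : ℕ}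

/-- `-1` lies in `Γ₀(N)`. -/
lemma neg_one_mem_Gamma0 (N : ℕ) : (-1 : SL(2, ℤ)) ∈ Gamma0 N := by
  rw [Gamma0_mem]; simp

theorem hasEquivariantPrimitive_unique {f : CuspForm (Gamma0 N) 2} {P Q : ℍ → ℂ}
    (hP : HasEquivariantPrimitive N f P) (hQ : HasEquivariantPrimitive N f Q) : P = Q := by
  obtain ⟨c, hc⟩ := exists_sub_eq_const hP.1 hQ.1
  have h := hP.2.1.sub hQ.2.1
  rw [sub_self] at h
  have hc0 : c = 0 :=
    tendsto_nhds_unique (tendsto_const_nhds (x := c) (f := atImInfty)) (h.congr hc)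
  funext τ
  exact sub_eq_zero.mp ((hc τ).trans hc0)

theorem periodMap_eq_periodHom {f : CuspForm (Gamma0 N) 2} {P : ℍ → ℂ}
    (hP : HasEquivariantPrimitive N f P) : periodMap N f = hP.2.2.1.periodHom := by
  obtain ⟨Q, hQ, h⟩ := periodMap_def N f hP
  obtain rfl := hasEquivariantPrimitive_unique hP hQ
  exact h

/-- The period is the increment of a primitive. -/
theorem periodMap_apply_eq {f : CuspForm (Gamma0 N) 2} {P : ℍ → ℂ}
    (hP : HasEquivariantPrimitive N f P) (γ : Gamma0 N) (τ : ℍ) :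
    periodMap N f (Additive.ofMul γ) = P ((γ : SL(2, ℤ)) • τ) - P τ := by
  rw [periodMap_eq_periodHom hP, IsEquivariantPrimitive.periodHom_apply,
    hP.2.2.1.sub_eq_period]

variable [NeZero N]

/-- A cusp form has an equivariant primitive with limits at all cusps. -/
theorem exists_hasEquivariantPrimitive_of_cuspForm (f : CuspForm (Gamma0 N) 2) :
    ∃ P : ℍ → ℂ, HasEquivariantPrimitive N f P ∧
      ∀ δ : SL(2, ℤ), ∃ (L : ℂ) (G : ℂ → ℂ), DifferentiableOn ℂ G (Metric.ball 0 1) ∧ G 0 = 0 ∧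
        ∀ τ : ℍ, P (δ • τ) = G (Periodic.qParam (cuspPeriod (Gamma0 N)) τ) + L := by
  obtain ⟨P, hP, hlim, hcusp⟩ := exists_primitive f
  refine ⟨P, ⟨hP, hlim, isEquivariantPrimitive_of_hasDerivAt f hP, fun δ => ?_⟩, hcusp⟩
  obtain ⟨L, G, hGd, hG0, hG⟩ := hcusp δ
  refine ⟨L, ?_⟩
  have hw : (0 : ℝ) < cuspPeriod (Gamma0 N) := by exact_mod_cast cuspPeriod_pos
  have hc : Tendsto G (𝓝 0) (𝓝 0) := by
    simpa [hG0] using
      ((hGd.differentiableAt (Metric.ball_mem_nhds _ one_pos)).continuousAt).tendsto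
  have h := (hc.comp (qParam_tendsto_atImInfty hw)).add_const L
  rw [zero_add] at h
  exact h.congr fun τ => (hG τ).symm

theorem periodMap_add (f g : CuspForm (Gamma0 N) 2) :
    periodMap N (f + g) = periodMap N f + periodMap N g := by
  obtain ⟨P, hP, -⟩ := exists_hasEquivariantPrimitive_of_cuspForm f
  obtain ⟨Q, hQ, -⟩ := exists_hasEquivariantPrimitive_of_cuspForm g
  have hPQ : HasEquivariantPrimitive N (f + g) (P + Q) := by
    refine ⟨fun τ => (hP.1 τ).add (hQ.1 τ), by simpa [Pi.add_def] using hP.2.1.add hQ.2.1,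
      isEquivariantPrimitive_of_hasDerivAt (f + g) fun τ => (hP.1 τ).add (hQ.1 τ), fun δ => ?_⟩
    obtain ⟨L, hL⟩ := hP.2.2.2 δ
    obtain ⟨M, hM⟩ := hQ.2.2.2 δ
    exact ⟨L + M, hL.add hM⟩
  refine AddMonoidHom.ext fun γ => ?_
  induction γ with
  | _ γ =>
    change periodMap N (f + g) (Additive.ofMul γ)
      = periodMap N f (Additive.ofMul γ) + periodMap N g (Additive.ofMul γ)
    rw [periodMap_apply_eq hPQ γ UpperHalfPlane.I, periodMap_apply_eq hP γ UpperHalfPlane.I,
      periodMap_apply_eq hQ γ UpperHalfPlane.I]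
    simp only [Pi.add_apply]; ring

/-- The period map is homogeneous. -/
theorem periodMap_smul (c : ℂ) (f : CuspForm (Gamma0 N) 2) :
    periodMap N (c • f) = c • periodMap N f := by
  obtain ⟨P, hP, -⟩ := exists_hasEquivariantPrimitive_of_cuspForm f
  have hd : ∀ τ : ℍ, HasDerivAt ((c • P) ∘ ofComplex) ((c • f) τ) (τ : ℂ) := fun τ =>
    (hP.1 τ).const_smul c
  have hP' : HasEquivariantPrimitive N (c • f) (c • P) := by
    refine ⟨hd, by simpa using! hP.2.1.const_smul c, isEquivariantPrimitive_of_hasDerivAt _ hd,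
      fun δ => ?_⟩
    obtain ⟨L, hL⟩ := hP.2.2.2 δ
    exact ⟨c • L, hL.const_smul c⟩
  refine AddMonoidHom.ext fun γ => ?_
  induction γ with
  | _ γ =>
    change periodMap N (c • f) (Additive.ofMul γ) = c • periodMap N f (Additive.ofMul γ)
    rw [periodMap_apply_eq hP' γ UpperHalfPlane.I, periodMap_apply_eq hP γ UpperHalfPlane.I]
    simp only [Pi.smul_apply, smul_eq_mul]; ring

theorem existsPeriodMapLinear_of_neZero : ExistsPeriodMapLinear N :=
  ⟨{ toFun := periodMap N, map_add' := periodMap_add, map_smul' := periodMap_smul }, fun _ => rfl⟩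

theorem periodMap_mem_parabolicHoms (f : CuspForm (Gamma0 N) 2) :
    periodMap N f ∈ parabolicHoms ℂ (Gamma0 N) ℂ := by
  obtain ⟨P, hP, -⟩ := exists_hasEquivariantPrimitive_of_cuspForm f
  rw [periodMap_eq_periodHom hP, mem_parabolicHoms_iff]
  exact isParabolicHom_periodHom hP.2.2.1 hP.2.2.2

section Involution

/-- `J` normalises `SL(2, ℤ)`. -/
lemma J_mul_eq (δ : SL(2, ℤ)) :
    UpperHalfPlane.J * (δ : GL (Fin 2) ℝ) = (jConjSL δ : GL (Fin 2) ℝ) * UpperHalfPlane.J := by
  ext i j
  fin_cases i <;> fin_cases j <;>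
    simp [UpperHalfPlane.J, Matrix.mul_apply, Fin.sum_univ_two]

lemma J_smul_smul (δ : SL(2, ℤ)) (τ : ℍ) :
    UpperHalfPlane.J • (δ • τ) = jConjSL δ • (UpperHalfPlane.J • τ) := by
  rw [ModularGroup.sl_moeb, ModularGroup.sl_moeb, ← mul_smul, ← mul_smul]
  exact congrArg (· • τ) (J_mul_eq δ)

lemma slash_J_apply (f : ℍ → ℂ) (k : ℤ) (τ : ℍ) :
    (f ∣[k] UpperHalfPlane.J) τ = conj (f (UpperHalfPlane.J • τ)) := by
  simp [ModularForm.slash_def, J_smul]

/-- The form `τ ↦ conj (f (-conj τ))`. -/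
def conjForm {k : ℤ} (f : CuspForm (Gamma0 N) k) : CuspForm (Gamma0 N) k where
  toFun := (f : ℍ → ℂ) ∣[k] UpperHalfPlane.J
  slash_action_eq' := by
    intro γ hγ
    obtain ⟨δ, hδ, rfl⟩ := hγ
    rw [← SlashAction.slash_mul]
    change (f : ℍ → ℂ) ∣[k] (UpperHalfPlane.J * (δ : GL (Fin 2) ℝ)) = _
    rw [J_mul_eq, SlashAction.slash_mul]
    congr 1
    exact slash_eq_self f ⟨jConjSL δ, jConjSL_mem_Gamma0 hδ⟩
  holo' := (CuspFormClass.holo f).slash k _
  zero_at_cusps' := by
    intro c hc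
    rw [Subgroup.IsArithmetic.isCusp_iff_isCusp_SL2Z] at hc
    rw [OnePoint.isZeroAt_iff_forall_SL2Z hc]
    intro δ _
    rw [ModularForm.SL_slash, ← SlashAction.slash_mul]
    change IsZeroAtImInfty ((f : ℍ → ℂ) ∣[k] (UpperHalfPlane.J * (δ : GL (Fin 2) ℝ)))
    rw [J_mul_eq, SlashAction.slash_mul]
    exact IsZeroAtImInfty.slash _ rfl (CuspFormClass.zero_at_infty_slash f (jConjSL δ))

/-- The conjugate form. -/
lemma conjForm_apply (f : CuspForm (Gamma0 N) 2) (τ : ℍ) :
    conjForm f τ = conj (f (UpperHalfPlane.J • τ)) := slash_J_apply f 2 τ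

/-- The periods of the conjugate form. -/
theorem periodMap_conjForm (f : CuspForm (Gamma0 N) 2) (γ : Gamma0 N) :
    periodMap N (conjForm f) (Additive.ofMul γ)
      = -conj (periodMap N f (Additive.ofMul (jConjGamma0 N γ))) := by
  obtain ⟨P, hP, -⟩ := exists_hasEquivariantPrimitive_of_cuspForm f
  set Q : ℍ → ℂ := fun τ => -conj (P (UpperHalfPlane.J • τ))
  obtain ⟨R, hR, -⟩ := exists_hasEquivariantPrimitive_of_cuspForm (conjForm f)
  have hd : ∀ τ : ℍ, HasDerivAt (Q ∘ ofComplex) (conjForm f τ) (τ : ℂ) := by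
    intro τ
    have h1 : HasDerivAt (conj ∘ (P ∘ ofComplex) ∘ conj) (conj (f (UpperHalfPlane.J • τ)))
        (-(τ : ℂ)) := by
      have h := (hP.1 (UpperHalfPlane.J • τ)).conj_conj
      rw [coe_J_smul, map_neg, conj_conj] at h
      exact h
    have h2 : HasDerivAt (fun z : ℂ => conj ((P ∘ ofComplex) (conj (-z))))
        (conj (f (UpperHalfPlane.J • τ)) * (-1)) (τ : ℂ) :=
      h1.comp (τ : ℂ) (hasDerivAt_neg (τ : ℂ))
    have h3 := h2.neg
    rw [mul_neg_one, neg_neg, ← conjForm_apply] at h3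
    refine h3.congr_of_eventuallyEq ?_
    filter_upwards [isOpen_upperHalfPlaneSet.mem_nhds τ.im_pos] with z hz
    simp only [Q, comp_apply, ofComplex_apply_of_im_pos hz]
    congr 2
    have hz' : 0 < (conj (-z)).im := by simpa using hz
    rw [ofComplex_apply_of_im_pos hz']
    congr 1
    apply UpperHalfPlane.ext
    rw [coe_J_smul]
    exact (map_neg (starRingEnd ℂ) z).symm
  obtain ⟨c, hc⟩ := exists_sub_eq_const hR.1 hd
  rw [periodMap_apply_eq hR γ UpperHalfPlane.I,
    periodMap_apply_eq hP (jConjGamma0 N γ) (UpperHalfPlane.J • UpperHalfPlane.I)]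
  have e1 := hc ((γ : SL(2, ℤ)) • UpperHalfPlane.I)
  have e2 := hc UpperHalfPlane.I
  rw [jConjGamma0_coe, ← J_smul_smul, map_sub]
  simp only [Q] at e1 e2
  linear_combination e1 - e2

theorem eq_zero_of_re_periodMap_eq_zero (f : CuspForm (Gamma0 N) 2)
    (h : ∀ γ : Gamma0 N, (periodMap N f (Additive.ofMul γ)).re = 0) : f = 0 := by
  obtain ⟨P, hP, hcusp⟩ := exists_hasEquivariantPrimitive_of_cuspForm f
  refine eq_zero_of_re_period_eq_zero f hP.1 hcusp fun γ => ?_
  have h' := h γ
  rw [periodMap_eq_periodHom hP] at h'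
  exact h'

/-- If `(1 + ε · ι) (periods of f) = 0` for a sign `ε`, then `f = 0`. -/
theorem eq_zero_of_periodMap_symm (f : CuspForm (Gamma0 N) 2) (ε : ℂ) (hε : ε = 1 ∨ ε = -1)
    (h : ∀ γ : Gamma0 N, periodMap N f (Additive.ofMul γ)
      = -ε * periodMap N f (Additive.ofMul (jConjGamma0 N γ))) : f = 0 := by
  set g := ε • conjForm f
  have hP : ∀ γ : Gamma0 N,
      periodMap N f (Additive.ofMul γ) = conj (periodMap N g (Additive.ofMul γ)) := by
    intro γ
    rw [periodMap_smul]
    change periodMap N f (Additive.ofMul γ) = conj (ε * periodMap N (conjForm f) (Additive.ofMul γ))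
    rw [periodMap_conjForm, map_mul, map_neg, conj_conj, h γ]
    rcases hε with rfl | rfl <;> simp
  have h1 : Complex.I • (f + g) = 0 := eq_zero_of_re_periodMap_eq_zero _ fun γ => by
    rw [periodMap_smul, periodMap_add]
    change (Complex.I * (periodMap N f _ + periodMap N g _)).re = 0
    rw [hP γ]; simp
  have h2 : f - g = 0 := eq_zero_of_re_periodMap_eq_zero _ fun γ => by
    rw [sub_eq_add_neg, ← neg_one_smul ℂ g, periodMap_add, periodMap_smul]
    change (periodMap N f _ + (-1 : ℂ) * periodMap N g _).re = 0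
    rw [hP γ]; simp
  have h1' : f + g = 0 := (smul_eq_zero.mp h1).resolve_left Complex.I_ne_zero
  have h3 : (2 : ℂ) • f = 0 := by
    calc (2 : ℂ) • f = (f + g) + (f - g) := by module
      _ = 0 := by rw [h1', h2, add_zero]
  exact (smul_eq_zero.mp h3).resolve_left two_ne_zero

/-- The period pair in terms of the involution. -/
theorem periodHomPair_apply_of_neZero (f g : CuspForm (Gamma0 N) 2) :
    periodHomPair N (f, g) = periodMap N f + charInvolution N ℂ ℂ (periodMap N f)
      + (periodMap N g - charInvolution N ℂ ℂ (periodMap N g)) := by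
  obtain ⟨pml, hpml, h⟩ := periodHomPair_def N existsPeriodMapLinear_of_neZero
  rw [h, LinearMap.coprod_apply]
  simp [hpml]

/-- A pair of cusp forms is determined by its periods. -/
theorem periodHomPair_injective : Function.Injective (periodHomPair N) := by
  rw [injective_iff_map_eq_zero]
  rintro ⟨f, g⟩ h
  rw [periodHomPair_apply_of_neZero] at h
  have hpt : ∀ γ : Gamma0 N,
      periodMap N f (Additive.ofMul γ) + periodMap N f (Additive.ofMul (jConjGamma0 N γ))
        + (periodMap N g (Additive.ofMul γ) - periodMap N g (Additive.ofMul (jConjGamma0 N γ)))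
        = 0 := fun γ => DFunLike.congr_fun h (Additive.ofMul γ)
  refine Prod.ext
    (eq_zero_of_periodMap_symm f 1 (Or.inl rfl) fun γ => ?_)
    (eq_zero_of_periodMap_symm g (-1) (Or.inr rfl) fun γ => ?_) <;>
  · have e1 := hpt γ
    have e2 := hpt (jConjGamma0 N γ)
    rw [jConjGamma0_jConjGamma0] at e2
    first
      | linear_combination (e1 + e2) / 2
      | linear_combination (e1 - e2) / 2

/-- Periods are parabolic. -/
theorem range_periodHomPair_le :
    LinearMap.range (periodHomPair N) ≤ parabolicHoms ℂ (Gamma0 N) ℂ := by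
  rintro _ ⟨⟨f, g⟩, rfl⟩
  rw [periodHomPair_apply_of_neZero]
  exact add_mem
    (add_mem (periodMap_mem_parabolicHoms f)
      (charInvolution_mem_parabolicHoms N ℂ ℂ (periodMap_mem_parabolicHoms f)))
    (sub_mem (periodMap_mem_parabolicHoms g)
      (charInvolution_mem_parabolicHoms N ℂ ℂ (periodMap_mem_parabolicHoms g)))

end Involution

end FermatAgent.Period
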