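import Fermat.Agent.BAD.AtP.Curve.Forms
import Fermat.Agent.BAD.AtP.Curve.Genus
import Fermat.Agent.BAD.AtP.Curve.Large
import Fermat.Agent.Period.Eisenstein.LevelOne
import Fermat.Agent.Period.Gamma0Cusps
import Fermat.Agent.Period.Gamma0Period
import Fermat.Agent.Period.ParabolicBound
import Fermat.Prelude.Def_ModularCurve_GenusNumerics

/-!
# Dimension of weight two cusp forms and the Eichler–Shimura isomorphism for `Γ₀(N)`

The upper bound is the injectivity of the period map into the parabolic homomorphisms. For the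
lower bound, the Riemann–Roch space of the divisor of `dj` plus the cusps on `X₀(N)` gives forms of
weight two, and their values at the cusps sum to zero.
-/

set_option autoImplicit false

noncomputable section

open UpperHalfPlane hiding I
open Filter Topology AlgebraicCurve Function
open CongruenceSubgroup ModularCurve ModularCurve.Period
open scoped MatrixGroups Manifold ModularForm

namespace FermatAgent.Period

open FermatAgent.Curve (jField jElt rGenus rrDim HasLoc qw)
open FermatAgent.Mazur (lsC)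
open FermatAgent.BAD.AtP (djDiv cuspDiv exists_form_of_mem rrDim_eq_of_large djFun)

attribute [local instance] Mazur.embAlg
attribute [local instance high] SubalgebraClass.toAlgebra
attribute [-instance] IsLocalRing.ResidueField.algebraOfIsIntegral IntermediateField.module'

local notation "Qb" => AlgebraicClosure ℚ

variable (N : ℕ) [NeZero N]

local notation "Γ₀" => Gamma0 N

/-- The parabolic homomorphisms of `Γ₀(N)` span at most `2 g` dimensions, `g` being given by the
index, the elliptic points and the cusps. -/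
theorem parabolicHoms_Gamma0_bound :
    FiniteDimensional ℂ (parabolicHoms ℂ (Gamma0 N) ℂ) ∧
      6 * Module.finrank ℂ (parabolicHoms ℂ (Gamma0 N) ℂ) + 3 * nuTwo N + 4 * nuThree N
        + 6 * cuspCount N ≤ dedekindPsi N + 12 := by
  have h := parabolicHoms_bound (Γ := Gamma0 N) ℂ (neg_one_mem_Gamma0 N)
  rwa [fixTwo_Gamma0, fixThree_Gamma0, card_cuspSet_Gamma0, index_Gamma0] at h

/-- The period map of pairs with values in the parabolic homomorphisms. -/
def periodPairLin : CuspForm (Gamma0 N) 2 × CuspForm (Gamma0 N) 2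
    →ₗ[ℂ] parabolicHoms ℂ (Gamma0 N) ℂ :=
  (periodHomPair N).codRestrict _ fun x => range_periodHomPair_le ⟨x, rfl⟩

/-- The pair of periods determines the forms. -/
lemma periodPairLin_injective : Function.Injective (periodPairLin N) := fun _ _ h =>
  periodHomPair_injective (congrArg Subtype.val h)

/-- `S₂(Γ₀(N))` is finite-dimensional. -/
theorem finiteDimensional_cuspForm_Gamma0 :
    FiniteDimensional ℂ (CuspForm (Gamma0 N) 2) := by
  have := (parabolicHoms_Gamma0_bound N).1
  exact FiniteDimensional.of_injective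
    ((periodPairLin N).comp (LinearMap.inl ℂ _ _))
    ((periodPairLin_injective N).comp LinearMap.inl_injective)

omit [NeZero N] in
/-- Slashing by a coset representative. -/
theorem slash_inv_out {f : ℍ → ℂ} (hf : ∀ γ ∈ Γ₀, f ∣[(2 : ℤ)] γ = f) (g : SL(2, ℤ)) :
    f ∣[(2 : ℤ)] ((QuotientGroup.mk g : Cosets Γ₀).out)⁻¹ = f ∣[(2 : ℤ)] g⁻¹ := by
  obtain ⟨γ, hγ⟩ := QuotientGroup.mk_out_eq_mul Γ₀ g
  rw [hγ, mul_inv_rev, SlashAction.slash_mul, hf _ (inv_mem γ.2)]

/-- A form tends to a limit at every cusp. -/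
theorem tendsto_slash (f : ModularForm Γ₀ 2) (δ : SL(2, ℤ)) :
    Tendsto ((f : ℍ → ℂ) ∣[(2 : ℤ)] δ) atImInfty
      (𝓝 (valueAtInfty ((f : ℍ → ℂ) ∣[(2 : ℤ)] δ))) := by
  obtain ⟨hm, hs, hb⟩ := mem_modFns_of_modularFormClass f
  have hN : (0 : ℝ) < N := Nat.cast_pos.2 (Nat.pos_of_ne_zero (NeZero.ne N))
  have hper := BAD.AtP.periodic_slash (f := (f : ℍ → ℂ)) hs δ
  have hd := analyticAt_cuspFunction_zero hN hper (hm.slash 2 _) (hb δ)
  have h : Tendsto ((f : ℍ → ℂ) ∣[(2 : ℤ)] δ) atImInfty
      (𝓝 (cuspFunction N ((f : ℍ → ℂ) ∣[(2 : ℤ)] δ) 0)) :=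
    (hd.continuousAt.tendsto.comp (qParam_tendsto_atImInfty hN)).congr
      fun τ => eq_cuspFunction τ hN.ne' hper
  exact tendsto_nhds_limUnder ⟨_, h⟩

/-- The values of a form at the cusps. -/
def cuspValues : ModularForm Γ₀ 2 →ₗ[ℂ] Cosets Γ₀ → ℂ where
  toFun f x := valueAtInfty ((f : ℍ → ℂ) ∣[(2 : ℤ)] (Quotient.out x)⁻¹)
  map_add' f g := funext fun x => by
    refine Filter.Tendsto.limUnder_eq ?_
    simpa [SlashAction.add_slash] using!
      (tendsto_slash N f (Quotient.out x)⁻¹).add (tendsto_slash N g (Quotient.out x)⁻¹)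
  map_smul' c f := funext fun x => by
    refine Filter.Tendsto.limUnder_eq ?_
    simpa [ModularForm.SL_smul_slash] using!
      (tendsto_slash N f (Quotient.out x)⁻¹).const_mul c

/-- The values at the cusps depend on the cusp only. -/
theorem cuspValues_T (f : ModularForm Γ₀ 2) (x : Cosets Γ₀) :
    cuspValues N f ((ModularGroup.T : SL(2, ℤ)) • x) = cuspValues N f x := by
  obtain ⟨g, rfl⟩ := QuotientGroup.mk_surjective x
  show valueAtInfty _ = valueAtInfty _
  rw [show (ModularGroup.T • (QuotientGroup.mk g : Cosets Γ₀)) =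
      QuotientGroup.mk (ModularGroup.T * g) from rfl,
    slash_inv_out N (mem_modFns_of_modularFormClass f).2.1,
    slash_inv_out N (mem_modFns_of_modularFormClass f).2.1,
    mul_inv_rev, SlashAction.slash_mul]
  have h := tendsto_slash N f g⁻¹
  have e : ((f : ℍ → ℂ) ∣[(2 : ℤ)] g⁻¹) ∣[(2 : ℤ)] (ModularGroup.T⁻¹ : SL(2, ℤ)) =
      ((f : ℍ → ℂ) ∣[(2 : ℤ)] g⁻¹) ∘ fun τ : ℍ => (-1 : ℝ) +ᵥ τ := funext fun τ => by
    rw [ModularForm.SL_slash_apply, comp_apply]
    rw [show (ModularGroup.T⁻¹ : SL(2, ℤ)) = ModularGroup.T ^ (-1 : ℤ) by simp,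
      modular_T_zpow_smul, ModularGroup.denom_apply, ModularGroup.coe_T_zpow]
    simp
  rw [e]
  refine Filter.Tendsto.limUnder_eq (h.comp ?_)
  rw [atImInfty, tendsto_comap_iff]
  exact tendsto_comap.congr fun τ => (vadd_im _ _).symm

/-- The values at the cusps sum to zero. -/
theorem sum_cuspValues (f : ModularForm Γ₀ 2) : ∑ x, cuspValues N f x = 0 := by
  obtain ⟨hm, hs, hb⟩ := mem_modFns_of_modularFormClass f
  set F : ℍ → ℂ := ∑ x : Cosets Γ₀, (f : ℍ → ℂ) ∣[(2 : ℤ)] (Quotient.out x)⁻¹ with hF
  have hmem : F ∈ modFns ⊤ 2 := by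
    refine ⟨Finset.sum_induction _ (fun u : ℍ → ℂ => MDiff u) (fun a b => MDifferentiable.add)
      mdifferentiable_const (fun x _ => hm.slash 2 _), fun g _ => ?_, fun δ => ?_⟩
    · rw [hF, SlashAction.sum_slash]
      refine Fintype.sum_equiv (MulAction.toPerm g⁻¹) _ _ fun x => ?_
      have e : g⁻¹ • x = QuotientGroup.mk (g⁻¹ * x.out) := by
        conv_lhs => rw [← QuotientGroup.out_eq' x]
        rfl
      rw [MulAction.toPerm_apply, e, slash_inv_out N hs, mul_inv_rev, inv_inv,
        SlashAction.slash_mul]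
    · rw [hF, SlashAction.sum_slash]
      exact Finset.sum_induction _ (fun u : ℍ → ℂ => IsBoundedAtImInfty u)
        (fun a b => Asymptotics.IsBigO.add) zero_form_isBoundedAtImInfty
        (fun x _ => by rw [← SlashAction.slash_mul]; exact hb _)
  have h := tendsto_finsetSum Finset.univ fun (x : Cosets Γ₀) _ =>
    tendsto_slash N f (Quotient.out x)⁻¹
  refine tendsto_nhds_unique h (tendsto_const_nhds.congr fun τ => ?_) |>.trans rfl
  have h0 := congrFun (Eis.eq_zero_of_weight_two hmem) τ
  simpa [hF, Finset.sum_apply] using h0.symm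

/-- A form whose values at the cusps vanish is a cusp form. -/
theorem exists_cusp_of_cuspValues {f : ModularForm Γ₀ 2} (h : cuspValues N f = 0) :
    ∃ g : CuspForm Γ₀ 2, CuspForm.toModularFormₗ g = f := by
  refine ⟨{ f with zero_at_cusps' := fun {c} hc => ?_ }, rfl⟩
  rw [Subgroup.IsArithmetic.isCusp_iff_isCusp_SL2Z] at hc
  rw [OnePoint.isZeroAt_iff_forall_SL2Z hc]
  intro δ _
  have h1 : valueAtInfty ((f : ℍ → ℂ) ∣[(2 : ℤ)]
      (Quotient.out (QuotientGroup.mk δ⁻¹ : Cosets Γ₀))⁻¹) = 0 := congrFun h _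
  have h2 := tendsto_slash N f δ
  rw [slash_inv_out N (mem_modFns_of_modularFormClass f).2.1, inv_inv] at h1
  rwa [h1] at h2

omit [NeZero N] in
/-- The values of a `T`-invariant function on the cosets summing to zero. -/
def valueSpace : Submodule ℂ (Cosets Γ₀ → ℂ) where
  carrier := {v | (∀ x, v ((ModularGroup.T : SL(2, ℤ)) • x) = v x) ∧ ∑ x, v x = 0}
  add_mem' ha hb := ⟨fun x => by simp [ha.1 x, hb.1 x],
    by simp [Finset.sum_add_distrib, ha.2, hb.2]⟩
  zero_mem' := ⟨fun x => rfl, by simp⟩
  smul_mem' r a ha := ⟨fun x => by simp [ha.1 x], by simp [← Finset.mul_sum, ha.2]⟩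

/-- There is one relation between the values at the cusps. -/
theorem finrank_valueSpace_lt : Module.finrank ℂ (valueSpace N) < cuspCount N := by
  classical
  have : Nonempty (CuspSet Γ₀) := ⟨cuspOf Γ₀ (QuotientGroup.mk 1)⟩
  have : Fintype (CuspSet Γ₀) := Fintype.ofFinite _
  let P : (CuspSet Γ₀ → ℂ) →ₗ[ℂ] (Cosets Γ₀ → ℂ) := LinearMap.funLeft ℂ ℂ (cuspOf Γ₀)
  have hV : valueSpace N < LinearMap.range P := by
    refine lt_of_le_of_ne
      (fun v hv => ⟨fun o => v (Quotient.out o), funext fun x => ?_⟩) fun h => ?_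
    · obtain ⟨n, hn⟩ := Period.cuspOf_eq_iff.1
        (show cuspOf Γ₀ (Quotient.out (cuspOf Γ₀ x)) = cuspOf Γ₀ x from Quotient.out_eq _)
      show v _ = v x
      rw [← hn]
      clear hn
      induction n using Int.induction_on with
      | zero => simp
      | succ k ih => rw [add_comm, zpow_add, zpow_one, mul_smul, hv.1, ← ih]
      | pred k ih =>
        rw [sub_eq_add_neg, add_comm, zpow_add, mul_smul, ← hv.1, ← mul_smul, ← mul_smul,
          zpow_neg_one, mul_inv_cancel, one_mul, ← ih]
    · have h1 : (fun _ => 1) ∈ valueSpace N := h.symm ▸ ⟨fun _ => 1, rfl⟩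
      simpa using h1.2
  rw [← card_cuspSet_Gamma0 (N := N), Nat.card_eq_fintype_card]
  exact (Submodule.finrank_lt_finrank_of_lt hV).trans_le
    ((LinearMap.finrank_range_le P).trans (by simp))

/-- `θ j` is not zero. -/
theorem theta_jElt_ne_zero : Curve.theta (jElt Qb N : LaurentSeries Qb) ≠ 0 := by
  intro h
  obtain ⟨T, hT, hT0, -⟩ := BAD.AtP.exists_djSeries_cusp (N := N)
  have hz := HasLoc.eq_zero (f := djFun) (Curve.locCoord_qw one_pos) (by
    simpa [h] using BAD.AtP.hasLoc_djFun_lsC (N := N))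
  refine hT0 (hT.unique (Curve.genCoord_qw N).coord ?_)
  rw [hz, ← map_zero (HahnSeries.C (Γ := ℤ) (R := ℂ))]
  exact HasLoc.const 0

/-- Forms attached to a basis of a Riemann–Roch space are independent. -/
theorem linearIndependent_forms {D : Divisor Qb (jField Qb N)} {ι : Type*} [Fintype ι]
    (B : Module.Basis ι Qb (riemannRochSpace D)) (F : ι → ModularForm Γ₀ 2)
    (hF : ∀ i, HasLoc (qw 1) (F i : ℍ → ℂ)
      (lsC (((B i : jField Qb N) : LaurentSeries Qb) *
        Curve.theta (jElt Qb N : LaurentSeries Qb)))) :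
    LinearIndependent ℂ F := by
  rw [Fintype.linearIndependent_iff]
  intro c hc0
  set s : ι → LaurentSeries Qb := fun i =>
    ((B i : jField Qb N) : LaurentSeries Qb) * Curve.theta (jElt Qb N : LaurentSeries Qb)
  have hsum : HasLoc (qw 1) (fun τ => ∑ i, c i * F i τ)
      (∑ i, HahnSeries.C (c i) * lsC (s i)) :=
    (HasLoc.sum Finset.univ (v := fun i τ => c i * F i τ) fun i _ =>
      (hF i).smul _).congr_fun fun τ => by simp
  have h0 : ∑ i, HahnSeries.C (c i) * lsC (s i) = 0 := by
    refine hsum.unique (Curve.locCoord_qw one_pos) ?_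
    rw [show (fun τ => ∑ i, c i * F i τ) = (fun _ => 0) from funext fun τ => by
      simpa using DFunLike.congr_fun hc0 τ, ← map_zero (HahnSeries.C (Γ := ℤ) (R := ℂ))]
    exact HasLoc.const 0
  intro i
  refine (Module.forall_dual_apply_eq_zero_iff Qb (c i)).1 fun φ => ?_
  refine Fintype.linearIndependent_iff.1 B.linearIndependent (fun j => φ (c j)) ?_ i
  refine Subtype.ext (Subtype.ext (mul_right_cancel₀ (theta_jElt_ne_zero N) ?_))
  rw [ZeroMemClass.coe_zero, ZeroMemClass.coe_zero, zero_mul, AddSubmonoidClass.coe_finsetSum,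
    AddSubmonoidClass.coe_finsetSum, Finset.sum_mul]
  ext e
  have he := congrArg (fun S : LaurentSeries ℂ => φ (S.coeff e)) h0
  simp only [HahnSeries.coeff_sum, map_sum, HahnSeries.coeff_zero, map_zero] at he
  rw [HahnSeries.coeff_sum, HahnSeries.coeff_zero, ← he]
  refine Finset.sum_congr rfl fun j _ => ?_
  rw [HahnSeries.C_mul_eq_smul, HahnSeries.coeff_smul, smul_eq_mul]
  rw [show (lsC (s j)).coeff e = algebraMap Qb ℂ ((s j).coeff e) from rfl, mul_comm (c j),
    ← Algebra.smul_def, map_smul, smul_eq_mul, SetLike.val_smul, Algebra.smul_def,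
    MulMemClass.coe_mul, IntermediateField.coe_algebraMap_apply, Curve.algebraMap_laurent,
    mul_assoc, ← HahnSeries.C_apply, HahnSeries.C_mul_eq_smul, HahnSeries.coeff_smul,
    smul_eq_mul, mul_comm]
  simp [s]

/-- The forms from the Riemann–Roch space are bounded by the cusp forms and the cusps. -/
theorem rrDim_lt_finrank_add :
    rrDim (djDiv N + cuspDiv N) < Module.finrank ℂ (CuspForm Γ₀ 2) + cuspCount N := by
  classical
  have := finiteDimensional_cuspForm_Gamma0 N
  have := Curve.finite_riemannRochSpace (djDiv N + cuspDiv N)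
  have : Module.Free Qb (riemannRochSpace (djDiv N + cuspDiv N)) :=
    Module.Free.of_divisionRing Qb _
  set B : Module.Basis (Fin (rrDim (djDiv N + cuspDiv N))) Qb
    (riemannRochSpace (djDiv N + cuspDiv N)) := Module.finBasisOfFinrankEq Qb _ rfl
  choose F hF using fun i => exists_form_of_mem (B i).2
  have hind := linearIndependent_forms N B F hF
  set M := Submodule.span ℂ (Set.range F)
  have : FiniteDimensional ℂ M := FiniteDimensional.span_of_finite ℂ (Set.finite_range F)
  let L : M →ₗ[ℂ] valueSpace N := ((cuspValues N).comp M.subtype).codRestrict _ fun f =>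
    ⟨cuspValues_T N f, sum_cuspValues N f⟩
  have hk := LinearMap.finrank_range_add_finrank_ker L
  have hM : Module.finrank ℂ M = Fintype.card (Fin _) := finrank_span_eq_card hind
  have hker : Module.finrank ℂ (LinearMap.ker L) ≤ Module.finrank ℂ (CuspForm Γ₀ 2) := by
    have hle : Submodule.map M.subtype (LinearMap.ker L) ≤ LinearMap.range
        (CuspForm.toModularFormₗ (Γ := (Γ₀ : Subgroup (GL (Fin 2) ℝ))) (k := 2)) := by
      rintro _ ⟨f, hf, rfl⟩
      exact exists_cusp_of_cuspValues N (congrArg Subtype.val hf)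
    rw [← LinearMap.finrank_range_of_inj CuspForm.toModularFormₗ_injective,
      (Submodule.equivMapOfInjective M.subtype M.injective_subtype _).finrank_eq]
    exact Submodule.finrank_mono hle
  have hr := Submodule.finrank_le (LinearMap.range L)
  have hv := finrank_valueSpace_lt N
  rw [Fintype.card_fin] at hM
  omega

/-- The bound from below for the dimension of cusp forms. -/
theorem genus_le_finrank : dedekindPsi N + 12 ≤ 12 * Module.finrank ℂ (CuspForm Γ₀ 2) +
    3 * nuTwo N + 4 * nuThree N + 6 * cuspCount N := by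
  have hdeg := BAD.AtP.six_mul_degree_djDiv N
  have hC : Divisor.degree (cuspDiv N) = cuspCount N := by
    classical
    rw [cuspDiv, map_sum, ← Curve.numOrbits_T N, ← Curve.card_poles (K := Qb) N]
    simp [Divisor.degree_single, Curve.deg_eq_one]
  have hg : rGenus Qb (jField Qb N) * 2 = Module.finrank ℂ (parabolicHoms ℂ Γ₀ ℂ) := by
    rw [← Curve.Jac.genusFF_eq, finrank_parabolicHoms Γ₀ ℂ, ← BAD.AtP.two_mul_genusFF_eq_parRank]
    push_cast; ring
  have hb := (parabolicHoms_Gamma0_bound N).2
  have hv := finrank_valueSpace_lt N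
  have hlt := rrDim_lt_finrank_add N
  have hl := rrDim_eq_of_large (djDiv N + cuspDiv N) (by rw [map_add, hC]; omega)
  rw [map_add, hC] at hl
  omega

/-- Both bounds are equalities: `dim S₂ = g` and `2 dim S₂ = dim H¹_par(Γ₀(N), ℂ)`. -/
theorem twelve_mul_finrank_cuspForm :
    12 * Module.finrank ℂ (CuspForm (Gamma0 N) 2) + 3 * nuTwo N + 4 * nuThree N
        + 6 * cuspCount N = dedekindPsi N + 12 ∧
      2 * Module.finrank ℂ (CuspForm (Gamma0 N) 2)
        = Module.finrank ℂ (parabolicHoms ℂ (Gamma0 N) ℂ) := by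
  have := (parabolicHoms_Gamma0_bound N).1
  have := finiteDimensional_cuspForm_Gamma0 N
  have h1 := LinearMap.finrank_le_finrank_of_injective (periodPairLin_injective N)
  rw [Module.finrank_prod] at h1
  have h2 := (parabolicHoms_Gamma0_bound N).2
  have h3 := genus_le_finrank N
  omega

/-- **Dimension formula.** `dim S₂(Γ₀(N))` is the genus `1 + μ/12 - ν₂/4 - ν₃/3 - ν_∞/2` of
`X₀(N)`. -/
theorem finrank_cuspForm_eq_genusFormula :
    (Module.finrank ℂ (CuspForm (Gamma0 N) 2) : ℚ) = genusFormula N := by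
  have h : (12 * (Module.finrank ℂ (CuspForm (Gamma0 N) 2) : ℚ) + 3 * nuTwo N + 4 * nuThree N
      + 6 * cuspCount N) = dedekindPsi N + 12 := by
    exact_mod_cast (twelve_mul_finrank_cuspForm N).1
  unfold genusFormula
  linear_combination h / 12

/-- **Eichler–Shimura.** The periods identify pairs of weight two cusp forms with all the parabolic
homomorphisms `Γ₀(N) → ℂ`. -/
theorem range_periodHomPair_eq :
    LinearMap.range (periodHomPair N) = parabolicHoms ℂ (Gamma0 N) ℂ := by
  have := (parabolicHoms_Gamma0_bound N).1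
  have := finiteDimensional_cuspForm_Gamma0 N
  refine Submodule.eq_of_le_of_finrank_eq range_periodHomPair_le ?_
  rw [LinearMap.finrank_range_of_inj (f := periodHomPair N) periodHomPair_injective,
    Module.finrank_prod, ← (twelve_mul_finrank_cuspForm N).2, two_mul]

end FermatAgent.Period
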