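import Fermat.Agent.Period.Dimension
import Fermat.Agent.Period.Lattice
import Fermat.Agent.Period.Hecke
import Fermat.Agent.MF.Eigen

/-!
# The action of the full Hecke algebra on parabolic homomorphisms

Periods identify pairs of weight two forms with complex parabolic homomorphisms (`periodEquiv`),
carrying Hecke operators to transfers (`endToPar_heckeAt`). So the Hecke algebra preserves and acts
faithfully on the integral parabolic homomorphisms (`exists_castPar`, `intAction`,
`intAction_injective`), and through its matrices on those with values in any torsion-free module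
(`parAction`), where it acts by `heckeOp` at the generators (`parAction_heckeAt`), agrees with the
complex action (`parAction_complex`) and commutes with `charInvolution`.
-/

set_option autoImplicit false

noncomputable section

open scoped MatrixGroups ModularForm Matrix Real
open scoped ComplexConjugate
open UpperHalfPlane hiding I
open Function CongruenceSubgroup ModularCurve ModularCurve.Period ModularFormClass

namespace FermatAgent.Period

namespace TransferData

variable {ι : Type*} [Fintype ι] {Γ : Subgroup SL(2, ℤ)} (D : TransferData Γ ι)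

lemma op_comp {R S A B : Type*} [Semiring R] [Semiring S] [AddCommGroup A] [Module R A]
    [AddCommGroup B] [Module S B] (f : A →+ B) (φ : Additive Γ →+ A) :
    D.op S (f.comp φ) = f.comp (D.op R φ) := by
  refine AddMonoidHom.ext fun x => ?_
  change D.op S (f.comp φ) (Additive.ofMul (Additive.toMul x))
    = f (D.op R φ (Additive.ofMul (Additive.toMul x)))
  rw [op_apply, op_apply, map_sum]
  rfl

end TransferData

variable {N : ℕ} [NeZero N]

section HeckeOp

variable (R : Type*) [Semiring R] {A : Type*} [AddCommGroup A] [Module R A]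

/-- The transfer operator at a prime: `T_ℓ` or `U_ℓ`. -/
def heckeOp (N : ℕ) {ℓ : ℕ} (hℓ : ℓ.Prime) :
    (Additive (Gamma0 N) →+ A) →ₗ[R] (Additive (Gamma0 N) →+ A) :=
  haveI : Fact ℓ.Prime := ⟨hℓ⟩
  haveI : NeZero ℓ := ⟨hℓ.ne_zero⟩
  if h : ℓ ∣ N then (transferDataU h).op R else (transferDataT h).op R

omit [NeZero N] in
/-- Hecke operators preserve parabolicity. -/
lemma isParabolicHom_heckeOp {ℓ : ℕ} (hℓ : ℓ.Prime) {φ : Additive (Gamma0 N) →+ A}
    (hφ : IsParabolicHom (Gamma0 N) φ) : IsParabolicHom (Gamma0 N) (heckeOp R N hℓ φ) := by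
  have : Fact ℓ.Prime := ⟨hℓ⟩
  have : NeZero ℓ := ⟨hℓ.ne_zero⟩
  unfold heckeOp
  split <;> exact TransferData.isParabolicHom_op _ R hφ

omit [NeZero N] in
/-- Hecke operators commute with maps of coefficients. -/
lemma heckeOp_comp {S B : Type*} [Semiring S] [AddCommGroup B] [Module S B] {ℓ : ℕ}
    (hℓ : ℓ.Prime) (f : A →+ B) (φ : Additive (Gamma0 N) →+ A) :
    heckeOp S N hℓ (f.comp φ) = f.comp (heckeOp R N hℓ φ) := by
  have : Fact ℓ.Prime := ⟨hℓ⟩
  have : NeZero ℓ := ⟨hℓ.ne_zero⟩
  unfold heckeOp
  split <;> exact TransferData.op_comp _ f φ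

end HeckeOp

lemma periodMap_heckeAt {ℓ : ℕ} (hℓ : ℓ.Prime) (f : CuspForm (Gamma0 N) 2) :
    periodMap N (MF.heckeAt N 2 hℓ f) = heckeOp ℂ N hℓ (periodMap N f) := by
  have : NeZero ℓ := ⟨hℓ.ne_zero⟩
  unfold MF.heckeAt heckeOp
  by_cases h : ℓ ∣ N
  · rw [dif_pos h, dif_pos h]; exact periodMap_heckeULin h f
  · rw [dif_neg h, dif_neg h]; exact periodMap_heckeTLin hℓ h f

lemma qCoeff_conjForm (f : CuspForm (Gamma0 N) 2) (n : ℕ) :
    qCoeff (conjForm f) n = conj (qCoeff f n) := by
  refine (ModularFormClass.qExpansion_coeff_unique one_pos (MF.one_mem_periods N)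
    (f := conjForm f) (c := fun m => conj (qCoeff f m)) (fun τ => ?_) n).symm
  have : Fact (IsCusp OnePoint.infty (Gamma0 N : Subgroup (GL (Fin 2) ℝ))) :=
    ⟨Subgroup.isCusp_of_mem_strictPeriods one_pos (MF.one_mem_periods N)⟩
  have h := ModularForm.hasSum_qExpansion f one_pos (MF.one_mem_periods N) (UpperHalfPlane.J • τ)
  rw [← Complex.hasSum_conj' ] at h
  rw [conjForm_apply]
  refine h.congr_fun fun m => ?_
  rw [smul_eq_mul, map_mul, map_pow]
  congr 2
  simp only [Function.Periodic.qParam, coe_J_smul, Complex.ofReal_one, div_one, ← Complex.exp_conj,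
    map_mul, map_neg, Complex.conj_conj, Complex.conj_I, Complex.conj_ofReal, map_ofNat]
  congr 1
  ring

lemma heckeAt_conjForm {ℓ : ℕ} (hℓ : ℓ.Prime) (f : CuspForm (Gamma0 N) 2) :
    MF.heckeAt N 2 hℓ (conjForm f) = conjForm (MF.heckeAt N 2 hℓ f) := by
  refine MF.ext_of_qCoeff fun n => ?_
  simp only [MF.qCoeff_heckeAt, qCoeff_conjForm, map_add, map_mul, apply_ite conj, map_zero]
  congr 2
  simp [MF.heckeConst, apply_ite conj]

lemma charInvolution_periodMap (f : CuspForm (Gamma0 N) 2) :
    charInvolution N ℂ ℂ (periodMap N f)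
      = -((starRingEnd ℂ).toAddMonoidHom.comp (periodMap N (conjForm f))) := by
  refine AddMonoidHom.ext fun x => ?_
  have h := periodMap_conjForm f (Additive.toMul x)
  change periodMap N f (Additive.ofMul (jConjGamma0 N (Additive.toMul x)))
    = -conj (periodMap N (conjForm f) x)
  rw [show periodMap N (conjForm f) x
    = periodMap N (conjForm f) (Additive.ofMul (Additive.toMul x)) from rfl, h, map_neg,
    Complex.conj_conj, neg_neg]

lemma heckeOp_charInvolution_periodMap {ℓ : ℕ} (hℓ : ℓ.Prime) (f : CuspForm (Gamma0 N) 2) :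
    heckeOp ℂ N hℓ (charInvolution N ℂ ℂ (periodMap N f))
      = charInvolution N ℂ ℂ (periodMap N (MF.heckeAt N 2 hℓ f)) := by
  rw [charInvolution_periodMap, charInvolution_periodMap, map_neg, heckeOp_comp ℂ,
    ← periodMap_heckeAt, heckeAt_conjForm]

/-- The Eichler–Shimura isomorphism as a linear equivalence. -/
def periodEquiv (N : ℕ) [NeZero N] :
    (CuspForm (Gamma0 N) 2 × CuspForm (Gamma0 N) 2) ≃ₗ[ℂ] parabolicHoms ℂ (Gamma0 N) ℂ :=
  LinearEquiv.ofBijective (periodPairLin N) ⟨periodPairLin_injective N, fun ψ => by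
    obtain ⟨x, hx⟩ : ψ.1 ∈ LinearMap.range (periodHomPair N) := by
      rw [range_periodHomPair_eq N]; exact ψ.2
    exact ⟨x, Subtype.ext hx⟩⟩

lemma coe_periodEquiv (x : CuspForm (Gamma0 N) 2 × CuspForm (Gamma0 N) 2) :
    ((periodEquiv N x : parabolicHoms ℂ (Gamma0 N) ℂ) : Additive (Gamma0 N) →+ ℂ)
      = periodMap N x.1 + charInvolution N ℂ ℂ (periodMap N x.1)
        + (periodMap N x.2 - charInvolution N ℂ ℂ (periodMap N x.2)) :=
  periodHomPair_apply_of_neZero x.1 x.2

variable (N) in
/-- Endomorphisms of cusp forms acting on parabolic homomorphisms. -/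
def endToPar : Module.End ℂ (CuspForm (Gamma0 N) 2) →+*
    Module.End ℂ (parabolicHoms ℂ (Gamma0 N) ℂ) where
  toFun t := (periodEquiv N).toLinearMap ∘ₗ t.prodMap t ∘ₗ (periodEquiv N).symm.toLinearMap
  map_one' := LinearMap.ext fun ψ => by simp
  map_mul' s t := LinearMap.ext fun ψ => by simp
  map_zero' := LinearMap.ext fun ψ => by simp
  map_add' s t := LinearMap.ext fun ψ => by
    simp only [LinearMap.comp_apply, LinearMap.add_apply, ← map_add]
    rfl

/-- The transported operator acts on periods through the forms. -/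
lemma endToPar_periodEquiv (t : Module.End ℂ (CuspForm (Gamma0 N) 2))
    (x : CuspForm (Gamma0 N) 2 × CuspForm (Gamma0 N) 2) :
    endToPar N t (periodEquiv N x) = periodEquiv N (t x.1, t x.2) := by
  simp [endToPar]

lemma endToPar_injective : Injective (endToPar N) := fun s t h => LinearMap.ext fun f => by
  have h1 := LinearMap.congr_fun h (periodEquiv N (f, 0))
  rw [endToPar_periodEquiv, endToPar_periodEquiv] at h1
  exact congrArg Prod.fst ((periodEquiv N).injective h1)

/-- The involution changes the sign of the second form. -/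
lemma charInvolution_periodEquiv (x : CuspForm (Gamma0 N) 2 × CuspForm (Gamma0 N) 2) :
    charInvolution N ℂ ℂ (periodEquiv N x).1 = (periodEquiv N (x.1, -x.2)).1 := by
  rw [coe_periodEquiv, coe_periodEquiv]
  have hn : periodMap N (-x.2) = -periodMap N x.2 := by
    rw [← neg_one_smul ℂ x.2, periodMap_smul, neg_one_smul]
  simp only [hn, map_add, map_sub, map_neg, charInvolution_charInvolution]
  abel

/-- The transported `T_ℓ` is the Hecke operator. -/
theorem endToPar_heckeAt {ℓ : ℕ} (hℓ : ℓ.Prime) (ψ : parabolicHoms ℂ (Gamma0 N) ℂ) :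
    (endToPar N (MF.heckeAt N 2 hℓ) ψ).1 = heckeOp ℂ N hℓ ψ.1 := by
  obtain ⟨⟨f, g⟩, rfl⟩ := (periodEquiv N).surjective ψ
  rw [endToPar_periodEquiv, coe_periodEquiv, coe_periodEquiv, map_add, map_add, map_sub,
    heckeOp_charInvolution_periodMap, heckeOp_charInvolution_periodMap, ← periodMap_heckeAt,
    ← periodMap_heckeAt]

/-- Integral homomorphisms as complex ones. -/
def castPar : parabolicHoms ℤ (Gamma0 N) ℤ →+ parabolicHoms ℂ (Gamma0 N) ℂ where
  toFun φ := ⟨(Int.castAddHom ℂ).comp φ.1, fun γ hγ => by
    simp [φ.2 γ hγ]⟩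
  map_zero' := Subtype.ext (AddMonoidHom.ext fun x => by simp)
  map_add' φ ψ := Subtype.ext (AddMonoidHom.ext fun x => by simp)

omit [NeZero N] in
/-- Integral parabolic homomorphisms inject in the complex ones. -/
lemma castPar_injective : Injective (castPar (N := N)) := fun _ _ h =>
  Subtype.ext (AddMonoidHom.ext fun x => Int.cast_injective (α := ℂ)
    (DFunLike.congr_fun (congrArg Subtype.val h) x))

theorem exists_castPar {t : Module.End ℂ (CuspForm (Gamma0 N) 2)} {S : Set ℕ}
    (ht : t ∈ CuspForm.heckeAlgebra N 2 S) :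
    ∀ φ, ∃ φ', endToPar N t (castPar φ) = castPar φ' := by
  induction ht using Algebra.adjoin_induction with
  | mem x hx =>
    intro φ
    obtain ⟨ℓ, hℓ, -, rfl⟩ := MF.exists_eq_heckeAt_of_mem_heckeGenerators hx
    exact ⟨⟨heckeOp ℤ N hℓ φ.1, isParabolicHom_heckeOp ℤ hℓ φ.2⟩, Subtype.ext (by
      rw [endToPar_heckeAt]
      exact heckeOp_comp ℤ hℓ _ φ.1)⟩
  | algebraMap r =>
    intro φ
    refine ⟨r • φ, ?_⟩
    rw [Algebra.algebraMap_eq_smul_one, map_zsmul, map_one, LinearMap.smul_apply,
      Module.End.one_apply, map_zsmul]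
  | add x y _ _ ihx ihy =>
    intro φ
    obtain ⟨a, ha⟩ := ihx φ
    obtain ⟨b, hb⟩ := ihy φ
    exact ⟨a + b, by rw [map_add, LinearMap.add_apply, ha, hb, map_add]⟩
  | mul x y _ _ ihx ihy =>
    intro φ
    obtain ⟨b, hb⟩ := ihy φ
    obtain ⟨a, ha⟩ := ihx b
    exact ⟨a, by rw [map_mul, Module.End.mul_apply, hb, ha]⟩

variable {S : Set ℕ}

/-- The integral image of a lattice element. -/
def intImage (t : CuspForm.heckeAlgebra N 2 S) (φ : parabolicHoms ℤ (Gamma0 N) ℤ) :
    parabolicHoms ℤ (Gamma0 N) ℤ := (exists_castPar t.2 φ).choose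

lemma castPar_intImage (t : CuspForm.heckeAlgebra N 2 S) (φ : parabolicHoms ℤ (Gamma0 N) ℤ) :
    castPar (intImage t φ) = endToPar N t.1 (castPar φ) :=
  (exists_castPar t.2 φ).choose_spec.symm

variable (N S) in
/-- **The Hecke algebra acts on the integral parabolic homomorphisms.** -/
def intAction : CuspForm.heckeAlgebra N 2 S →+*
    Module.End ℤ (parabolicHoms ℤ (Gamma0 N) ℤ) where
  toFun t :=
    { toFun := intImage t
      map_add' := fun φ ψ => castPar_injective (by
        rw [map_add, castPar_intImage, castPar_intImage, castPar_intImage, map_add, map_add])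
      map_smul' := fun c φ => castPar_injective (by
        rw [eq_intCast, Int.cast_eq, map_zsmul, castPar_intImage, castPar_intImage, map_zsmul,
          map_zsmul]) }
  map_one' := LinearMap.ext fun φ => castPar_injective (by
    change castPar (intImage 1 φ) = castPar φ
    rw [castPar_intImage, OneMemClass.coe_one, map_one, Module.End.one_apply])
  map_mul' s t := LinearMap.ext fun φ => castPar_injective (by
    change castPar (intImage (s * t) φ) = castPar (intImage s (intImage t φ))
    rw [castPar_intImage, castPar_intImage, castPar_intImage, MulMemClass.coe_mul, map_mul,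
      Module.End.mul_apply])
  map_zero' := LinearMap.ext fun φ => castPar_injective (by
    change castPar (intImage 0 φ) = castPar 0
    rw [castPar_intImage, ZeroMemClass.coe_zero, map_zero, map_zero, LinearMap.zero_apply])
  map_add' s t := LinearMap.ext fun φ => castPar_injective (by
    change castPar (intImage (s + t) φ) = castPar (intImage s φ + intImage t φ)
    rw [map_add, castPar_intImage, castPar_intImage, castPar_intImage, AddMemClass.coe_add,
      map_add, LinearMap.add_apply])

/-- The integral action is compatible with the complex one. -/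
lemma castPar_intAction (t : CuspForm.heckeAlgebra N 2 S) (φ : parabolicHoms ℤ (Gamma0 N) ℤ) :
    castPar (intAction N S t φ) = endToPar N t.1 (castPar φ) := castPar_intImage t φ

/-- The basic homomorphisms as members of the lattice. -/
abbrev parHomMem (Γ : Subgroup SL(2, ℤ)) [Γ.FiniteIndex] (i : Fin (parRank Γ)) :
    parabolicHoms ℤ Γ ℤ := ⟨parHom Γ i, isParabolicHom_parHom Γ i⟩

/-- An integral parabolic homomorphism is a combination of the basis. -/
lemma eq_sum_parHomMem {Γ : Subgroup SL(2, ℤ)} [Γ.FiniteIndex] (φ : parabolicHoms ℤ Γ ℤ) :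
    φ = ∑ i, φ.1 (Additive.ofMul (parElt Γ i)) • parHomMem Γ i := by
  refine Subtype.ext (AddMonoidHom.ext fun x => ?_)
  rw [eq_sum_parHom φ.2 x]
  simp [mul_comm]

/-- The integral action is faithful. -/
theorem intAction_injective : Injective (intAction N S) := by
  rw [injective_iff_map_eq_zero]
  intro t ht
  have h0 : endToPar N t.1 = endToPar N 0 := LinearMap.ext fun ψ => by
    have hψ : ψ = ∑ i, (ψ.1 (Additive.ofMul (parElt _ i))) • castPar (parHomMem _ i) := by
      refine Subtype.ext (AddMonoidHom.ext fun x => ?_)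
      rw [eq_sum_parHom ψ.2 x]
      simp [castPar, mul_comm]
    rw [hψ, map_sum, map_sum]
    refine Finset.sum_congr rfl fun i _ => ?_
    rw [map_smul, map_smul, ← castPar_intAction, ht, map_zero, LinearMap.zero_apply,
      LinearMap.zero_apply, map_zero]
  exact Subtype.ext (endToPar_injective h0)

/-- The matrix of a Hecke operator on the integral lattice. -/
def parMat (t : CuspForm.heckeAlgebra N 2 S) :
    Matrix (Fin (parRank (Gamma0 N))) (Fin (parRank (Gamma0 N))) ℤ :=
  Matrix.of fun j i => (intAction N S t (parHomMem _ i)).1 (Additive.ofMul (parElt _ j))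

variable (N S) in
/-- The matrices of the Hecke operators form a representation. -/
def parMatHom : CuspForm.heckeAlgebra N 2 S →+*
    Matrix (Fin (parRank (Gamma0 N))) (Fin (parRank (Gamma0 N))) ℤ where
  toFun := parMat
  map_one' := by
    ext j i
    simp [parMat, parHom_parElt, Matrix.one_apply, eq_comm]
  map_mul' s t := by
    ext k i
    simp only [parMat, Matrix.of_apply, Matrix.mul_apply, map_mul, Module.End.mul_apply]
    conv_lhs => rw [eq_sum_parHomMem (intAction N S t (parHomMem _ i)), map_sum]
    simp only [map_zsmul, Submodule.coe_sum, Submodule.coe_smul_of_tower,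
      AddMonoidHom.finsetSum_apply, AddMonoidHom.smul_apply, smul_eq_mul]
    exact Finset.sum_congr rfl fun x _ => mul_comm _ _
  map_zero' := by ext j i; simp [parMat]
  map_add' s t := by ext j i; simp [parMat]

section General

variable (R : Type*) [CommRing R] (A : Type*) [AddCommGroup A] [Module R A] [IsAddTorsionFree A]

/-- The action of a Hecke operator on parabolic homomorphisms with torsion free values. -/
def parActionLin (t : CuspForm.heckeAlgebra N 2 S) :
    parabolicHoms R (Gamma0 N) A →ₗ[R] parabolicHoms R (Gamma0 N) A :=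
  (parabolicCoords (Gamma0 N) R A).symm.toLinearMap ∘ₗ
    { toFun := fun v j => ∑ i, parMat t j i • v i
      map_add' := fun v w => funext fun j => by simp [smul_add, Finset.sum_add_distrib]
      map_smul' := fun c v => funext fun j => by
        simp only [Pi.smul_apply, RingHom.id_apply, Finset.smul_sum]
        exact Finset.sum_congr rfl fun i _ => smul_comm _ _ _ } ∘ₗ
    (parabolicCoords (Gamma0 N) R A).toLinearMap

lemma parActionLin_apply_parElt (t : CuspForm.heckeAlgebra N 2 S)
    (ψ : parabolicHoms R (Gamma0 N) A) (j : Fin (parRank (Gamma0 N))) :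
    (parActionLin R A t ψ).1 (Additive.ofMul (parElt _ j))
      = ∑ i, parMat t j i • ψ.1 (Additive.ofMul (parElt _ i)) :=
  congrFun ((parabolicCoords (Gamma0 N) R A).apply_symm_apply _) j

lemma parabolicHoms_ext {ψ ψ' : parabolicHoms R (Gamma0 N) A}
    (h : ∀ j, ψ.1 (Additive.ofMul (parElt (Gamma0 N) j))
      = ψ'.1 (Additive.ofMul (parElt (Gamma0 N) j))) : ψ = ψ' :=
  (parabolicCoords (Gamma0 N) R A).injective (funext h)

variable (N S) in
/-- **The Hecke algebra acts on parabolic homomorphisms with torsion free values.** -/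
def parAction : CuspForm.heckeAlgebra N 2 S →+* Module.End R (parabolicHoms R (Gamma0 N) A) where
  toFun := parActionLin R A
  map_one' := LinearMap.ext fun ψ => parabolicHoms_ext R A fun j => by
    rw [parActionLin_apply_parElt, show parMat (1 : CuspForm.heckeAlgebra N 2 S) = 1 from
      map_one (parMatHom N S)]
    simp [Matrix.one_apply]
  map_mul' s t := LinearMap.ext fun ψ => parabolicHoms_ext R A fun j => by
    rw [Module.End.mul_apply, parActionLin_apply_parElt, parActionLin_apply_parElt,
      show parMat (s * t) = parMat s * parMat t from map_mul (parMatHom N S) s t]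
    simp only [parActionLin_apply_parElt, Matrix.mul_apply, Finset.sum_smul, Finset.smul_sum,
      mul_smul]
    exact Finset.sum_comm
  map_zero' := LinearMap.ext fun ψ => parabolicHoms_ext R A fun j => by
    rw [parActionLin_apply_parElt, show parMat (0 : CuspForm.heckeAlgebra N 2 S) = 0 from
      map_zero (parMatHom N S)]
    simp
  map_add' s t := LinearMap.ext fun ψ => parabolicHoms_ext R A fun j => by
    rw [parActionLin_apply_parElt, show parMat (s + t) = parMat s + parMat t from
      map_add (parMatHom N S) s t]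
    simp [parActionLin_apply_parElt, add_smul, Finset.sum_add_distrib]

/-- The action in coordinates is given by the matrix. -/
lemma parAction_apply_parElt (t : CuspForm.heckeAlgebra N 2 S)
    (ψ : parabolicHoms R (Gamma0 N) A) (j : Fin (parRank (Gamma0 N))) :
    (parAction N S R A t ψ).1 (Additive.ofMul (parElt _ j))
      = ∑ i, parMat t j i • ψ.1 (Additive.ofMul (parElt _ i)) :=
  parActionLin_apply_parElt R A t ψ j

lemma eq_sum_comp_parHom (ψ : parabolicHoms R (Gamma0 N) A) :
    ψ.1 = ∑ i, ((smulAddHom ℤ A).flip (ψ.1 (Additive.ofMul (parElt _ i)))).comp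
      (parHom (Gamma0 N) i) := by
  refine AddMonoidHom.ext fun x => ?_
  rw [eq_sum_parHom ψ.2 x]
  simp

/-- The action of a generator is the transfer operator. -/
theorem parAction_heckeAt {ℓ : ℕ} (hℓ : ℓ.Prime) (hS : ℓ ∉ S)
    (ψ : parabolicHoms R (Gamma0 N) A) :
    (parAction N S R A ⟨_, MF.heckeAt_mem hℓ hS⟩ ψ).1 = heckeOp R N hℓ ψ.1 := by
  refine congrArg Subtype.val (parabolicHoms_ext R A
    (ψ' := ⟨heckeOp R N hℓ ψ.1, isParabolicHom_heckeOp R hℓ ψ.2⟩) fun j => ?_)
  rw [parAction_apply_parElt]
  change _ = heckeOp R N hℓ ψ.1 (Additive.ofMul (parElt _ j))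
  conv_rhs => rw [eq_sum_comp_parHom R A ψ, map_sum]
  rw [AddMonoidHom.finsetSum_apply]
  refine Finset.sum_congr rfl fun i _ => ?_
  rw [heckeOp_comp ℤ]
  have h := castPar_intAction ⟨MF.heckeAt N 2 hℓ, MF.heckeAt_mem hℓ hS⟩ (parHomMem (Gamma0 N) i)
  have h' : intAction N S ⟨MF.heckeAt N 2 hℓ, MF.heckeAt_mem hℓ hS⟩ (parHomMem (Gamma0 N) i)
      = ⟨heckeOp ℤ N hℓ (parHom _ i), isParabolicHom_heckeOp ℤ hℓ (isParabolicHom_parHom _ i)⟩ :=
    castPar_injective (h.trans (Subtype.ext (by
      rw [endToPar_heckeAt]; exact heckeOp_comp ℤ hℓ _ _)))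
  simp only [parMat, Matrix.of_apply, h']
  rfl

end General

/-- Over `ℂ` the action is the transport of the action on cusp forms. -/
theorem parAction_complex (t : CuspForm.heckeAlgebra N 2 S) :
    parAction N S ℂ ℂ t = endToPar N t.1 := by
  refine LinearMap.ext fun ψ => ?_
  have hψ : ψ = ∑ i, ψ.1 (Additive.ofMul (parElt _ i)) • castPar (parHomMem _ i) := by
    refine Subtype.ext (AddMonoidHom.ext fun x => ?_)
    rw [eq_sum_parHom ψ.2 x]
    simp [castPar, mul_comm]
  refine parabolicHoms_ext ℂ ℂ fun j => ?_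
  rw [parAction_apply_parElt]
  conv_rhs => rw [hψ, map_sum]
  simp only [map_smul, ← castPar_intAction, Submodule.coe_sum, Submodule.coe_smul,
    AddMonoidHom.finsetSum_apply, AddMonoidHom.smul_apply]
  refine Finset.sum_congr rfl fun i _ => ?_
  simp [castPar, parMat, mul_comm]

lemma intAction_charInvolution (t : CuspForm.heckeAlgebra N 2 S)
    (φ : parabolicHoms ℤ (Gamma0 N) ℤ) :
    (intAction N S t ⟨charInvolution N ℤ ℤ φ.1, charInvolution_mem_parabolicHoms N ℤ ℤ φ.2⟩).1
      = charInvolution N ℤ ℤ (intAction N S t φ).1 := by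
  refine congrArg Subtype.val (castPar_injective (a₂ := ⟨_,
    charInvolution_mem_parabolicHoms N ℤ ℤ (intAction N S t φ).2⟩) ?_)
  refine Subtype.ext ?_
  rw [castPar_intAction]
  change _ = charInvolution N ℂ ℂ (castPar (intAction N S t φ)).1
  rw [castPar_intAction]
  obtain ⟨x, hx⟩ := (periodEquiv N).surjective (castPar φ)
  have h1 : castPar ⟨charInvolution N ℤ ℤ φ.1, charInvolution_mem_parabolicHoms N ℤ ℤ φ.2⟩
      = periodEquiv N (x.1, -x.2) := Subtype.ext (by
    rw [← charInvolution_periodEquiv, hx]; rfl)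
  rw [h1, ← hx, endToPar_periodEquiv, endToPar_periodEquiv, charInvolution_periodEquiv, map_neg]

/-- The action commutes with the involution. -/
theorem parAction_charInvolution (R : Type*) [CommRing R] (A : Type*) [AddCommGroup A] [Module R A]
    [IsAddTorsionFree A] (t : CuspForm.heckeAlgebra N 2 S) (ψ : parabolicHoms R (Gamma0 N) A) :
    (parAction N S R A t
        ⟨charInvolution N R A ψ.1, charInvolution_mem_parabolicHoms N R A ψ.2⟩).1
      = charInvolution N R A (parAction N S R A t ψ).1 := by
  refine congrArg Subtype.val (parabolicHoms_ext R A (ψ' := ⟨_,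
    charInvolution_mem_parabolicHoms N R A (parAction N S R A t ψ).2⟩) fun j => ?_)
  rw [parAction_apply_parElt]
  set γ' := jConjGamma0 N (parElt (Gamma0 N) j)
  change ∑ i, parMat t j i • ψ.1 (Additive.ofMul (jConjGamma0 N (parElt _ i)))
    = (parAction N S R A t ψ).1 (Additive.ofMul γ')
  rw [eq_sum_parHom (parAction N S R A t ψ).2]
  simp only [parAction_apply_parElt, eq_sum_parHom ψ.2 (Additive.ofMul (jConjGamma0 N _)),
    Finset.smul_sum, smul_smul]
  rw [Finset.sum_comm]
  conv_rhs => rw [Finset.sum_comm]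
  refine Finset.sum_congr rfl fun k _ => ?_
  rw [← Finset.sum_smul, ← Finset.sum_smul]
  congr 1
  have h := DFunLike.congr_fun (intAction_charInvolution t (parHomMem _ k))
    (Additive.ofMul (parElt _ j))
  rw [eq_sum_parHomMem ⟨charInvolution N ℤ ℤ (parHom (Gamma0 N) k), _⟩] at h
  simp only [map_sum, map_zsmul, Submodule.coe_sum, Submodule.coe_smul,
    AddMonoidHom.finsetSum_apply, AddMonoidHom.smul_apply, charInvolution_apply,
    toMul_ofMul] at h
  rw [eq_sum_parHom (intAction N S t (parHomMem _ k)).2
    (Additive.ofMul (jConjGamma0 N (parElt (Gamma0 N) j)))] at h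
  simpa [parMat, smul_eq_mul, mul_comm] using! h

end FermatAgent.Period
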