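import Fermat.Agent.Period.Coset
import Fermat.Agent.Period.Gamma0Period
import Fermat.Prelude.Def_ModularCurve_GenusNumerics

/-!
# Coset, elliptic point and cusp counts for `Γ₀(N)`

`SL(2, ℤ) ⧸ Γ₀(N)` is the projective line over `ZMod N` through the first column.
-/

set_option autoImplicit false

noncomputable section

open scoped MatrixGroups
open ModularGroup CongruenceSubgroup

namespace FermatAgent.Period

/-- Primitive pairs modulo `N`. -/
abbrev PrimPair (N : ℕ) : Type := {v : ZMod N × ZMod N // IsCoprime v.1 v.2}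

section Pairs

variable {N : ℕ} [NeZero N]

/-- The first column of an element of `SL(2, ℤ)` modulo `N`. -/
def colMod (N : ℕ) (g : SL(2, ℤ)) : PrimPair N :=
  ⟨(((g 0 0 : ℤ) : ZMod N), ((g 1 0 : ℤ) : ZMod N)), by
    have h : IsCoprime (g 0 0) (g 1 0) := by
      refine ⟨g 1 1, -(g 0 1), ?_⟩
      have h := g.det_coe
      rw [Matrix.det_fin_two] at h
      linear_combination h
    exact h.map (Int.castRingHom (ZMod N))⟩

omit [NeZero N] in
lemma coe_colMod (g : SL(2, ℤ)) :
    (colMod N g).1 = (((g 0 0 : ℤ) : ZMod N), ((g 1 0 : ℤ) : ZMod N)) := rfl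

lemma exists_colMod_eq (v : PrimPair N) : ∃ g : SL(2, ℤ), colMod N g = v := by
  obtain ⟨⟨a, c⟩, hac⟩ := v
  obtain ⟨u, w, huw⟩ := hac
  -- lifts
  set A : ℤ := (a.val : ℤ)
  set C : ℤ := (c.val : ℤ) + if c.val = 0 then (N : ℤ) else 0
  have hA : (A : ZMod N) = a := by simp [A]
  have hC : (C : ZMod N) = c := by
    simp only [C]
    split_ifs <;> simp
  have hC0 : C ≠ 0 := by
    have hN : (N : ℤ) ≠ 0 := Nat.cast_ne_zero.mpr (NeZero.ne N)
    simp only [C]
    split_ifs with h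
    · simpa [h] using hN
    · rw [add_zero]; exact Int.natCast_ne_zero.mpr h
  -- move `A` in its class modulo `N` until it is coprime to `C`
  set t : ℕ := ∏ p ∈ C.natAbs.primeFactors.filter (fun p : ℕ => ¬ ((p : ℤ) ∣ A)), p
  have hcop : IsCoprime (A + t * N) C := by
    rw [Int.isCoprime_iff_nat_coprime]
    refine Nat.coprime_of_dvd fun p hp hpA hpC => ?_
    rw [← Int.natCast_dvd] at hpA hpC
    have hpmem : p ∈ C.natAbs.primeFactors :=
      Nat.mem_primeFactors.mpr ⟨hp, Int.natCast_dvd.mp hpC, Int.natAbs_ne_zero.mpr hC0⟩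
    by_cases hA' : (p : ℤ) ∣ A
    · have htN : (p : ℤ) ∣ t * N := (dvd_add_right hA').mp hpA
      rcases (Nat.prime_iff_prime_int.mp hp).dvd_or_dvd htN with h | h
      · rw [Int.natCast_dvd_natCast] at h
        obtain ⟨q, hq, hpq⟩ := (Prime.dvd_finsetProd_iff hp.prime _).mp h
        rw [Finset.mem_filter, Nat.mem_primeFactors] at hq
        obtain rfl := (Nat.prime_dvd_prime_iff_eq hp hq.1.1).mp hpq
        exact hq.2 hA'
      · have h1 : ((A * (u.val : ℤ) + C * (w.val : ℤ) - 1 : ℤ) : ZMod N) = 0 := by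
          push_cast
          rw [hA, hC, ZMod.natCast_zmod_val, ZMod.natCast_zmod_val]
          linear_combination huw
        rw [ZMod.intCast_zmod_eq_zero_iff_dvd] at h1
        have h2 := h.trans h1
        rw [dvd_sub_right (dvd_add (hA'.mul_right _) (hpC.mul_right _))] at h2
        exact hp.not_dvd_one (by exact_mod_cast h2)
    · refine hA' ((dvd_add_left ?_).mp hpA)
      exact Dvd.dvd.mul_right (Int.natCast_dvd_natCast.mpr
        (Finset.dvd_prod_of_mem _ (Finset.mem_filter.mpr ⟨hpmem, hA'⟩))) _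
  obtain ⟨x, y, hxy⟩ := hcop
  refine ⟨⟨!![A + t * N, -y; C, x], by rw [Matrix.det_fin_two_of]; linear_combination hxy⟩,
    Subtype.ext ?_⟩
  change (((A + t * N : ℤ) : ZMod N), ((C : ℤ) : ZMod N)) = (a, c)
  refine Prod.ext ?_ ?_
  · simp [hA]
  · exact hC

omit [NeZero N] in
lemma mk_eq_mk_iff (g h : SL(2, ℤ)) :
    (QuotientGroup.mk g : Cosets (Gamma0 N)) = QuotientGroup.mk h ↔
      ∃ u : (ZMod N)ˣ, (colMod N h).1 = (u : ZMod N) • (colMod N g).1 := by
  rw [QuotientGroup.eq, Gamma0_mem]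
  have e10 : ((g⁻¹ * h : SL(2, ℤ)) 1 0 : ℤ) = g 0 0 * h 1 0 - g 1 0 * h 0 0 := by
    simp [Matrix.SpecialLinearGroup.coe_inv, Matrix.adjugate_fin_two,
      Matrix.SpecialLinearGroup.coe_mul, Matrix.mul_apply, Fin.sum_univ_two]
    ring
  rw [e10]
  have hg := congrArg (Int.cast : ℤ → ZMod N) g.det_coe
  have hh := congrArg (Int.cast : ℤ → ZMod N) h.det_coe
  rw [Matrix.det_fin_two] at hg hh
  push_cast at hg hh ⊢
  simp only [coe_colMod, Prod.smul_mk, smul_eq_mul, Prod.mk.injEq]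
  constructor
  · intro h0
    set lam := (((g 1 1 : ℤ) : ZMod N) * ((h 0 0 : ℤ) : ZMod N)
      - ((g 0 1 : ℤ) : ZMod N) * ((h 1 0 : ℤ) : ZMod N))
    set mu := (((g 0 0 : ℤ) : ZMod N) * ((h 1 1 : ℤ) : ZMod N)
      - ((g 1 0 : ℤ) : ZMod N) * ((h 0 1 : ℤ) : ZMod N))
    have hone : lam * mu = 1 := by
      simp only [lam, mu]
      linear_combination (((h 0 0 : ℤ) : ZMod N) * ((h 1 1 : ℤ) : ZMod N)
        - ((h 0 1 : ℤ) : ZMod N) * ((h 1 0 : ℤ) : ZMod N)) * hg + hh
        + (((g 1 1 : ℤ) : ZMod N) * ((h 0 1 : ℤ) : ZMod N)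
          - ((g 0 1 : ℤ) : ZMod N) * ((h 1 1 : ℤ) : ZMod N)) * h0
    refine ⟨⟨lam, mu, hone, by rw [mul_comm]; exact hone⟩, ?_, ?_⟩
    · simp only [lam]
      linear_combination ((g 0 1 : ℤ) : ZMod N) * h0 - ((h 0 0 : ℤ) : ZMod N) * hg
    · simp only [lam]
      linear_combination ((g 1 1 : ℤ) : ZMod N) * h0 - ((h 1 0 : ℤ) : ZMod N) * hg
  · rintro ⟨u, h1, h2⟩
    rw [h1, h2]; ring

/-- The coset attached to a primitive pair. -/
def pairCoset (v : PrimPair N) : Cosets (Gamma0 N) :=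
  QuotientGroup.mk (exists_colMod_eq v).choose

lemma pairCoset_colMod (g : SL(2, ℤ)) : pairCoset (colMod N g) = QuotientGroup.mk g := by
  rw [pairCoset, mk_eq_mk_iff]
  exact ⟨1, by rw [Units.val_one, one_smul, (exists_colMod_eq (colMod N g)).choose_spec]⟩

/-- Primitive pairs give the same coset iff they differ by a unit. -/
lemma pairCoset_eq_iff (v w : PrimPair N) :
    pairCoset v = pairCoset w ↔ ∃ u : (ZMod N)ˣ, w.1 = (u : ZMod N) • v.1 := by
  rw [pairCoset, pairCoset, mk_eq_mk_iff, (exists_colMod_eq v).choose_spec,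
    (exists_colMod_eq w).choose_spec]

/-- Every coset comes from a primitive pair. -/
lemma pairCoset_surjective : Function.Surjective (pairCoset (N := N)) := by
  intro x
  induction x using Quotient.inductionOn' with
  | h g => exact ⟨colMod N g, pairCoset_colMod g⟩

omit [NeZero N] in
/-- Scaling a primitive pair by a unit. -/
lemma isCoprime_unit_smul (u : (ZMod N)ˣ) (v : PrimPair N) :
    IsCoprime ((u : ZMod N) • v.1).1 ((u : ZMod N) • v.1).2 := by
  simp only [Prod.smul_fst, Prod.smul_snd, smul_eq_mul]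
  exact (isCoprime_mul_unit_left_left u.isUnit _ _).mpr
    ((isCoprime_mul_unit_left_right u.isUnit _ _).mpr v.2)

lemma card_primPair : Nat.card (PrimPair N) = (Gamma0 N).index * Nat.totient N := by
  classical
  have hfib : ∀ x : Cosets (Gamma0 N),
      Nat.card {v : PrimPair N // pairCoset v = x} = Nat.totient N := by
    intro x
    obtain ⟨v, rfl⟩ := pairCoset_surjective x
    rw [← ZMod.card_units_eq_totient N, ← Nat.card_eq_fintype_card]
    refine (Nat.card_congr (Equiv.ofBijective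
      (fun u : (ZMod N)ˣ => (⟨⟨(u : ZMod N) • v.1, isCoprime_unit_smul u v⟩,
        ((pairCoset_eq_iff v _).mpr ⟨u, rfl⟩).symm⟩ :
          {w : PrimPair N // pairCoset w = pairCoset v}))
      ⟨?_, ?_⟩)).symm
    · intro a b hab
      have h : (a : ZMod N) • v.1 = (b : ZMod N) • v.1 :=
        congrArg (fun z : {w : PrimPair N // pairCoset w = pairCoset v} => z.1.1) hab
      obtain ⟨p, q, hpq⟩ := v.2
      have h1 : (a : ZMod N) * v.1.1 = b * v.1.1 := congrArg Prod.fst h
      have h2 : (a : ZMod N) * v.1.2 = b * v.1.2 := congrArg Prod.snd h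
      apply Units.ext
      linear_combination p * h1 + q * h2 - (a : ZMod N) * hpq + (b : ZMod N) * hpq
    · rintro ⟨w, hw⟩
      obtain ⟨u, hu⟩ := (pairCoset_eq_iff v w).mp hw.symm
      exact ⟨u, Subtype.ext (Subtype.ext hu.symm)⟩
  rw [← Nat.card_congr (Equiv.sigmaFiberEquiv (pairCoset (N := N))), Nat.card_sigma,
    Finset.sum_congr rfl fun x _ => hfib x, Finset.sum_const, Finset.card_univ, smul_eq_mul,
    Subgroup.index_eq_card, Nat.card_eq_fintype_card]

end Pairs

section Jordan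

lemma card_primPair_mul {m n : ℕ} (h : m.Coprime n) :
    Nat.card (PrimPair (m * n)) = Nat.card (PrimPair m) * Nat.card (PrimPair n) := by
  set e := ZMod.chineseRemainder h
  rw [← Nat.card_prod]
  have hiff : ∀ a c : ZMod (m * n), IsCoprime a c ↔
      IsCoprime (e a).1 (e c).1 ∧ IsCoprime (e a).2 (e c).2 := by
    intro a c
    constructor
    · rintro ⟨p, q, hpq⟩
      have := congrArg e hpq
      rw [map_add, map_mul, map_mul, map_one] at this
      exact ⟨⟨(e p).1, (e q).1, congrArg Prod.fst this⟩, ⟨(e p).2, (e q).2, congrArg Prod.snd this⟩⟩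
    · rintro ⟨⟨p1, q1, h1⟩, ⟨p2, q2, h2⟩⟩
      refine ⟨e.symm (p1, p2), e.symm (q1, q2), e.injective ?_⟩
      simp [Prod.ext_iff, h1, h2]
  refine Nat.card_congr
    { toFun := fun v => (⟨((e v.1.1).1, (e v.1.2).1), ((hiff _ _).mp v.2).1⟩,
        ⟨((e v.1.1).2, (e v.1.2).2), ((hiff _ _).mp v.2).2⟩)
      invFun := fun w => ⟨(e.symm (w.1.1.1, w.2.1.1), e.symm (w.1.1.2, w.2.1.2)),
        (hiff _ _).mpr (by simp only [RingEquiv.apply_symm_apply]; exact ⟨w.1.2, w.2.2⟩)⟩
      left_inv := fun v => Subtype.ext (Prod.ext (by simp) (by simp))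
      right_inv := fun w => Prod.ext (Subtype.ext (Prod.ext (by simp) (by simp)))
        (Subtype.ext (Prod.ext (by simp) (by simp))) }

/-- `ψ` is multiplicative. -/
lemma dedekindPsi_isMultiplicative {m n : ℕ} (h : m.Coprime n) :
    ModularCurve.dedekindPsi (m * n) = ModularCurve.dedekindPsi m * ModularCurve.dedekindPsi n := by
  classical
  let F : ArithmeticFunction ℕ := ⟨fun d => if d ≠ 0 ∧ Squarefree d then 1 else 0, by simp⟩
  have hF : F.IsMultiplicative := by
    refine ⟨by simp [F], fun {a b} hab => ?_⟩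
    simp only [F, ArithmeticFunction.coe_mk, Nat.squarefree_mul hab, mul_ne_zero_iff]
    split_ifs <;> first | rfl | tauto
  have hψ : ∀ N, ModularCurve.dedekindPsi N = (F * ArithmeticFunction.id) N := by
    intro N
    rw [ModularCurve.dedekindPsi, ArithmeticFunction.mul_apply,
      ← Nat.map_div_right_divisors, Finset.sum_map, Finset.sum_filter]
    refine Finset.sum_congr rfl fun d hd => ?_
    have hd0 : d ≠ 0 := (Nat.pos_of_mem_divisors hd).ne'
    change _ = (if d ≠ 0 ∧ Squarefree d then 1 else 0) * (N / d)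
    simp [hd0]
  rw [hψ, hψ, hψ]
  exact (hF.mul ArithmeticFunction.isMultiplicative_id).map_mul_of_coprime h

/-- `ψ(p ^ (k+1)) = p ^ (k+1) + p ^ k`. -/
lemma dedekindPsi_prime_pow {p : ℕ} (hp : p.Prime) (k : ℕ) :
    ModularCurve.dedekindPsi (p ^ (k + 1)) = p ^ (k + 1) + p ^ k := by
  rw [ModularCurve.dedekindPsi, Finset.sum_filter, Nat.divisors_prime_pow hp, Finset.sum_map,
    Finset.sum_range_succ', Finset.sum_range_succ']
  have h : ∀ i : ℕ, ¬ Squarefree (p ^ (i + 1 + 1)) := fun i hs =>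
    hp.not_isUnit (hs p ⟨p ^ i, by ring⟩)
  simp only [Function.Embedding.coeFn_mk, h, if_false, Finset.sum_const_zero, zero_add, pow_zero,
    pow_one, squarefree_one, hp.squarefree, if_true, Nat.div_one]
  rw [pow_succ, Nat.mul_div_cancel _ hp.pos]
  ring

lemma card_primPair_prime_pow {p : ℕ} (hp : p.Prime) (k : ℕ) :
    Nat.card (PrimPair (p ^ (k + 1)))
      = ModularCurve.dedekindPsi (p ^ (k + 1)) * Nat.totient (p ^ (k + 1)) := by
  classical
  have : NeZero (p ^ (k + 1)) := ⟨pow_ne_zero _ hp.ne_zero⟩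
  set Nn := p ^ (k + 1)
  have hiff : ∀ a c : ZMod Nn, IsCoprime a c ↔ IsUnit a ∨ IsUnit c := by
    intro a c
    constructor
    · rintro ⟨u, v, huv⟩
      by_contra hn
      rw [not_or] at hn
      have key : ∀ x : ZMod Nn, ¬ IsUnit x → p ∣ x.val := by
        intro x hx
        by_contra hpx
        refine hx ?_
        rw [← ZMod.natCast_zmod_val x, ZMod.isUnit_iff_coprime]
        exact (hp.coprime_iff_not_dvd.mpr hpx).symm.pow_right _
      have h1 : ((u.val * a.val + v.val * c.val : ℕ) : ZMod Nn) = 1 := by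
        push_cast
        simp only [ZMod.natCast_zmod_val]
        exact huv
      rw [← Nat.cast_one, ZMod.natCast_eq_natCast_iff'] at h1
      have hpN : p ∣ Nn := dvd_pow_self p (Nat.succ_ne_zero k)
      have h2 : (u.val * a.val + v.val * c.val) % p = 1 % p := by
        rw [← Nat.mod_mod_of_dvd _ hpN, h1, Nat.mod_mod_of_dvd _ hpN]
      rw [Nat.mod_eq_zero_of_dvd (dvd_add ((key a hn.1).mul_left _) ((key c hn.2).mul_left _)),
        Nat.mod_eq_of_lt hp.one_lt] at h2
      exact zero_ne_one h2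
    · rintro (⟨u, rfl⟩ | ⟨u, rfl⟩)
      · exact ⟨(u⁻¹ : (ZMod Nn)ˣ), 0, by simp⟩
      · exact ⟨0, (u⁻¹ : (ZMod Nn)ˣ), by simp⟩
  unfold PrimPair
  rw [Nat.card_congr (Equiv.subtypeEquivRight fun v : ZMod Nn × ZMod Nn => hiff v.1 v.2)]
  have hunit : Fintype.card {a : ZMod Nn // IsUnit a} = Nat.totient Nn := by
    rw [← ZMod.card_units_eq_totient Nn]
    exact Fintype.card_congr (Equiv.ofBijective
      (fun a => a.2.unit) ⟨fun a b h => Subtype.ext (congrArg Units.val h :),
        fun u => ⟨⟨u, u.isUnit⟩, Units.ext rfl⟩⟩)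
  have hnon : Fintype.card {v : ZMod Nn × ZMod Nn // ¬ (IsUnit v.1 ∨ IsUnit v.2)}
      = Fintype.card {a : ZMod Nn // ¬ IsUnit a} * Fintype.card {a : ZMod Nn // ¬ IsUnit a} := by
    rw [← Fintype.card_prod]
    exact Fintype.card_congr
      ((Equiv.subtypeEquivRight fun v : ZMod Nn × ZMod Nn => not_or).trans
        (Equiv.subtypeProdEquivProd (p := fun a : ZMod Nn => ¬ IsUnit a)
          (q := fun a : ZMod Nn => ¬ IsUnit a)))
  rw [Fintype.card_subtype_compl, Fintype.card_subtype_compl, hunit, Fintype.card_prod,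
    ZMod.card] at hnon
  have hle := Fintype.card_subtype_le (fun v : ZMod Nn × ZMod Nn => IsUnit v.1 ∨ IsUnit v.2)
  rw [Fintype.card_prod, ZMod.card] at hle
  rw [Nat.card_eq_fintype_card, dedekindPsi_prime_pow hp, Nat.totient_prime_pow_succ hp] at *
  obtain ⟨q, rfl⟩ : ∃ q, p = q + 1 := ⟨p - 1, (Nat.sub_add_cancel hp.one_le).symm⟩
  have e1 : (q + 1) ^ (k + 1) - (q + 1) ^ k * (q + 1 - 1) = (q + 1) ^ k := by
    rw [add_tsub_cancel_right, pow_succ]
    have : (q + 1) ^ k * (q + 1) = (q + 1) ^ k * q + (q + 1) ^ k := by ring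
    omega
  simp only [Nn] at hnon hle ⊢
  rw [e1] at hnon
  have h3 : ((q + 1) ^ (k + 1) + (q + 1) ^ k) * ((q + 1) ^ k * q) + (q + 1) ^ k * (q + 1) ^ k
      = (q + 1) ^ (k + 1) * (q + 1) ^ (k + 1) := by ring
  rw [add_tsub_cancel_right]
  omega

lemma card_primPair_eq : ∀ N : ℕ, N ≠ 0 →
    Nat.card (PrimPair N) = ModularCurve.dedekindPsi N * Nat.totient N := by
  intro N
  induction N using Nat.recOnPosPrimePosCoprime with
  | zero => simp
  | one =>
    intro _
    rw [ModularCurve.dedekindPsi_one, Nat.totient_one, Nat.card_eq_one_iff_unique]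
    refine ⟨⟨fun a b => ?_⟩, ⟨⟨(0, 0), ⟨0, 0, Subsingleton.elim _ _⟩⟩⟩⟩
    exact Subtype.ext (Prod.ext (Subsingleton.elim _ _) (Subsingleton.elim _ _))
  | prime_pow p n hp hn =>
    intro _
    obtain ⟨k, rfl⟩ : ∃ k, n = k + 1 := ⟨n - 1, (Nat.sub_add_cancel hn).symm⟩
    exact card_primPair_prime_pow hp k
  | coprime a b ha hb hab iha ihb =>
    intro _
    rw [card_primPair_mul hab, iha (by omega), ihb (by omega), dedekindPsi_isMultiplicative hab,
      Nat.totient_mul hab]
    ring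

end Jordan

section Elliptic

variable (N : ℕ) [NeZero N]

/-- The index of `Γ₀(N)` is `ψ(N)`. -/
theorem index_Gamma0 : (Gamma0 N).index = ModularCurve.dedekindPsi N := by
  have h := card_primPair (N := N)
  rw [card_primPair_eq N (NeZero.ne N)] at h
  exact (Nat.eq_of_mul_eq_mul_right (Nat.totient_pos.mpr (NeZero.pos N)) h).symm

variable {N}

/-- `SL(2, ℤ)` acts linearly on primitive pairs. -/
lemma smul_pairCoset (g : SL(2, ℤ)) (v : PrimPair N) :
    ∃ w : PrimPair N, g • pairCoset v = pairCoset w ∧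
      w.1 = (((g 0 0 : ℤ) : ZMod N) * v.1.1 + ((g 0 1 : ℤ) : ZMod N) * v.1.2,
        ((g 1 0 : ℤ) : ZMod N) * v.1.1 + ((g 1 1 : ℤ) : ZMod N) * v.1.2) := by
  obtain ⟨h, rfl⟩ := exists_colMod_eq v
  refine ⟨colMod N (g * h), ?_, ?_⟩
  · rw [pairCoset_colMod, pairCoset_colMod]; rfl
  · simp [coe_colMod, Matrix.mul_apply, Fin.sum_univ_two]

/-- The pair `(1, x)`. -/
def onePair (x : ZMod N) : PrimPair N := ⟨(1, x), ⟨1, 0, by ring⟩⟩

/-- The elliptic points of order two of `Γ₀(N)` are counted by `ν₂`. -/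
theorem fixTwo_Gamma0 : fixTwo (Gamma0 N) = ModularCurve.nuTwo N := by
  have hmem : ∀ x : ZMod N, x ^ 2 + 1 = 0 →
      (S : SL(2, ℤ)) • pairCoset (onePair x) = pairCoset (onePair x) := by
    intro x hx
    obtain ⟨w, hw, hwe⟩ := smul_pairCoset (S : SL(2, ℤ)) (onePair x)
    simp [coe_S, onePair] at hwe
    rw [hw, pairCoset_eq_iff]
    refine ⟨⟨x, -x, by linear_combination -hx, by linear_combination -hx⟩, ?_⟩
    rw [hwe]
    simp [onePair, Prod.ext_iff]
    linear_combination hx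
  refine (Nat.card_congr (Equiv.ofBijective
    (fun x : {x : ZMod N // x ^ 2 + 1 = 0} =>
      (⟨pairCoset (onePair x.1), hmem x.1 x.2⟩ : {y // (S : SL(2, ℤ)) • y = y}))
    ⟨?_, ?_⟩)).symm
  · intro a b hab
    obtain ⟨u, hu⟩ := (pairCoset_eq_iff _ _).mp (congrArg Subtype.val hab)
    simp [onePair, Prod.ext_iff] at hu
    exact Subtype.ext (by rw [hu.2, ← hu.1, one_mul])
  · rintro ⟨y, hy⟩
    obtain ⟨⟨⟨a, c⟩, hac⟩, rfl⟩ := pairCoset_surjective y
    obtain ⟨w, hw, hwe⟩ := smul_pairCoset (S : SL(2, ℤ)) ⟨(a, c), hac⟩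
    simp [coe_S] at hwe
    rw [hw, pairCoset_eq_iff] at hy
    obtain ⟨u, hu⟩ := hy
    rw [hwe] at hu
    simp only [Prod.smul_mk, smul_eq_mul, Prod.mk.injEq] at hu
    obtain ⟨hu1, hu2⟩ := hu
    obtain ⟨p, q, hpq⟩ := hac
    have ha : a * (p + q * u) = 1 := by linear_combination hpq - q * hu2
    have hx : ((u : ZMod N)) ^ 2 + 1 = 0 := by
      linear_combination (-(((u : ZMod N)) ^ 2) - 1) * ha +
        (p + q * u) * (hu1 + (-(u : ZMod N)) * hu2)
    refine ⟨⟨u, hx⟩, Subtype.ext ?_⟩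
    rw [pairCoset_eq_iff]
    refine ⟨⟨a, p + q * u, ha, by rw [mul_comm]; exact ha⟩, ?_⟩
    simp [onePair, Prod.ext_iff]
    linear_combination hu2

/-- The elliptic points of order three of `Γ₀(N)` are counted by `ν₃`. -/
theorem fixThree_Gamma0 : fixThree (Gamma0 N) = ModularCurve.nuThree N := by
  have hmem : ∀ x : ZMod N, x ^ 2 + x + 1 = 0 →
      ellThree • pairCoset (onePair x) = pairCoset (onePair x) := by
    intro x hx
    obtain ⟨w, hw, hwe⟩ := smul_pairCoset ellThree (onePair x)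
    simp [coe_ellThree, onePair] at hwe
    rw [hw, pairCoset_eq_iff]
    refine ⟨⟨1 + x, -x, by linear_combination -hx, by linear_combination -hx⟩, ?_⟩
    rw [hwe]
    simp [onePair, Prod.ext_iff]
    constructor <;> first | linear_combination hx | linear_combination -hx
  refine (Nat.card_congr (Equiv.ofBijective
    (fun x : {x : ZMod N // x ^ 2 + x + 1 = 0} =>
      (⟨pairCoset (onePair x.1), hmem x.1 x.2⟩ : {y // ellThree • y = y}))
    ⟨?_, ?_⟩)).symm
  · intro a b hab
    obtain ⟨u, hu⟩ := (pairCoset_eq_iff _ _).mp (congrArg Subtype.val hab)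
    simp [onePair, Prod.ext_iff] at hu
    exact Subtype.ext (by rw [hu.2, ← hu.1, one_mul])
  · rintro ⟨y, hy⟩
    obtain ⟨⟨⟨a, c⟩, hac⟩, rfl⟩ := pairCoset_surjective y
    obtain ⟨w, hw, hwe⟩ := smul_pairCoset ellThree ⟨(a, c), hac⟩
    simp [coe_ellThree] at hwe
    rw [hw, pairCoset_eq_iff] at hy
    obtain ⟨u, hu⟩ := hy
    rw [hwe] at hu
    simp only [Prod.smul_mk, smul_eq_mul, Prod.mk.injEq] at hu
    obtain ⟨hu1, hu2⟩ := hu
    obtain ⟨p, q, hpq⟩ := hac
    set v : ZMod N := ((u⁻¹ : (ZMod N)ˣ) : ZMod N)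
    have huv : (u : ZMod N) * v = 1 := u.mul_inv
    have hc : c = -v * a := by linear_combination v * hu1 + (v * 0 - 0) * huv - c * huv
    have ha : a * (p - q * v) = 1 := by linear_combination hpq - q * hc
    have hE : a * ((u : ZMod N) + v - 1) = 0 := by
      linear_combination -hu2 + a * huv - ((u : ZMod N) - 1) * hc
    have hF : (u : ZMod N) + v - 1 = 0 := by
      linear_combination (p - q * v) * hE - ((u : ZMod N) + v - 1) * ha
    have hx : (-v) ^ 2 + (-v) + 1 = 0 := by linear_combination v * hF - huv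
    refine ⟨⟨-v, hx⟩, Subtype.ext ?_⟩
    rw [pairCoset_eq_iff]
    refine ⟨⟨a, p - q * v, ha, by rw [mul_comm]; exact ha⟩, ?_⟩
    simp [onePair, Prod.ext_iff]
    linear_combination hc

end Elliptic

end FermatAgent.Period
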