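import Fermat.Agent.Period.HeckeAction
import Fermat.Agent.MF.Duality

/-!
# Eigenspaces of the Hecke algebra in the parabolic homomorphisms

For a character of the full Hecke algebra with values in a field of characteristic zero, the
eigenspace is two dimensional and the involution has each sign with multiplicity one.
-/

set_option autoImplicit false

noncomputable section

open scoped MatrixGroups Matrix
open Function CongruenceSubgroup ModularCurve ModularCurve.Period ModularFormClass

namespace FermatAgent.Period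

section LinearEquations

variable {κ n : Type*} [Fintype n]

/-- The solutions of a family of linear equations. -/
def solSpace (F : Type*) [Field F] (w : κ → n → F) : Submodule F (n → F) where
  carrier := {v | ∀ k, w k ⬝ᵥ v = 0}
  add_mem' hv hv' k := by rw [dotProduct_add, hv k, hv' k, add_zero]
  zero_mem' k := dotProduct_zero _
  smul_mem' c v hv k := by rw [dotProduct_smul, hv k, smul_zero]

lemma finrank_ker_mulVecLin_of_right_inverse {F m : Type*} [Field F] [Fintype m] [DecidableEq m]
    {A : Matrix m n F} {B : Matrix n m F} (h : A * B = 1) :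
    Module.finrank F (LinearMap.ker A.mulVecLin) + Fintype.card m = Fintype.card n := by
  have hs : LinearMap.range A.mulVecLin = ⊤ :=
    LinearMap.range_eq_top.mpr (Matrix.mulVec_surjective_iff_exists_right_inverse.mpr ⟨B, h⟩)
  have h1 := LinearMap.finrank_range_add_finrank_ker A.mulVecLin
  rw [hs, finrank_top, Module.finrank_pi, Module.finrank_pi] at h1
  omega

lemma solSpace_map_eq {E F : Type*} [Field E] [Field F] (τ : E →+* F) (w : κ → n → E)
    {b : Set (n → E)} (hbw : b ⊆ Set.range w)
    (hspan : Submodule.span E b = Submodule.span E (Set.range w)) :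
    solSpace F (fun k i => τ (w k i))
      = LinearMap.ker ((Matrix.of fun (i : b) j => (i : n → E) j).map τ).mulVecLin := by
  set A : Matrix b n E := Matrix.of fun i j => (i : n → E) j
  ext v
  simp only [LinearMap.mem_ker, Matrix.mulVecLin_apply]
  constructor
  · intro h
    funext i
    obtain ⟨k, hk⟩ := hbw i.2
    change (fun j => τ (A i j)) ⬝ᵥ v = 0
    simpa [A, ← hk] using! h k
  · intro h k
    have hk : w k ∈ Submodule.span E b := hspan ▸ Submodule.subset_span ⟨k, rfl⟩
    change (fun i => τ (w k i)) ⬝ᵥ v = 0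
    generalize w k = u at hk ⊢
    induction hk using Submodule.span_induction with
    | mem x hx => exact congrFun h ⟨x, hx⟩
    | zero => simp [dotProduct]
    | add x y _ _ hx hy =>
      simp only [Pi.add_apply, map_add]
      change ((fun i => τ (x i)) + fun i => τ (y i)) ⬝ᵥ v = 0
      rw [add_dotProduct, hx, hy, add_zero]
    | smul c x _ hx =>
      simp only [Pi.smul_apply, smul_eq_mul, map_mul]
      change (τ c • fun i => τ (x i)) ⬝ᵥ v = 0
      rw [smul_dotProduct, hx, smul_zero]

/-- The dimension of a solution space is invariant under field extensions. -/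
theorem finrank_solSpace_map {E K : Type*} [Field E] [Field K] (σ : E →+* K) (w : κ → n → E) :
    Module.finrank K (solSpace K fun k i => σ (w k i)) = Module.finrank E (solSpace E w) := by
  classical
  obtain ⟨b, hbw, hspan, hli⟩ := exists_linearIndependent E (Set.range w)
  have : Finite b := hli.finite
  have : Fintype b := Fintype.ofFinite b
  set A : Matrix b n E := Matrix.of fun i j => (i : n → E) j
  obtain ⟨B, hB⟩ : ∃ B : Matrix n b E, A * B = 1 := by
    rw [← Matrix.mulVec_surjective_iff_exists_right_inverse]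
    suffices hs : LinearMap.range A.mulVecLin = ⊤ from LinearMap.range_eq_top.mp hs
    refine Submodule.eq_top_of_finrank_eq ?_
    have h : A.rank = Fintype.card b := by
      rw [Matrix.rank_eq_finrank_span_row]
      exact finrank_span_eq_card hli
    rw [Module.finrank_pi, ← h]
    rfl
  have hσB : A.map σ * B.map σ = 1 := by
    rw [← Matrix.map_mul, hB]; exact Matrix.map_one σ (map_zero σ) (map_one σ)
  have h1 : Module.finrank E (solSpace E w) + Fintype.card b = Fintype.card n := by
    rw [show solSpace E w = LinearMap.ker A.mulVecLin from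
      (solSpace_map_eq (RingHom.id E) w hbw hspan).trans (by rw [RingHom.coe_id, Matrix.map_id])]
    exact finrank_ker_mulVecLin_of_right_inverse hB
  have h2 : Module.finrank K (solSpace K fun k i => σ (w k i)) + Fintype.card b
      = Fintype.card n := by
    rw [solSpace_map_eq σ w hbw hspan]
    exact finrank_ker_mulVecLin_of_right_inverse hσB
  omega

end LinearEquations

variable {N : ℕ} [NeZero N]

variable (N) in
/-- The matrix of the involution on the integral lattice. -/
def invMat : Matrix (Fin (parRank (Gamma0 N))) (Fin (parRank (Gamma0 N))) ℤ :=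
  Matrix.of fun j i =>
    parHom (Gamma0 N) i (Additive.ofMul (jConjGamma0 N (parElt (Gamma0 N) j)))

variable (K : Type*) [Field K] [CharZero K]

variable (N) in
/-- The involution on parabolic homomorphisms. -/
def parInv : Module.End K (parabolicHoms K (Gamma0 N) K) :=
  (charInvolution N K K).restrict fun _ h => charInvolution_mem_parabolicHoms N K K h

omit [CharZero K] [NeZero N] in
lemma coe_parInv (ψ : parabolicHoms K (Gamma0 N) K) :
    (parInv N K ψ).1 = charInvolution N K K ψ.1 := rfl

omit [CharZero K] [NeZero N] in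
lemma parInv_parInv (ψ : parabolicHoms K (Gamma0 N) K) : parInv N K (parInv N K ψ) = ψ :=
  Subtype.ext (charInvolution_charInvolution N K K ψ.1)

/-- The eigenspace of a character of the full Hecke algebra. -/
def parEigen (χ : CuspForm.heckeAlgebra N 2 ∅ →+* K) :
    Submodule K (parabolicHoms K (Gamma0 N) K) :=
  ⨅ t, LinearMap.ker (parAction N ∅ K K t - χ t • 1)

/-- The eigenspace of a character, with a sign for the involution. -/
def parSignEigen (χ : CuspForm.heckeAlgebra N 2 ∅ →+* K) (ε : ℤ) :
    Submodule K (parabolicHoms K (Gamma0 N) K) :=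
  parEigen K χ ⊓ LinearMap.ker (parInv N K - (ε : K) • 1)

variable {K}

/-- The eigenspace of a character of the Hecke algebra. -/
lemma mem_parEigen {χ : CuspForm.heckeAlgebra N 2 ∅ →+* K} {ψ : parabolicHoms K (Gamma0 N) K} :
    ψ ∈ parEigen K χ ↔ ∀ t, parAction N ∅ K K t ψ = χ t • ψ := by
  simp [parEigen, Submodule.mem_iInf, LinearMap.mem_ker, sub_eq_zero]

lemma mem_parSignEigen {χ : CuspForm.heckeAlgebra N 2 ∅ →+* K} {ε : ℤ}
    {ψ : parabolicHoms K (Gamma0 N) K} :
    ψ ∈ parSignEigen K χ ε
      ↔ (∀ t, parAction N ∅ K K t ψ = χ t • ψ) ∧ parInv N K ψ = (ε : K) • ψ := by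
  rw [parSignEigen, Submodule.mem_inf, mem_parEigen, LinearMap.mem_ker]
  simp [sub_eq_zero]

/-- The equations cutting out a signed eigenspace. -/
def eigenEquations {F : Type*} [Field F] (χ : CuspForm.heckeAlgebra N 2 ∅ → F) (ε : ℤ) :
    Option (CuspForm.heckeAlgebra N 2 ∅) × Fin (parRank (Gamma0 N)) →
      Fin (parRank (Gamma0 N)) → F
  | (none, j), i => (invMat N j i : F) - if j = i then (ε : F) else 0
  | (some t, j), i => (parMat t j i : F) - if j = i then χ t else 0

lemma finrank_parSignEigen_eq (χ : CuspForm.heckeAlgebra N 2 ∅ →+* K) (ε : ℤ) :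
    Module.finrank K (parSignEigen K χ ε)
      = Module.finrank K (solSpace K (eigenEquations (fun t => χ t) ε)) := by
  refine (LinearEquiv.ofSubmodules (parabolicCoords (Gamma0 N) K K) _ _ ?_).finrank_eq
  rw [Submodule.map_equiv_eq_comap_symm]
  ext v
  rw [Submodule.mem_comap, LinearEquiv.coe_coe, mem_parSignEigen]
  set ψ := (parabolicCoords (Gamma0 N) K K).symm v
  have hψ : ∀ i, ψ.1 (Additive.ofMul (parElt _ i)) = v i := fun i =>
    congrFun ((parabolicCoords (Gamma0 N) K K).apply_symm_apply v) i
  have e1 : ∀ t, parAction N ∅ K K t ψ = χ t • ψ ↔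
      ∀ j, eigenEquations (fun t => χ t) ε (some t, j) ⬝ᵥ v = 0 := by
    intro t
    rw [← (parabolicCoords (Gamma0 N) K K).injective.eq_iff, funext_iff]
    refine forall_congr' fun j => ?_
    change (parAction N ∅ K K t ψ).1 (Additive.ofMul (parElt _ j))
      = χ t * ψ.1 (Additive.ofMul (parElt _ j)) ↔ _
    rw [parAction_apply_parElt]
    simp [eigenEquations, dotProduct, sub_mul, Finset.sum_sub_distrib, ite_mul, hψ,
      zsmul_eq_mul, sub_eq_zero]
  have e2 : parInv N K ψ = (ε : K) • ψ ↔
      ∀ j, eigenEquations (fun t => χ t) ε (none, j) ⬝ᵥ v = 0 := by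
    rw [← (parabolicCoords (Gamma0 N) K K).injective.eq_iff, funext_iff]
    refine forall_congr' fun j => ?_
    change ψ.1 (Additive.ofMul (jConjGamma0 N (parElt _ j)))
      = (ε : K) * ψ.1 (Additive.ofMul (parElt _ j)) ↔ _
    rw [eq_sum_parHom ψ.2]
    simp [eigenEquations, invMat, dotProduct, sub_mul, Finset.sum_sub_distrib, ite_mul, hψ,
      zsmul_eq_mul, sub_eq_zero]
  rw [e2, forall_congr' e1]
  constructor
  · rintro ⟨h1, h2⟩ ⟨_ | t, j⟩
    · exact h2 j
    · exact h1 t j
  · exact fun h => ⟨fun t j => h (some t, j), fun j => h (none, j)⟩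

lemma eigenEquations_map {E F : Type*} [Field E] [Field F] (σ : E →+* F)
    (χ : CuspForm.heckeAlgebra N 2 ∅ → E) (ε : ℤ) :
    (fun k i => σ (eigenEquations χ ε k i)) = eigenEquations (fun t => σ (χ t)) ε := by
  funext k i
  rcases k with ⟨_ | t, j⟩ <;> simp [eigenEquations, apply_ite σ]

/-- Cusp forms with a given eigensystem form a line. -/
lemma finrank_formEigen (χ : CuspForm.heckeAlgebra N 2 ∅ →+* ℂ) :
    Module.finrank ℂ
      ↥(⨅ t : CuspForm.heckeAlgebra N 2 ∅, LinearMap.ker (t.1 - χ t • 1)) = 1 := by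
  obtain ⟨f, ⟨hf, heig⟩, -⟩ := MF.exists_isEigen_of_hom one_le_two χ
  have hmem : ∀ g, g ∈ (⨅ t : CuspForm.heckeAlgebra N 2 ∅, LinearMap.ker (t.1 - χ t • 1))
      ↔ ∀ t : CuspForm.heckeAlgebra N 2 ∅, t.1 g = χ t • g := fun g => by
    simp [Submodule.mem_iInf, LinearMap.mem_ker, sub_eq_zero]
  have hne : f ≠ 0 := fun h => by
    have h1 : qCoeff f 1 = 1 := hf.1
    rw [h, MF.qCoeff_zero_fun] at h1
    exact zero_ne_one h1
  refine (finrank_eq_one_iff_of_nonzero' ⟨f, (hmem f).mpr heig⟩
    fun h => hne (congrArg Subtype.val h)).mpr fun g => ⟨qCoeff (g.1 : CuspForm _ 2) 1, ?_⟩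
  have h := MF.eq_smul_of_eigen one_le_two heig ((hmem g.1).mp g.2)
  rw [show qCoeff f 1 = 1 from hf.1, one_smul] at h
  exact Subtype.ext h.symm

lemma finrank_parSignEigen_complex (χ : CuspForm.heckeAlgebra N 2 ∅ →+* ℂ) (ε : ℤ)
    (hε : ε = 1 ∨ ε = -1) : Module.finrank ℂ (parSignEigen ℂ χ ε) = 1 := by
  set e := periodEquiv N
  set inj : CuspForm (Gamma0 N) 2 →ₗ[ℂ] CuspForm (Gamma0 N) 2 × CuspForm (Gamma0 N) 2 :=
    if ε = 1 then LinearMap.inl ℂ _ _ else LinearMap.inr ℂ _ _
  set L : CuspForm (Gamma0 N) 2 →ₗ[ℂ] parabolicHoms ℂ (Gamma0 N) ℂ := e.toLinearMap ∘ₗ inj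
  have hL : Injective L := by
    refine e.injective.comp ?_
    simp only [inj]
    split
    · exact LinearMap.inl_injective
    · exact LinearMap.inr_injective
  have hinv : ∀ x, parInv N ℂ (e x) = e (x.1, -x.2) := fun x =>
    Subtype.ext (charInvolution_periodEquiv x)
  have hact : ∀ t f, parAction N ∅ ℂ ℂ t (L f) = L (t.1 f) := fun t f => by
    rw [parAction_complex]
    simp only [L, inj, LinearMap.comp_apply, LinearEquiv.coe_coe, e, endToPar_periodEquiv]
    split <;> simp
  have heq : parSignEigen ℂ χ ε = (⨅ t : CuspForm.heckeAlgebra N 2 ∅,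
      LinearMap.ker (t.1 - χ t • 1)).map L := by
    ext ψ
    rw [mem_parSignEigen, Submodule.mem_map]
    constructor
    · rintro ⟨h1, h2⟩
      obtain ⟨⟨f, g⟩, rfl⟩ := e.surjective ψ
      rw [hinv, ← map_smul, e.injective.eq_iff, Prod.smul_mk, Prod.mk.injEq] at h2
      obtain ⟨x, hx⟩ : ∃ x, L x = e (f, g) := by
        rcases hε with rfl | rfl
        · refine ⟨f, ?_⟩
          have hg : g = 0 := by
            have h := h2.2
            rw [Int.cast_one, one_smul, neg_eq_iff_add_eq_zero, ← two_smul ℂ] at h
            exact (smul_eq_zero.mp h).resolve_left two_ne_zero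
          simp [L, inj, hg]
        · refine ⟨g, ?_⟩
          have hf : f = 0 := by
            have h := h2.1
            rw [Int.cast_neg, Int.cast_one, neg_smul, one_smul, eq_neg_iff_add_eq_zero,
              ← two_smul ℂ] at h
            exact (smul_eq_zero.mp h).resolve_left two_ne_zero
          simp [L, inj, hf]
      refine ⟨x, ?_, hx⟩
      simp only [Submodule.mem_iInf, LinearMap.mem_ker, LinearMap.sub_apply, sub_eq_zero]
      intro t
      apply hL
      rw [← hact, hx, h1 t, ← hx, LinearMap.smul_apply, Module.End.one_apply, map_smul]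
    · rintro ⟨f, hf, rfl⟩
      simp only [Submodule.mem_iInf, LinearMap.mem_ker, LinearMap.sub_apply, sub_eq_zero,
        LinearMap.smul_apply, Module.End.one_apply] at hf
      refine ⟨fun t => by rw [hact, hf t, map_smul], ?_⟩
      simp only [L, LinearMap.comp_apply, LinearEquiv.coe_coe, hinv, ← map_smul]
      congr 1
      rcases hε with rfl | rfl <;> simp [inj]
  rw [heq, ← (Submodule.equivMapOfInjective L hL _).finrank_eq, finrank_formEigen]

/-- **Each signed eigenspace is a line.** -/
theorem finrank_parSignEigen (χ : CuspForm.heckeAlgebra N 2 ∅ →+* K) (ε : ℤ)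
    (hε : ε = 1 ∨ ε = -1) : Module.finrank K (parSignEigen K χ ε) = 1 := by
  set E := algebraicClosure ℚ K
  have : Module.Finite ℤ (CuspForm.heckeAlgebra N 2 ∅) := MF.moduleFinite_heckeAlgebra N 2 ∅
  have hmem : ∀ t, χ t ∈ E := fun t =>
    mem_algebraicClosure_iff'.mpr ((((IsIntegral.of_finite ℤ t).map
      χ.toIntAlgHom)).tower_top)
  set χE : CuspForm.heckeAlgebra N 2 ∅ →+* E := χ.codRestrict E hmem
  have : Algebra.IsAlgebraic ℚ E := algebraicClosure.isAlgebraic ℚ K
  set σ : E →ₐ[ℚ] ℂ := IsAlgClosed.lift
  rw [finrank_parSignEigen_eq,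
    show (eigenEquations (fun t => χ t) ε) = fun k i => E.val.toRingHom
      (eigenEquations (fun t => χE t) ε k i) from
        (eigenEquations_map E.val.toRingHom (fun t => χE t) ε).symm,
    finrank_solSpace_map E.val.toRingHom, ← finrank_solSpace_map σ.toRingHom, eigenEquations_map]
  exact (finrank_parSignEigen_eq (σ.toRingHom.comp χE) ε).symm.trans
    (finrank_parSignEigen_complex _ ε hε)

/-- **The eigenspace of a character is two dimensional.** -/
theorem finrank_parEigen (χ : CuspForm.heckeAlgebra N 2 ∅ →+* K) :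
    Module.finrank K (parEigen K χ) = 2 := by
  have : FiniteDimensional K (parabolicHoms K (Gamma0 N) K) :=
    Module.Finite.equiv (parabolicCoords (Gamma0 N) K K).symm
  have hle : ∀ ε, parSignEigen K χ ε ≤ parEigen K χ := fun ε => inf_le_left
  have hsup : parSignEigen K χ 1 ⊔ parSignEigen K χ (-1) = parEigen K χ := by
    refine le_antisymm (sup_le (hle 1) (hle (-1))) fun ψ hψ => ?_
    have hJ : parInv N K ψ ∈ parEigen K χ := mem_parEigen.mpr fun t => by
      have h := mem_parEigen.mp hψ t
      refine Subtype.ext ?_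
      rw [show (parAction N ∅ K K t (parInv N K ψ)).1
        = charInvolution N K K (parAction N ∅ K K t ψ).1 from parAction_charInvolution K K t ψ,
        h, Submodule.coe_smul, map_smul, Submodule.coe_smul, coe_parInv]
    have h1 : (2 : K)⁻¹ • (ψ + parInv N K ψ) ∈ parSignEigen K χ 1 :=
      ⟨Submodule.smul_mem _ _ (add_mem hψ hJ), by
        simp [LinearMap.mem_ker, parInv_parInv, add_comm]⟩
    have h2 : (2 : K)⁻¹ • (ψ - parInv N K ψ) ∈ parSignEigen K χ (-1) :=
      ⟨Submodule.smul_mem _ _ (sub_mem hψ hJ), by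
        simp only [SetLike.mem_coe, LinearMap.mem_ker, LinearMap.sub_apply, map_smul, map_sub,
          parInv_parInv, LinearMap.smul_apply, Module.End.one_apply, Int.cast_neg, Int.cast_one]
        module⟩
    have h := Submodule.add_mem_sup h1 h2
    rwa [← smul_add, add_add_sub_cancel, ← two_smul K, smul_smul, inv_mul_cancel₀ two_ne_zero,
      one_smul] at h
  have hinf : parSignEigen K χ 1 ⊓ parSignEigen K χ (-1) = ⊥ := by
    rw [eq_bot_iff]
    rintro ψ ⟨h1, h2⟩
    have e1 := (mem_parSignEigen.mp h1).2
    have e2 := (mem_parSignEigen.mp h2).2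
    refine (Submodule.mem_bot K).mpr (Subtype.ext (AddMonoidHom.ext fun x => ?_))
    have h := DFunLike.congr_fun (congrArg Subtype.val (e1.symm.trans e2)) x
    simp at h ⊢
    linear_combination h / 2
  have h := Submodule.finrank_sup_add_finrank_inf_eq (parSignEigen K χ 1) (parSignEigen K χ (-1))
  rw [hsup, hinf, finrank_bot, finrank_parSignEigen χ 1 (Or.inl rfl),
    finrank_parSignEigen χ (-1) (Or.inr rfl)] at h
  omega

end FermatAgent.Period
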