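import Fermat.Agent.Period.Coset
import Fermat.Agent.Period.ParabolicBound
import Fermat.Agent.Curve.Periodic
import Fermat.Prelude.Def_ModularCurve_PeriodHomPair

/-!
# Primitives of weight two cusp forms

Construction of the primitive through the cusp function, its behaviour at every cusp, and the basic
properties of the period homomorphism.
-/

set_option autoImplicit false

noncomputable section

open scoped MatrixGroups ModularForm Manifold Topology Real
open UpperHalfPlane hiding I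
open Filter Function Complex Matrix.SpecialLinearGroup
open ModularCurve ModularCurve.Period

namespace FermatAgent.Period

lemma hasDerivAt_qParam {w : ℝ} (z : ℂ) :
    HasDerivAt (Periodic.qParam w) (Periodic.qParam w z * (2 * π * I / w)) z := by
  have h : HasDerivAt (fun x : ℂ => 2 * π * I * x / w) (2 * π * I / w) z := by
    simpa using ((hasDerivAt_id z).const_mul (2 * π * I : ℂ)).div_const (w : ℂ)
  exact h.cexp

/-- A periodic holomorphic function vanishing at infinity has a primitive which is a holomorphic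
function of the local parameter, vanishing at zero. -/
lemma exists_primitive_qParam {w : ℝ} (hw : 0 < w) {f : ℍ → ℂ}
    (hper : Periodic (f ∘ ofComplex) w) (hhol : MDiff f) (hzero : IsZeroAtImInfty f) :
    ∃ G : ℂ → ℂ, DifferentiableOn ℂ G (Metric.ball 0 1) ∧ G 0 = 0 ∧
      ∀ τ : ℍ, HasDerivAt (fun z => G (Periodic.qParam w z)) (f τ) (τ : ℂ) := by
  set g := cuspFunction w f with hg
  have hbdd : IsBoundedAtImInfty f := hzero.isBoundedAtImInfty
  have hd : DifferentiableOn ℂ g (Metric.ball 0 1) :=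
    differentiableOn_cuspFunction_ball hw hper hhol hbdd
  have hg0 : g 0 = 0 := by
    rw [hg, cuspFunction_apply_zero hw (analyticAt_cuspFunction_zero hw hper hhol hbdd) hper,
      hzero.valueAtInfty_eq_zero]
  have hball : Metric.ball (0 : ℂ) 1 ∈ 𝓝 (0 : ℂ) := Metric.ball_mem_nhds _ one_pos
  obtain ⟨G0, hG0, hG0d⟩ :=
    ((Complex.differentiableOn_dslope hball).mpr hd).isExactOn_ball.with_val_at 0 0
  refine ⟨fun q => (w / (2 * π * I) : ℂ) * G0 q, ?_, by simp [hG0], fun τ => ?_⟩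
  · exact fun q hq => ((hG0d q hq).differentiableAt.const_mul _).differentiableWithinAt
  · have hq : ‖Periodic.qParam w (τ : ℂ)‖ < 1 := Periodic.norm_qParam_lt_one hw τ.im_pos
    have h1 := ((hG0d _ (by simpa using hq)).comp (τ : ℂ) (hasDerivAt_qParam (w := w) (τ : ℂ)))
    have hval : f τ = g (Periodic.qParam w (τ : ℂ)) := (eq_cuspFunction τ hw.ne' hper).symm
    have hw' : (w : ℂ) ≠ 0 := by exact_mod_cast hw.ne'
    have hpi : (2 * π * I : ℂ) ≠ 0 := Complex.two_pi_I_ne_zero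
    have key : (w / (2 * π * I) : ℂ) *
        (dslope g 0 (Periodic.qParam w (τ : ℂ)) * (Periodic.qParam w (τ : ℂ) * (2 * π * I / w)))
        = f τ := by
      rw [hval, dslope_of_ne g (Periodic.qParam_ne_zero _), slope_def_field, hg0]
      field_simp [Periodic.qParam_ne_zero]
      ring
    rw [← key]
    exact h1.const_mul _

/-- Two functions on the upper half plane with the same complex derivative differ by a constant. -/
lemma exists_sub_eq_const {F₁ F₂ f : ℍ → ℂ}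
    (h₁ : ∀ τ : ℍ, HasDerivAt (F₁ ∘ ofComplex) (f τ) (τ : ℂ))
    (h₂ : ∀ τ : ℍ, HasDerivAt (F₂ ∘ ofComplex) (f τ) (τ : ℂ)) :
    ∃ c : ℂ, ∀ τ : ℍ, F₁ τ - F₂ τ = c := by
  have hd : ∀ τ : ℍ, HasDerivAt ((F₁ ∘ ofComplex) - (F₂ ∘ ofComplex)) 0 (τ : ℂ) := fun τ => by
    simpa using (h₁ τ).sub (h₂ τ)
  obtain ⟨c, hc⟩ := isOpen_upperHalfPlaneSet.exists_is_const_of_deriv_eq_zero
    (Convex.isPreconnected (convex_halfSpace_im_gt 0))
    (f := (F₁ ∘ ofComplex) - (F₂ ∘ ofComplex))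
    (fun z hz => (hd ⟨z, hz⟩).differentiableAt.differentiableWithinAt)
    (fun z hz => (hd ⟨z, hz⟩).deriv)
  refine ⟨c, fun τ => ?_⟩
  simpa using hc (τ : ℂ) τ.im_pos

/-- The derivative of a translated primitive is the weight two slash. -/
lemma hasDerivAt_comp_smul {F f : ℍ → ℂ} (δ : SL(2, ℤ))
    (hF : ∀ τ : ℍ, HasDerivAt (F ∘ ofComplex) (f τ) (τ : ℂ)) (τ : ℍ) :
    HasDerivAt ((fun z : ℍ => F (δ • z)) ∘ ofComplex) ((f ∣[(2 : ℤ)] δ) τ) (τ : ℂ) := by
  set g : GL (Fin 2) ℝ := (δ : GL (Fin 2) ℝ)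
  have hdet : (g.val.det : ℝ) = 1 := by
    have h := δ.det_coe
    rw [Matrix.det_fin_two] at h
    simp [g, Matrix.det_fin_two]
    exact_mod_cast h
  have hg : (0 : ℝ) < g.val.det := by rw [hdet]; exact one_pos
  have h1 : HasDerivAt (fun z => ((g • ofComplex z : ℍ) : ℂ)) (g.val.det / denom g τ ^ 2) τ :=
    (hasStrictDerivAt_smul hg τ).hasDerivAt
  have h2 := (hF (g • τ)).comp_of_eq (τ : ℂ) h1 (by simp)
  have h3 : HasDerivAt ((fun z : ℍ => F (δ • z)) ∘ ofComplex)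
      (f (g • τ) * (g.val.det / denom g τ ^ 2)) (τ : ℂ) := by
    refine h2.congr_of_eventuallyEq (Filter.Eventually.of_forall fun z => ?_)
    simp [g, ModularGroup.sl_moeb]
  rw [ModularForm.SL_slash_apply]
  convert h3 using 1
  rw [hdet, ModularGroup.sl_moeb, zpow_neg]
  push_cast
  rw [one_div]
  rfl

variable {Γ : Subgroup SL(2, ℤ)} [Γ.FiniteIndex]

variable (Γ) in
/-- A common period at all cusps. -/
def cuspPeriod : ℕ := (exists_pos_T_pow_smul_eq (Γ := Γ)).choose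

/-- The period is positive. -/
lemma cuspPeriod_pos : 0 < cuspPeriod Γ := (exists_pos_T_pow_smul_eq (Γ := Γ)).choose_spec.1

/-- `T` to the period fixes all cosets. -/
lemma T_pow_cuspPeriod_smul (x : Cosets Γ) : (ModularGroup.T : SL(2, ℤ)) ^ cuspPeriod Γ • x = x :=
  (exists_pos_T_pow_smul_eq (Γ := Γ)).choose_spec.2 x

lemma conj_T_pow_cuspPeriod_mem (δ : SL(2, ℤ)) :
    δ * (ModularGroup.T : SL(2, ℤ)) ^ cuspPeriod Γ * δ⁻¹ ∈ Γ := by
  have h := (QuotientGroup.eq (s := Γ)).mp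
    (T_pow_cuspPeriod_smul (Γ := Γ) (QuotientGroup.mk δ⁻¹)).symm
  simpa [mul_assoc] using h

variable {k : ℤ} {F : Type*} [FunLike F ℍ ℂ]

lemma slash_periodic [SlashInvariantFormClass F Γ k] (f : F) (δ : SL(2, ℤ)) :
    Periodic (((f : ℍ → ℂ) ∣[k] δ) ∘ ofComplex) ((cuspPeriod Γ : ℝ) : ℂ) := by
  have key : ((f : ℍ → ℂ) ∣[k] δ) ∣[k] ((ModularGroup.T : SL(2, ℤ)) ^ cuspPeriod Γ)
      = (f : ℍ → ℂ) ∣[k] δ := by
    rw [← SlashAction.slash_mul,
      show δ * ModularGroup.T ^ cuspPeriod Γ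
        = (δ * ModularGroup.T ^ cuspPeriod Γ * δ⁻¹) * δ by group,
      SlashAction.slash_mul]
    congr 1
    rw [ModularForm.SL_slash]
    exact SlashInvariantFormClass.slash_action_eq f _
        (Subgroup.mem_map_of_mem _ (conj_T_pow_cuspPeriod_mem δ))
  refine Curve.periodic_comp_ofComplex_of_vadd fun τ => ?_
  have h := congrFun key τ
  rw [ModularForm.SL_slash_apply, ← zpow_natCast, UpperHalfPlane.modular_T_zpow_smul,
    ModularGroup.denom_apply, ModularGroup.coe_T_zpow] at h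
  simpa using h

/-- Translates of infinity are cusps. -/
lemma isCusp_SL_smul_infty (δ : SL(2, ℤ)) :
    IsCusp ((δ : GL (Fin 2) ℝ) • OnePoint.infty) (Γ : Subgroup (GL (Fin 2) ℝ)) := by
  rw [Subgroup.IsArithmetic.isCusp_iff_isCusp_SL2Z, isCusp_SL2Z_iff']
  exact ⟨δ, rfl⟩

/-- The data of a primitive of a weight two cusp form at every cusp. -/
theorem exists_primitive (f : CuspForm Γ 2) :
    ∃ P : ℍ → ℂ, (∀ τ : ℍ, HasDerivAt (P ∘ ofComplex) (f τ) (τ : ℂ)) ∧
      Tendsto P atImInfty (𝓝 0) ∧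
      ∀ δ : SL(2, ℤ), ∃ (L : ℂ) (G : ℂ → ℂ), DifferentiableOn ℂ G (Metric.ball 0 1) ∧ G 0 = 0 ∧
        ∀ τ : ℍ, P (δ • τ) = G (Periodic.qParam (cuspPeriod Γ) τ) + L := by
  have hw : (0 : ℝ) < cuspPeriod Γ := by exact_mod_cast cuspPeriod_pos
  have hG := fun δ : SL(2, ℤ) => exists_primitive_qParam hw (slash_periodic f δ)
    ((CuspFormClass.holo f).slash 2 (δ : GL (Fin 2) ℝ)) (CuspFormClass.zero_at_infty_slash f δ)
  choose G hGd hG0 hG' using hG
  set P : ℍ → ℂ := fun τ => G 1 (Periodic.qParam (cuspPeriod Γ) τ)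
  have hPderiv : ∀ τ : ℍ, HasDerivAt (P ∘ ofComplex) (f τ) (τ : ℂ) := by
    intro τ
    have h := hG' 1 τ
    rw [SlashAction.slash_one] at h
    refine h.congr_of_eventuallyEq ?_
    filter_upwards [eventuallyEq_coe_comp_ofComplex τ.im_pos] with z hz
    simp only [comp_apply] at hz
    simp [P, hz]
  have hlim : Tendsto P atImInfty (𝓝 0) := by
    have hc : ContinuousAt (G 1) 0 :=
      ((hGd 1).differentiableAt (Metric.ball_mem_nhds _ one_pos)).continuousAt
    have h : Tendsto (G 1) (𝓝 0) (𝓝 0) := by simpa [hG0] using hc.tendsto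
    exact h.comp (qParam_tendsto_atImInfty hw)
  refine ⟨P, hPderiv, hlim, fun δ => ?_⟩
  have h2 : ∀ τ : ℍ, HasDerivAt
      ((fun z : ℍ => G δ (Periodic.qParam (cuspPeriod Γ) z)) ∘ ofComplex)
      (((f : ℍ → ℂ) ∣[(2 : ℤ)] δ) τ) (τ : ℂ) := by
    intro τ
    refine (hG' δ τ).congr_of_eventuallyEq ?_
    filter_upwards [eventuallyEq_coe_comp_ofComplex τ.im_pos] with z hz
    simp only [comp_apply] at hz
    simp [hz]
  obtain ⟨L, hL⟩ := exists_sub_eq_const (hasDerivAt_comp_smul δ hPderiv) h2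
  exact ⟨L, G δ, hGd δ, hG0 δ, fun τ => by linear_combination hL τ⟩

omit [Γ.FiniteIndex] in
/-- A form is invariant under its group. -/
lemma slash_eq_self (f : CuspForm Γ k) (γ : Γ) :
    (f : ℍ → ℂ) ∣[k] (γ : SL(2, ℤ)) = f := by
  rw [ModularForm.SL_slash]
  exact SlashInvariantFormClass.slash_action_eq f _ (Subgroup.mem_map_of_mem _ γ.2)

omit [Γ.FiniteIndex] in
/-- Any primitive of a weight two form is equivariant. -/
theorem isEquivariantPrimitive_of_hasDerivAt (f : CuspForm Γ 2) {P : ℍ → ℂ}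
    (hP : ∀ τ : ℍ, HasDerivAt (P ∘ ofComplex) (f τ) (τ : ℂ)) :
    IsEquivariantPrimitive Γ P := by
  intro γ
  obtain ⟨c, hc⟩ := exists_sub_eq_const (fun τ => hasDerivAt_comp_smul (γ : SL(2, ℤ)) hP τ)
    (fun τ => by rw [slash_eq_self f γ]; exact hP τ)
  exact ⟨c, hc⟩

omit [Γ.FiniteIndex] in
/-- A parabolic element of `SL(2, ℤ)` acts as a translation in suitable coordinates. -/
lemma exists_smul_eq_T_zpow_smul (M : SL(2, ℤ))
    (h : (M : Matrix (Fin 2) (Fin 2) ℤ).trace ^ 2 = 4) :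
    ∃ (δ : SL(2, ℤ)) (n : ℤ),
      ∀ z : ℍ, M • δ • z = δ • (ModularGroup.T : SL(2, ℤ)) ^ n • z := by
  suffices h' : ∀ M : SL(2, ℤ), (M : Matrix (Fin 2) (Fin 2) ℤ).trace = 2 →
      ∃ δ : SL(2, ℤ), (δ⁻¹ * M * δ) 1 0 = 0 by
    have h2 : (M : Matrix (Fin 2) (Fin 2) ℤ).trace = 2
        ∨ (M : Matrix (Fin 2) (Fin 2) ℤ).trace = -2 := by
      have := eq_or_eq_neg_of_sq_eq_sq _ (2 : ℤ) (h.trans (by norm_num))
      exact this
    have key : ∀ M : SL(2, ℤ), (∃ δ : SL(2, ℤ), (δ⁻¹ * M * δ) 1 0 = 0) → ∃ (δ : SL(2, ℤ)) (n : ℤ),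
        ∀ z : ℍ, M • δ • z = δ • (ModularGroup.T : SL(2, ℤ)) ^ n • z := by
      rintro M ⟨δ, hδ⟩
      obtain ⟨n, hn⟩ := ModularGroup.exists_eq_T_zpow_of_c_eq_zero hδ
      refine ⟨δ, n, fun z => ?_⟩
      rw [← hn z, mul_smul, mul_smul, smul_inv_smul]
    rcases h2 with h2 | h2
    · exact key M (h' M h2)
    · have htr' : ((-M : SL(2, ℤ)) : Matrix (Fin 2) (Fin 2) ℤ).trace = 2 := by
        rw [Matrix.SpecialLinearGroup.coe_neg, Matrix.trace_neg, h2]; norm_num
      obtain ⟨δ, n, hn⟩ := key (-M) (h' (-M) htr')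
      exact ⟨δ, n, fun z => by rw [← hn z, ModularGroup.SL_neg_smul]⟩
  intro M hM
  have hdet := M.det_coe
  rw [Matrix.trace_fin_two] at hM
  rw [Matrix.det_fin_two] at hdet
  by_cases hc : M 1 0 = 0
  · exact ⟨1, by simp [hc]⟩
  set u := M 0 0 - 1 with hu
  set v := M 1 0 with hv
  obtain ⟨g, hg⟩ : ∃ g : ℤ, g = Int.gcd u v := ⟨_, rfl⟩
  have hg0 : g ≠ 0 := by
    rw [hg]
    exact_mod_cast fun h0 => hc (Int.gcd_eq_zero_iff.mp h0).2
  obtain ⟨p, hp⟩ : g ∣ u := hg ▸ Int.gcd_dvd_left u v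
  obtain ⟨q, hq⟩ : g ∣ v := hg ▸ Int.gcd_dvd_right u v
  set s := Int.gcdA u v
  set t := Int.gcdB u v
  have hbez : p * s + q * t = 1 := by
    have h1 : (Int.gcd u v : ℤ) = u * s + v * t := Int.gcd_eq_gcd_ab u v
    rw [← hg] at h1
    apply mul_left_cancel₀ hg0
    linear_combination -h1 - s * hp - t * hq
  let δ : SL(2, ℤ) := ⟨!![p, -t; q, s], by rw [Matrix.det_fin_two_of]; linear_combination hbez⟩
  refine ⟨δ, ?_⟩
  have e1 : M 0 0 * p + M 0 1 * q = p := by
    apply mul_left_cancel₀ hg0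
    linear_combination -(M 0 0) * hp - (M 0 1) * hq + hp - hdet + (M 0 0) * hM
  have e2 : M 1 0 * p + M 1 1 * q = q := by
    apply mul_left_cancel₀ hg0
    linear_combination -(M 1 0) * hp - (M 1 1) * hq + hq + (M 1 0) * hM
  change ((δ⁻¹ * M * δ : SL(2, ℤ)) : Matrix (Fin 2) (Fin 2) ℤ) 1 0 = 0
  rw [Matrix.SpecialLinearGroup.coe_mul, Matrix.SpecialLinearGroup.coe_mul,
    Matrix.SpecialLinearGroup.coe_inv]
  simp [δ, Matrix.adjugate_fin_two_of, Matrix.mul_apply, Matrix.vecMul, dotProduct,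
    Fin.sum_univ_two]
  linear_combination (-q) * e1 + p * e2

omit [Γ.FiniteIndex] in
/-- The periods of a primitive with a limit at every cusp are parabolic. -/
theorem isParabolicHom_periodHom {P : ℍ → ℂ} (hP : IsEquivariantPrimitive Γ P)
    (hlim : ∀ δ : SL(2, ℤ), ∃ L : ℂ, Tendsto (fun w : ℍ => P (δ • w)) atImInfty (𝓝 L)) :
    IsParabolicHom Γ hP.periodHom := by
  intro γ htr
  have hnb : NeBot atImInfty := inferInstance
  obtain ⟨δ, n, hδ⟩ := exists_smul_eq_T_zpow_smul ((γ : Γ) : SL(2, ℤ)) htr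
  obtain ⟨L, hL⟩ := hlim δ
  have key : ∀ w : ℍ, P (δ • (ModularGroup.T : SL(2, ℤ)) ^ n • w) - P (δ • w) = hP.period γ := by
    intro w
    rw [← hP.sub_eq_period γ (δ • w), hδ w]
  have hshift : Tendsto (fun w : ℍ => (ModularGroup.T : SL(2, ℤ)) ^ n • w) atImInfty atImInfty := by
    refine tendsto_comap_iff.mpr ?_
    exact (tendsto_comap (f := UpperHalfPlane.im)).congr fun w =>
      (ModularGroup.im_T_zpow_smul w n).symm
  have h := ((hL.comp hshift).sub hL)
  rw [sub_self] at h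
  rw [IsEquivariantPrimitive.periodHom_apply]
  exact tendsto_nhds_unique (tendsto_const_nhds (x := hP.period γ) (f := atImInfty))
    (h.congr key)

end FermatAgent.Period
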