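import Fermat.Agent.Period.LevelOne

/-!
# `E₄³ / Δ` separates `SL(2, ℤ)`-orbits
-/

set_option autoImplicit false

noncomputable section

open scoped MatrixGroups ModularForm Manifold Topology Real Modular
open UpperHalfPlane hiding I
open Filter Function Complex Matrix.SpecialLinearGroup

namespace FermatAgent.Period

/-- `SL(2, ℤ)`-equivalence of points. -/
def SLEquiv (a b : ℍ) : Prop := ∃ γ : SL(2, ℤ), γ • a = b

lemma SLEquiv.smul_iff {a b : ℍ} (g h : SL(2, ℤ)) : SLEquiv (g • a) (h • b) ↔ SLEquiv a b := by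
  constructor
  · rintro ⟨γ, hγ⟩
    exact ⟨h⁻¹ * γ * g, by rw [mul_smul, mul_smul, hγ, inv_smul_smul]⟩
  · rintro ⟨γ, rfl⟩
    exact ⟨h * γ * g⁻¹, by rw [mul_smul, mul_smul, inv_smul_smul]⟩

/-- Inequivalence is stable under small perturbations. -/
lemma eventually_not_slEquiv {a b : ℍ} (hab : ¬ SLEquiv a b) :
    ∀ᶠ p : ℍ × ℍ in 𝓝 (a, b), ¬ SLEquiv p.1 p.2 := by
  obtain ⟨Ka, hKa, hKan⟩ := exists_compact_mem_nhds a
  obtain ⟨Kb, hKb, hKbn⟩ := exists_compact_mem_nhds b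
  have hfin : Set.Finite {g : 𝒮ℒ | ((g • ·) '' Ka ∩ Kb).Nonempty} :=
    ProperlyDiscontinuousSMul.finite_disjoint_inter_image hKa hKb
  have hsep : ∀ g ∈ {g : 𝒮ℒ | ((g • ·) '' Ka ∩ Kb).Nonempty},
      ∀ᶠ p : ℍ × ℍ in 𝓝 (a, b), (g : GL (Fin 2) ℝ) • p.1 ≠ p.2 := by
    rintro ⟨g, γ, rfl⟩ -
    have hc : ContinuousAt (fun p : ℍ × ℍ => ((mapGL ℝ γ : GL (Fin 2) ℝ) • p.1, p.2)) (a, b) :=
      (((continuous_const_smul (mapGL ℝ γ : GL (Fin 2) ℝ)).comp continuous_fst).prodMk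
        continuous_snd).continuousAt
    exact hc.eventually ((isOpen_ne_fun continuous_fst continuous_snd).mem_nhds
      fun h => hab ⟨γ, h⟩)
  filter_upwards [(eventually_all_finite hfin).mpr hsep, prod_mem_nhds hKan hKbn] with p hp hK
  rintro ⟨γ, hγ⟩
  exact hp ⟨mapGL ℝ γ, γ, rfl⟩ ⟨p.2, ⟨p.1, hK.1, hγ⟩, hK.2⟩ hγ

lemma jfun_open {s : Set ℍ} (hs : IsOpen s) : IsOpen (jfun '' s) := by
  have han : AnalyticOnNhd ℂ (jfun ∘ ofComplex) upperHalfPlaneSet :=
    (UpperHalfPlane.mdifferentiable_iff.mp jfun_mdiff).analyticOnNhd isOpen_upperHalfPlaneSet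
  rcases han.is_constant_or_isOpen (Convex.isPreconnected (convex_halfSpace_im_gt 0)) with
    ⟨w, hw⟩ | h
  · exfalso
    have h := jfun_norm_tendsto
    have hconst : ∀ τ : ℍ, jfun τ = w := fun τ => by simpa using hw (τ : ℂ) τ.im_pos
    simp only [hconst] at h
    exact not_tendsto_const_atTop ‖w‖ atImInfty h
  · have h2 := h ((↑) '' s) (by rintro _ ⟨τ, -, rfl⟩; exact τ.im_pos)
      (isOpenEmbedding_coe.isOpenMap _ hs)
    simpa [Set.image_image] using h2

lemma jfun_continuous : Continuous jfun := jfun_mdiff.continuous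

/-- Local injectivity away from the elliptic values. -/
lemma jfun_injOn_nhds {b : ℍ} (h4 : e4 b ≠ 0) (h6 : e6 b ≠ 0) :
    ∀ᶠ p : ℍ × ℍ in 𝓝 (b, b), jfun p.1 = jfun p.2 → p.1 = p.2 := by
  have han : AnalyticAt ℂ (jfun ∘ ofComplex) (b : ℂ) :=
    (UpperHalfPlane.mdifferentiable_iff.mp jfun_mdiff).analyticAt
      (isOpen_upperHalfPlaneSet.mem_nhds b.im_pos)
  have hd := han.hasStrictDerivAt
  have hne := deriv_jfun_ne_zero h4 h6
  have hinv := (hd.hasStrictFDerivAt_equiv hne).eventually_left_inverse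
  have h2 : ∀ᶠ τ : ℍ in 𝓝 b, (hd.localInverse (jfun ∘ ofComplex) _ _ hne) (jfun τ) = (τ : ℂ) := by
    have := (isOpenEmbedding_coe.continuous.tendsto b).eventually hinv
    filter_upwards [this] with τ hτ
    simpa [HasStrictDerivAt.localInverse] using hτ
  filter_upwards [h2.prod_nhds h2] with p hp heq
  apply UpperHalfPlane.ext
  rw [← hp.1, heq, hp.2]

/-- Near the cusp the value of `jfun` determines the point up to translation. -/
lemma exists_bound_slEquiv :
    ∃ Y : ℝ, ∀ a b : ℍ, Y ≤ a.im → Y ≤ b.im → jfun a = jfun b → SLEquiv a b := by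
  set g : ℂ → ℂ := cuspFunction 1 dsc
  set u : ℂ → ℂ := cuspFunction 1 e4
  have hper : Periodic (dsc ∘ ofComplex) ((1 : ℝ) : ℂ) :=
    SlashInvariantFormClass.periodic_comp_ofComplex CuspForm.discriminant one_mem_strictPeriods_SL
  have hg : AnalyticAt ℂ g 0 :=
    ModularFormClass.analyticAt_cuspFunction_zero CuspForm.discriminant one_pos
      one_mem_strictPeriods_SL
  have hu : AnalyticAt ℂ u 0 :=
    ModularFormClass.analyticAt_cuspFunction_zero (ModularForm.E₄ : ModularForm 𝒮ℒ 4) one_pos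
      one_mem_strictPeriods_SL
  have hper4 : Periodic (e4 ∘ ofComplex) ((1 : ℝ) : ℂ) :=
    levelOne_periodic (ModularForm.E₄ : ModularForm 𝒮ℒ 4)
  have hu0 : u 0 = 1 := by
    rw [show u 0 = cuspFunction 1 e4 0 from rfl,
      cuspFunction_apply_zero one_pos hu hper4, ← qExpansion_coeff_zero one_pos hu hper4]
    exact EisensteinSeries.E_qExpansion_coeff_zero _ ⟨2, rfl⟩
  have hg0 : g 0 = 0 := by
    rw [show g = cuspFunction 1 dsc from rfl, cuspFunction_apply_zero one_pos hg hper]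
    exact UpperHalfPlane.IsZeroAtImInfty.valueAtInfty_eq_zero dsc_tendsto
  have hg1 : deriv g 0 = 1 := by
    have h := ModularForm.discriminant_qExpansion_coeff_one
    rw [qExpansion_coeff, iteratedDeriv_one] at h
    simpa using! h
  set H : ℂ → ℂ := fun q => g q / u q ^ 3
  have hH : AnalyticAt ℂ H 0 := hg.div (hu.pow 3) (by simp [hu0])
  have hH1 : deriv H 0 = 1 := by
    have h := hg.differentiableAt.hasDerivAt.fun_div (hu.differentiableAt.hasDerivAt.fun_pow 3)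
      (by simp [hu0] : u 0 ^ 3 ≠ 0)
    rw [h.deriv, hg0, hu0, hg1]
    simp
  have hd := hH.hasStrictDerivAt
  have hne : deriv H 0 ≠ 0 := by rw [hH1]; exact one_ne_zero
  have hinv := (hd.hasStrictFDerivAt_equiv hne).eventually_left_inverse
  have hev : ∀ᶠ τ : ℍ in atImInfty,
      (hd.localInverse H _ _ hne) (H (Periodic.qParam 1 (τ : ℂ))) = Periodic.qParam 1 (τ : ℂ) :=
    (qParam_tendsto_atImInfty one_pos).eventually hinv
  obtain ⟨Y, -, hY⟩ := atImInfty_basis.eventually_iff.mp hev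
  refine ⟨Y, fun a b ha hb hab => ?_⟩
  have hval : ∀ τ : ℍ, H (Periodic.qParam 1 (τ : ℂ)) = (jfun τ)⁻¹ := fun τ => by
    simp only [H, g, u, jfun, inv_div]
    rw [eq_cuspFunction τ one_ne_zero hper,
      eq_cuspFunction τ one_ne_zero hper4]
  have hq : Periodic.qParam 1 (a : ℂ) = Periodic.qParam 1 (b : ℂ) := by
    rw [← hY ha, ← hY hb, hval, hval, hab]
  obtain ⟨m, hm⟩ := Periodic.qParam_left_inv_mod_period (h := 1) one_ne_zero (a : ℂ)
  obtain ⟨n, hn⟩ := Periodic.qParam_left_inv_mod_period (h := 1) one_ne_zero (b : ℂ)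
  rw [hq, hn] at hm
  refine ⟨ModularGroup.T ^ (m - n), ?_⟩
  apply UpperHalfPlane.ext
  rw [ModularGroup.coe_T_zpow_smul_eq]
  push_cast
  push_cast at hm
  linear_combination -hm

lemma exists_bound_im_of_norm_jfun_le (M : ℝ) : ∃ Y : ℝ, ∀ a : ℍ, ‖jfun a‖ ≤ M → a.im < Y := by
  obtain ⟨Y, -, hY⟩ :=
    atImInfty_basis.eventually_iff.mp (jfun_norm_tendsto.eventually (eventually_gt_atTop M))
  exact ⟨Y, fun a ha => not_le.mp fun h => not_lt.mpr ha (hY h)⟩

lemma exists_bound_norm_jfun_of_im_le (Y : ℝ) :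
    ∃ M : ℝ, ∀ a : ℍ, a ∈ 𝒟 → a.im ≤ Y → ‖jfun a‖ ≤ M := by
  obtain ⟨M, hM⟩ :=
    (ModularGroup.isCompact_truncatedFundamentalDomain Y).exists_bound_of_continuousOn
    jfun_continuous.continuousOn
  exact ⟨M, fun a ha hY => hM a ⟨ha, hY⟩⟩

/-- The set of non-elliptic values. -/
def regularValues : Set ℂ := ({0, 1728} : Set ℂ)ᶜ

/-- The values attained at two inequivalent points. -/
def doubleValues : Set ℂ := {c | ∃ a b, jfun a = c ∧ jfun b = c ∧ ¬ SLEquiv a b}

lemma isOpen_doubleValues : IsOpen doubleValues := by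
  rw [isOpen_iff_mem_nhds]
  rintro _ ⟨a, b, rfl, hb, hab⟩
  obtain ⟨A, hA, B, hB, hAB⟩ := mem_nhds_prod_iff.mp (eventually_not_slEquiv hab)
  obtain ⟨A', hA'A, hA', haA'⟩ := mem_nhds_iff.mp hA
  obtain ⟨B', hB'B, hB', hbB'⟩ := mem_nhds_iff.mp hB
  refine mem_of_superset (inter_mem ((jfun_open hA').mem_nhds ⟨a, haA', rfl⟩)
    ((jfun_open hB').mem_nhds ⟨b, hbB', hb⟩)) ?_
  rintro _ ⟨⟨x, hx, rfl⟩, ⟨y, hy, hyx⟩⟩
  exact ⟨x, y, rfl, hyx, hAB (Set.mk_mem_prod (hA'A hx) (hB'B hy))⟩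

lemma doubleValues_normalised {c : ℂ} (h : c ∈ doubleValues) :
    ∃ a b, a ∈ 𝒟 ∧ b ∈ 𝒟 ∧ jfun a = c ∧ jfun b = c ∧ ¬ SLEquiv a b := by
  obtain ⟨a, b, ha, hb, hab⟩ := h
  obtain ⟨g, hg⟩ := ModularGroup.exists_smul_mem_fd a
  obtain ⟨g', hg'⟩ := ModularGroup.exists_smul_mem_fd b
  exact ⟨g • a, g' • b, hg, hg', by rw [jfun_smul, ha], by rw [jfun_smul, hb],
    fun h => hab ((SLEquiv.smul_iff g g').mp h)⟩

lemma closure_doubleValues_inter :
    closure doubleValues ∩ regularValues ⊆ doubleValues := by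
  rintro c ⟨hc, hcV⟩
  obtain ⟨cs, hcs, hlim⟩ := mem_closure_iff_seq_limit.mp hc
  choose A B hA hB hAc hBc hAB using fun n => doubleValues_normalised (hcs n)
  obtain ⟨M, hM⟩ := hlim.norm.bddAbove_range
  obtain ⟨Y, hY⟩ := exists_bound_im_of_norm_jfun_le M
  have hK := (ModularGroup.isCompact_truncatedFundamentalDomain Y).prod
    (ModularGroup.isCompact_truncatedFundamentalDomain Y)
  have hmem : ∀ n, (A n, B n) ∈ ModularGroup.truncatedFundamentalDomain Y
      ×ˢ ModularGroup.truncatedFundamentalDomain Y := fun n =>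
    ⟨⟨hA n, (hY _ (by rw [hAc]; exact hM ⟨n, rfl⟩)).le⟩,
      ⟨hB n, (hY _ (by rw [hBc]; exact hM ⟨n, rfl⟩)).le⟩⟩
  obtain ⟨⟨a, b⟩, -, φ, hφ, hab⟩ := hK.tendsto_subseq hmem
  have ha : Tendsto (fun n => A (φ n)) atTop (𝓝 a) := (continuous_fst.tendsto _).comp hab
  have hb : Tendsto (fun n => B (φ n)) atTop (𝓝 b) := (continuous_snd.tendsto _).comp hab
  have hja : jfun a = c := tendsto_nhds_unique ((jfun_continuous.tendsto a).comp ha)
    ((hlim.comp hφ.tendsto_atTop).congr fun n => (hAc (φ n)).symm)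
  have hjb : jfun b = c := tendsto_nhds_unique ((jfun_continuous.tendsto b).comp hb)
    ((hlim.comp hφ.tendsto_atTop).congr fun n => (hBc (φ n)).symm)
  refine ⟨a, b, hja, hjb, ?_⟩
  rintro ⟨γ, hγ⟩
  simp only [regularValues, Set.mem_compl_iff, Set.mem_insert_iff, Set.mem_singleton_iff,
    not_or] at hcV
  have h4 : e4 b ≠ 0 := fun h => hcV.1 (hjb ▸ (jfun_eq_zero_iff b).mpr h)
  have h6 : e6 b ≠ 0 := fun h => hcV.2 (hjb ▸ (jfun_eq_1728_iff b).mpr h)
  have hga : Tendsto (fun n => γ • A (φ n)) atTop (𝓝 b) := by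
    rw [← hγ]
    exact ((continuous_const_smul (mapGL ℝ γ : GL (Fin 2) ℝ)).tendsto a).comp ha
  obtain ⟨n, hn⟩ := ((hga.prodMk_nhds hb).eventually (jfun_injOn_nhds h4 h6)).exists
  exact hAB (φ n) ⟨γ, hn (by rw [jfun_smul, hAc, hBc])⟩

lemma not_doubleValues_regular {c : ℂ} (hc : c ∈ regularValues) : c ∉ doubleValues := by
  intro hd
  have hconn : IsPreconnected regularValues :=
    (Set.Countable.isPathConnected_compl_of_one_lt_rank
      (by rw [Complex.rank_real_complex]; exact Nat.one_lt_ofNat)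
      (Set.toFinite _).countable).isConnected.isPreconnected
  have hsub := hconn.subset_of_closure_inter_subset isOpen_doubleValues ⟨c, hc, hd⟩
    closure_doubleValues_inter
  obtain ⟨Y, hY⟩ := exists_bound_slEquiv
  obtain ⟨M, hM⟩ := exists_bound_norm_jfun_of_im_le Y
  have hbig : ((max M 1728 + 1 : ℝ) : ℂ) ∈ regularValues := by
    simp only [regularValues, Set.mem_compl_iff, Set.mem_insert_iff, Set.mem_singleton_iff, not_or]
    constructor <;> intro h <;> have h' := congrArg Complex.re h <;> simp at h' <;>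
      linarith [le_max_right M 1728]
  obtain ⟨a, b, ha, hb, hja, hjb, hab⟩ := doubleValues_normalised (hsub hbig)
  have key : ∀ x : ℍ, x ∈ 𝒟 → jfun x = ((max M 1728 + 1 : ℝ) : ℂ) → Y ≤ x.im := by
    intro x hx hjx
    by_contra hlt
    have := hM x hx (not_le.mp hlt).le
    rw [hjx, Complex.norm_real, Real.norm_eq_abs, abs_of_nonneg
      (by linarith [le_max_right M 1728])] at this
    linarith [le_max_left M 1728]
  exact hab (hY a b (key a ha hja) (key b hb hjb) (hja.trans hjb.symm))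

/-- **`jfun` separates orbits.** -/
theorem slEquiv_of_jfun_eq {a b : ℍ} (h : jfun a = jfun b) : SLEquiv a b := by
  by_contra hab
  have hd : jfun a ∈ doubleValues := ⟨a, b, rfl, h.symm, hab⟩
  have hdense : Dense regularValues :=
    (Set.toFinite ({0, 1728} : Set ℂ)).countable.dense_compl ℂ
  obtain ⟨c, hc, hc'⟩ := hdense.exists_mem_open isOpen_doubleValues ⟨_, hd⟩
  exact not_doubleValues_regular hc hc'

/-- A zero of `E₄` is equivalent to `ρ`. -/
lemma slEquiv_rho_of_e4_eq_zero {τ : ℍ} (h : e4 τ = 0) : SLEquiv ρ τ :=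
  slEquiv_of_jfun_eq (by rw [(jfun_eq_zero_iff _).mpr h, (jfun_eq_zero_iff _).mpr e4_rho])

/-- A zero of `E₆` is equivalent to `i`. -/
lemma slEquiv_I_of_e6_eq_zero {τ : ℍ} (h : e6 τ = 0) : SLEquiv UpperHalfPlane.I τ :=
  slEquiv_of_jfun_eq (by rw [(jfun_eq_1728_iff _).mpr h, (jfun_eq_1728_iff _).mpr e6_I])

end FermatAgent.Period
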