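import Mathlib

/-!
# The permutation representation of `SL(2, ℤ)` on the cosets of a finite-index subgroup

For `Γ ≤ SL(2, ℤ)` the space `SL(2, ℤ) ⧸ Γ` carries the left translation action. This file
provides the basic numerical invariants (number of cosets, numbers of fixed points of the elliptic
generators, number of orbits of `T`) and the dimensions of the eigenspaces of the elliptic
generators on the permutation representation.
-/

set_option autoImplicit false

noncomputable section

open scoped MatrixGroups
open ModularGroup MulAction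

namespace FermatAgent.Period

/-- The elliptic element `S * T` of order three (modulo `±1`). -/
def ellThree : SL(2, ℤ) := S * T

/-- The entries of the elliptic element of order three. -/
lemma coe_ellThree : ((ellThree : SL(2, ℤ)) : Matrix (Fin 2) (Fin 2) ℤ) = !![0, -1; 1, 1] := by
  rw [ellThree, Matrix.SpecialLinearGroup.coe_mul, coe_S, coe_T]
  simp

/-- The cube of the elliptic element is `-1`. -/
lemma ellThree_sq_mul : ellThree * ellThree * ellThree = -1 := by
  apply Subtype.ext
  simp [Matrix.SpecialLinearGroup.coe_mul, coe_ellThree, Matrix.one_fin_two]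

/-- `S² = -1`. -/
lemma S_mul_self : (S : SL(2, ℤ)) * S = -1 := by
  apply Subtype.ext
  simp [Matrix.SpecialLinearGroup.coe_mul, coe_S, Matrix.one_fin_two]

/-- `S` and the elliptic element generate `SL(2, ℤ)`. -/
lemma closure_S_ellThree : Subgroup.closure ({S, ellThree} : Set SL(2, ℤ)) = ⊤ := by
  rw [eq_top_iff, ← SpecialLinearGroup.SL2Z_generators, Subgroup.closure_le]
  rintro x (rfl | rfl)
  · exact Subgroup.subset_closure (by simp)
  · have hT : (T : SL(2, ℤ)) = S⁻¹ * ellThree := by rw [ellThree, inv_mul_cancel_left]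
    rw [hT]
    exact mul_mem (inv_mem (Subgroup.subset_closure (by simp)))
      (Subgroup.subset_closure (by simp))

variable (Γ : Subgroup SL(2, ℤ))

/-- The coset space. -/
abbrev Cosets : Type := SL(2, ℤ) ⧸ Γ

/-- The number of cosets fixed by `S`. -/
def fixTwo : ℕ := Nat.card {x : Cosets Γ // (S : SL(2, ℤ)) • x = x}

/-- The number of cosets fixed by `S * T`. -/
def fixThree : ℕ := Nat.card {x : Cosets Γ // ellThree • x = x}

/-- The orbits of `T` on the cosets (the cusps). -/
abbrev CuspSet : Type :=
  Quotient (orbitRel (Subgroup.zpowers (T : SL(2, ℤ))) (Cosets Γ))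

/-- The cusp of a coset. -/
def cuspOf (x : Cosets Γ) : CuspSet Γ := Quotient.mk'' x

variable {Γ}

instance instFintypeCosets [Γ.FiniteIndex] : Fintype (Cosets Γ) :=
  Subgroup.fintypeQuotientOfFiniteIndex

instance instFiniteCuspSet [Γ.FiniteIndex] : Finite (CuspSet Γ) :=
  Finite.of_surjective _ Quotient.mk''_surjective

/-- Cosets have the same cusp iff they lie on one orbit of `T`. -/
lemma cuspOf_eq_iff {x y : Cosets Γ} :
    cuspOf Γ x = cuspOf Γ y ↔ ∃ n : ℤ, (T : SL(2, ℤ)) ^ n • y = x := by
  rw [cuspOf, cuspOf, Quotient.eq'']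
  constructor
  · rintro ⟨⟨g, n, rfl⟩, h⟩
    exact ⟨n, h⟩
  · rintro ⟨n, h⟩
    exact ⟨⟨_, n, rfl⟩, h⟩

/-- `T` preserves the cusp of a coset. -/
lemma cuspOf_T_smul (x : Cosets Γ) : cuspOf Γ ((T : SL(2, ℤ)) • x) = cuspOf Γ x :=
  cuspOf_eq_iff.mpr ⟨1, by simp⟩

/-- Every cusp comes from a coset. -/
lemma cuspOf_surjective : Function.Surjective (cuspOf Γ) := Quotient.mk''_surjective

/-- `-1 ∈ Γ` fixes all cosets. -/
lemma neg_one_smul_coset (hneg : (-1 : SL(2, ℤ)) ∈ Γ) (x : Cosets Γ) :
    (-1 : SL(2, ℤ)) • x = x := by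
  induction x using Quotient.inductionOn' with
  | h a =>
    change (QuotientGroup.mk ((-1 : SL(2, ℤ)) * a) : Cosets Γ) = QuotientGroup.mk a
    rw [QuotientGroup.eq]
    have : ((-1 : SL(2, ℤ)) * a)⁻¹ * a = (-1 : SL(2, ℤ))⁻¹ := by
      have h : (-1 : SL(2, ℤ)) * a = a * -1 := by simp
      rw [h, mul_inv_rev, mul_assoc, inv_mul_cancel, mul_one]
    rw [this]
    exact inv_mem hneg

/-- `S` is an involution on cosets if `-1 ∈ Γ`. -/
lemma S_smul_S_smul (hneg : (-1 : SL(2, ℤ)) ∈ Γ) (x : Cosets Γ) :
    (S : SL(2, ℤ)) • (S : SL(2, ℤ)) • x = x := by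
  rw [← mul_smul, S_mul_self, neg_one_smul_coset hneg]

/-- The elliptic element has order dividing three on cosets if `-1 ∈ Γ`. -/
lemma ellThree_smul_cube (hneg : (-1 : SL(2, ℤ)) ∈ Γ) (x : Cosets Γ) :
    ellThree • ellThree • ellThree • x = x := by
  rw [← mul_smul, ← mul_smul, ellThree_sq_mul, neg_one_smul_coset hneg]

/-- The square of the elliptic element fixes what it fixes. -/
lemma ellThree_sq_fix_iff (hneg : (-1 : SL(2, ℤ)) ∈ Γ) (x : Cosets Γ) :
    ellThree • ellThree • x = x ↔ ellThree • x = x := by
  constructor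
  · intro h
    conv_lhs => rw [← h]
    exact ellThree_smul_cube hneg x
  · intro h; rw [h, h]

/-- Every function on the cosets invariant under `S` and `S * T` is constant. -/
lemma const_of_invariant {α : Type*} (v : Cosets Γ → α)
    (hS : ∀ x, v ((S : SL(2, ℤ)) • x) = v x) (hU : ∀ x, v (ellThree • x) = v x)
    (x y : Cosets Γ) : v x = v y := by
  have key : ∀ g : SL(2, ℤ), ∀ z : Cosets Γ, v (g • z) = v z := by
    intro g
    have hg : g ∈ Subgroup.closure ({S, ellThree} : Set SL(2, ℤ)) := by
      rw [closure_S_ellThree]; trivial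
    induction hg using Subgroup.closure_induction with
    | mem a ha =>
      rcases ha with rfl | rfl
      · exact hS
      · exact hU
    | one => intro z; rw [one_smul]
    | mul a b _ _ iha ihb => intro z; rw [mul_smul, iha, ihb]
    | inv a _ ih => intro z; conv_rhs => rw [← smul_inv_smul a z, ih]
  obtain ⟨g, rfl⟩ := MulAction.exists_smul_eq SL(2, ℤ) x y
  exact (key g x).symm

section Perm

variable (K : Type*) [Field K]

variable (Γ) in
/-- The operator `v ↦ v ∘ (g • ·)` on functions on the cosets. -/
def pullback (g : SL(2, ℤ)) : Module.End K (Cosets Γ → K) :=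
  LinearMap.funLeft K K (fun x => g • x)

@[simp] lemma pullback_apply (g : SL(2, ℤ)) (v : Cosets Γ → K) (x : Cosets Γ) :
    pullback Γ K g v x = v (g • x) := rfl

variable [Γ.FiniteIndex]

lemma trace_pullback (g : SL(2, ℤ)) :
    LinearMap.trace K (Cosets Γ → K) (pullback Γ K g)
      = (Nat.card {x : Cosets Γ // g • x = x} : K) := by
  classical
  rw [LinearMap.trace_eq_matrix_trace K (Pi.basisFun K (Cosets Γ)), Matrix.trace,
    Nat.card_eq_fintype_card, Fintype.card_subtype, Finset.sum_congr rfl
      (fun x _ => show _ = if g • x = x then (1 : K) else 0 from ?_), Finset.sum_boole]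
  simp [Matrix.diag, Pi.single_apply]

/-- The functions on cosets have dimension the index. -/
lemma finrank_cosets : Module.finrank K (Cosets Γ → K) = Γ.index := by
  classical
  rw [Module.finrank_pi, Subgroup.index_eq_card, Nat.card_eq_fintype_card]

variable [CharZero K]

omit [CharZero K] in
/-- For an idempotent endomorphism, trace and kernel dimension add up to the full dimension. -/
lemma trace_add_finrank_ker_of_idempotent {V : Type*} [AddCommGroup V] [Module K V]
    [FiniteDimensional K V] (f : Module.End K V) (hf : f * f = f) :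
    LinearMap.trace K V f + (Module.finrank K (LinearMap.ker f) : K) = Module.finrank K V := by
  have hproj : LinearMap.IsProj (LinearMap.range f) f := by
    constructor
    · exact fun x => LinearMap.mem_range_self f x
    · rintro _ ⟨x, rfl⟩
      exact LinearMap.congr_fun hf x
  rw [hproj.trace, ← Nat.cast_add, LinearMap.finrank_range_add_finrank_ker]

variable (Γ) in
/-- The `(-1)`-eigenspace of `S`. -/
def minusTwo : Submodule K (Cosets Γ → K) := LinearMap.ker (1 + pullback Γ K S)

variable (Γ) in
/-- The kernel of `1 + U + U²` for `U = S * T`. -/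
def minusThree : Submodule K (Cosets Γ → K) :=
  LinearMap.ker (1 + pullback Γ K ellThree + pullback Γ K ellThree * pullback Γ K ellThree)

/-- The antiinvariants of `S` have dimension `(μ - ν₂) / 2`. -/
lemma two_mul_finrank_minusTwo (hneg : (-1 : SL(2, ℤ)) ∈ Γ) :
    2 * Module.finrank K (minusTwo Γ K) + fixTwo Γ = Γ.index := by
  set P := pullback Γ K (S : SL(2, ℤ)) with hP
  have hPP : P * P = 1 := by
    ext v x
    simp [hP, S_smul_S_smul hneg]
  have hidem : ((2 : K)⁻¹ • (1 + P)) * ((2 : K)⁻¹ • (1 + P)) = (2 : K)⁻¹ • (1 + P) := by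
    rw [smul_mul_assoc, mul_smul_comm, mul_add, add_mul, add_mul, one_mul, one_mul, mul_one, hPP,
      smul_smul]
    module
  have h := trace_add_finrank_ker_of_idempotent K _ hidem
  rw [LinearMap.ker_smul _ _ (by norm_num), map_smul, map_add, LinearMap.trace_one,
    finrank_cosets, hP, trace_pullback, smul_eq_mul] at h
  apply Nat.cast_injective (R := K)
  change (2 : K)⁻¹ * ((Γ.index : K) + (fixTwo Γ : K))
    + (Module.finrank K (minusTwo Γ K) : K) = (Γ.index : K) at h
  push_cast
  linear_combination 2 * h

/-- The functions killed by the norm of order three have dimension `2 (μ - ν₃) / 3`. -/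
lemma three_mul_finrank_minusThree (hneg : (-1 : SL(2, ℤ)) ∈ Γ) :
    3 * Module.finrank K (minusThree Γ K) + 2 * fixThree Γ = 2 * Γ.index := by
  set P := pullback Γ K ellThree with hP
  have hP3 : P * P * P = 1 := by
    ext v x
    simp [hP, ellThree_smul_cube hneg]
  have hidem : ((3 : K)⁻¹ • (1 + P + P * P)) * ((3 : K)⁻¹ • (1 + P + P * P))
      = (3 : K)⁻¹ • (1 + P + P * P) := by
    have h4 : P * P * P * P = P := by rw [hP3, one_mul]
    rw [smul_mul_assoc, mul_smul_comm, mul_add, mul_add, add_mul, add_mul, add_mul, add_mul,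
      add_mul, add_mul, one_mul, one_mul, one_mul, mul_one]
    simp only [← mul_assoc, mul_one, hP3, smul_smul]
    module
  have h := trace_add_finrank_ker_of_idempotent K _ hidem
  have htr2 : LinearMap.trace K _ (P * P) = (fixThree Γ : K) := by
    have hPP : P * P = pullback Γ K (ellThree * ellThree) := by
      ext v x
      simp [hP, mul_smul]
    rw [hPP, trace_pullback]
    exact congrArg Nat.cast (Nat.card_congr (Equiv.subtypeEquivRight fun x => by
      rw [mul_smul]; exact ellThree_sq_fix_iff hneg x))
  rw [LinearMap.ker_smul _ _ (by norm_num), map_smul, map_add, map_add, LinearMap.trace_one,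
    finrank_cosets, htr2, hP, trace_pullback, smul_eq_mul] at h
  apply Nat.cast_injective (R := K)
  change (3 : K)⁻¹ * ((Γ.index : K) + (fixThree Γ : K) + (fixThree Γ : K))
    + (Module.finrank K (minusThree Γ K) : K) = (Γ.index : K) at h
  push_cast
  linear_combination 3 * h

end Perm

end FermatAgent.Period
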