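import Fermat.Agent.Period.Primitive

/-!
# The cycles of `T` on cosets

The cosets in a cusp form one cycle of `T`, whose length is the width of the cusp.
-/

set_option autoImplicit false

noncomputable section

open scoped MatrixGroups
open scoped Classical
open Function ModularGroup

namespace FermatAgent.Period

variable {Γ : Subgroup SL(2, ℤ)} [Γ.FiniteIndex]

/-! ### Cycles of `T` -/

/-- A coset in a given cusp. -/
def cuspRep (o : CuspSet Γ) : Cosets Γ := Quotient.out o

/-- The width of a cusp. -/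
def cuspWidth (o : CuspSet Γ) : ℕ :=
  minimalPeriod (fun x : Cosets Γ => (T : SL(2, ℤ)) • x) (cuspRep o)

omit [Γ.FiniteIndex] in
/-- The representative of a cusp has that cusp. -/
lemma cuspOf_cuspRep (o : CuspSet Γ) : cuspOf Γ (cuspRep o) = o := Quotient.out_eq o

lemma cuspWidth_pos (o : CuspSet Γ) : 0 < cuspWidth o :=
  minimalPeriod_pos_of_mem_periodicPts (mk_mem_periodicPts (cuspPeriod_pos (Γ := Γ)) (by
    rw [IsPeriodicPt, IsFixedPt, smul_iterate]
    exact T_pow_cuspPeriod_smul _))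

omit [Γ.FiniteIndex] in
/-- `T` to the width fixes the representative. -/
lemma T_pow_cuspWidth_smul (o : CuspSet Γ) :
    (T : SL(2, ℤ)) ^ cuspWidth o • cuspRep o = cuspRep o := by
  have h := iterate_minimalPeriod (f := fun x : Cosets Γ => (T : SL(2, ℤ)) • x) (x := cuspRep o)
  rwa [smul_iterate] at h

variable (Γ) in
/-- Positions in the cycles. -/
abbrev CycIdx : Type := Σ o : CuspSet Γ, Fin (cuspWidth o)

/-- The coset at a position. -/
def cycPoint (r : CycIdx Γ) : Cosets Γ := (T : SL(2, ℤ)) ^ (r.2 : ℕ) • cuspRep r.1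

lemma cycPoint_bijective : Bijective (cycPoint (Γ := Γ)) := by
  constructor
  · rintro ⟨o, a⟩ ⟨o', a'⟩ h
    simp only [cycPoint] at h
    obtain rfl : o = o' := by
      rw [← cuspOf_cuspRep o, ← cuspOf_cuspRep o', cuspOf_eq_iff]
      exact ⟨(a' : ℕ) - (a : ℕ), by
        rw [sub_eq_neg_add, zpow_add, mul_smul, zpow_natCast, zpow_neg, zpow_natCast, ← h,
          inv_smul_smul]⟩
    have h2 : (fun x : Cosets Γ => (T : SL(2, ℤ)) • x)^[(a : ℕ)] (cuspRep o)
        = (fun x : Cosets Γ => (T : SL(2, ℤ)) • x)^[(a' : ℕ)] (cuspRep o) := by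
      rw [smul_iterate, smul_iterate]; exact h
    exact Sigma.ext rfl (heq_of_eq (Fin.ext
      ((iterate_eq_iterate_iff_of_lt_minimalPeriod a.2 a'.2).mp h2)))
  · intro x
    obtain ⟨n, hn⟩ := cuspOf_eq_iff.mp
      (show cuspOf Γ x = cuspOf Γ (cuspRep (cuspOf Γ x)) from (cuspOf_cuspRep _).symm)
    set o := cuspOf Γ x
    have hw : (cuspWidth o : ℤ) ≠ 0 := by exact_mod_cast (cuspWidth_pos o).ne'
    have hnn := Int.emod_nonneg n hw
    have hlt := Int.emod_lt_of_pos n (by exact_mod_cast cuspWidth_pos o :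
      (0 : ℤ) < cuspWidth o)
    refine ⟨⟨o, ⟨(n % cuspWidth o).toNat, by omega⟩⟩, ?_⟩
    simp only [cycPoint]
    conv_rhs => rw [← hn, ← Int.emod_add_mul_ediv n (cuspWidth o), zpow_add, mul_smul]
    rw [show (T : SL(2, ℤ)) ^ ((cuspWidth o : ℤ) * (n / cuspWidth o)) • cuspRep o = cuspRep o by
        rw [zpow_mul, zpow_natCast]
        have hmem : (T : SL(2, ℤ)) ^ cuspWidth o ∈ MulAction.stabilizer SL(2, ℤ) (cuspRep o) :=
          T_pow_cuspWidth_smul o
        exact zpow_mem hmem _,
      ← zpow_natCast, Int.toNat_of_nonneg hnn]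

/-- Positions in cycles and cosets. -/
def cycEquiv : CycIdx Γ ≃ Cosets Γ := Equiv.ofBijective _ cycPoint_bijective

end FermatAgent.Period
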