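import Mathlib
import Fermat.Agent.Curve.JFun

/-!
# Facts about `E₄`, `E₆`, `Δ` and the function `E₄³ / Δ`

The derivatives and the special values come from `Curve.JFun`.
-/

set_option autoImplicit false

noncomputable section

open scoped MatrixGroups ModularForm Manifold Topology Real
open UpperHalfPlane hiding I
open Filter Function Complex Derivative

namespace FermatAgent.Period

/-- `E₄` as a plain function. -/
def e4 : ℍ → ℂ := ⇑(ModularForm.E₄ : ModularForm 𝒮ℒ 4)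

/-- `E₆` as a plain function. -/
def e6 : ℍ → ℂ := ⇑(ModularForm.E₆ : ModularForm 𝒮ℒ 6)

/-- The discriminant as a plain function. -/
def dsc : ℍ → ℂ := ModularForm.discriminant

/-- The `j`-invariant in the normalisation `E₄³ / Δ`. -/
def jfun (τ : ℍ) : ℂ := e4 τ ^ 3 / dsc τ

/-- `E₄` is holomorphic. -/
lemma e4_mdiff : MDiff e4 := ModularFormClass.holo _
/-- `E₆` is holomorphic. -/
lemma e6_mdiff : MDiff e6 := ModularFormClass.holo _
/-- `Δ` is holomorphic. -/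
lemma dsc_mdiff : MDiff dsc := CuspForm.discriminant.holo'
/-- `Δ` vanishes nowhere. -/
lemma dsc_ne_zero (τ : ℍ) : dsc τ ≠ 0 := ModularForm.discriminant_ne_zero τ

/-- `E₄` has weight four. -/
lemma e4_slash (γ : SL(2, ℤ)) : e4 ∣[(4 : ℤ)] γ = e4 :=
  SlashInvariantFormClass.slash_action_eq (ModularForm.E₄ : ModularForm 𝒮ℒ 4) _ ⟨γ, rfl⟩

/-- `E₆` has weight six. -/
lemma e6_slash (γ : SL(2, ℤ)) : e6 ∣[(6 : ℤ)] γ = e6 :=
  SlashInvariantFormClass.slash_action_eq (ModularForm.E₆ : ModularForm 𝒮ℒ 6) _ ⟨γ, rfl⟩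

/-- `Δ` has weight twelve. -/
lemma dsc_slash (γ : SL(2, ℤ)) : dsc ∣[(12 : ℤ)] γ = dsc :=
  SlashInvariantFormClass.slash_action_eq CuspForm.discriminant _ ⟨γ, rfl⟩

/-- `E₄³ / Δ` is invariant. -/
lemma jfun_smul (γ : SL(2, ℤ)) (τ : ℍ) : jfun (γ • τ) = jfun τ := Curve.jFun_smul γ τ

/-- `Δ = (E₄³ - E₆²) / 1728`. -/
lemma dsc_eq (τ : ℍ) : dsc τ = (e4 τ ^ 3 - e6 τ ^ 2) / 1728 :=
  ModularForm.discriminant_eq_E₄_cube_sub_E₆_sq τ

/-- `E₄(ρ) = 0`. -/
lemma e4_rho : e4 ρ = 0 := Curve.E4_rhoPt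

/-- `E₆(i) = 0`. -/
lemma e6_I : e6 UpperHalfPlane.I = 0 := Curve.E6_I

section AtInfinity

variable {f : ℍ → ℂ}

/-- Level one forms have period one. -/
lemma levelOne_periodic {k : ℤ} (f : ModularForm 𝒮ℒ k) : Periodic (⇑f ∘ ofComplex) ((1 : ℝ) : ℂ) :=
  SlashInvariantFormClass.periodic_comp_ofComplex f one_mem_strictPeriods_SL

/-- Level one forms tend to their constant term. -/
lemma levelOne_tendsto {k : ℤ} (f : ModularForm 𝒮ℒ k) :
    Tendsto ⇑f atImInfty (𝓝 ((qExpansion 1 f).coeff 0)) :=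
  Curve.tendsto_coeff_zero one_pos (levelOne_periodic f) (ModularFormClass.holo f)
    (ModularFormClass.bdd_at_infty f)

/-- `E₄` tends to one. -/
lemma e4_tendsto : Tendsto e4 atImInfty (𝓝 1) := by
  have h := levelOne_tendsto (ModularForm.E₄ : ModularForm 𝒮ℒ 4)
  rwa [EisensteinSeries.E_qExpansion_coeff_zero _ ⟨2, rfl⟩] at h

/-- `E₆` tends to one. -/
lemma e6_tendsto : Tendsto e6 atImInfty (𝓝 1) := by
  have h := levelOne_tendsto (ModularForm.E₆ : ModularForm 𝒮ℒ 6)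
  rwa [EisensteinSeries.E_qExpansion_coeff_zero _ ⟨3, rfl⟩] at h

/-- `Δ` tends to zero. -/
lemma dsc_tendsto : Tendsto dsc atImInfty (𝓝 0) := ModularForm.discriminant_isZeroAtImInfty

/-- `j` tends to infinity. -/
lemma jfun_norm_tendsto : Tendsto (fun τ => ‖jfun τ‖) atImInfty atTop := by
  have h1 : Tendsto (fun τ => ‖dsc τ‖) atImInfty (𝓝[>] 0) := by
    rw [tendsto_nhdsWithin_iff]
    exact ⟨by simpa using dsc_tendsto.norm,
      Eventually.of_forall fun τ => by simpa using dsc_ne_zero τ⟩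
  have h2 := (e4_tendsto.pow 3).norm
  rw [one_pow, norm_one] at h2
  refine (Tendsto.pos_mul_atTop one_pos h2 h1.inv_tendsto_nhdsGT_zero).congr fun τ => ?_
  simp [jfun, div_eq_mul_inv]

end AtInfinity

lemma e6_ne_zero_of_e4 {τ : ℍ} (h : e4 τ = 0) : e6 τ ≠ 0 := fun h' =>
  dsc_ne_zero τ (by rw [dsc_eq, h, h']; simp)

lemma deriv_ne_zero_of_D {f : ℍ → ℂ} {τ : ℍ} {a : ℂ} (h : D f τ = a) (ha : a ≠ 0) :
    deriv (f ∘ ofComplex) τ ≠ 0 := fun h' =>
  ha (by rw [← h, normalizedDerivOfComplex, h', mul_zero])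

/-- The zeros of `E₄` are simple. -/
lemma deriv_e4_ne_zero {τ : ℍ} (h : e4 τ = 0) : deriv (e4 ∘ ofComplex) τ ≠ 0 :=
  deriv_ne_zero_of_D (Curve.D_E4 τ) (by
    have h4 : ModularForm.E₄ τ = 0 := h
    have h6 : ModularForm.E₆ τ ≠ 0 := e6_ne_zero_of_e4 h
    simp [h4, h6])

/-- The zeros of `E₆` are simple. -/
lemma deriv_e6_ne_zero {τ : ℍ} (h : e6 τ = 0) : deriv (e6 ∘ ofComplex) τ ≠ 0 :=
  deriv_ne_zero_of_D (Curve.D_E6 τ) (by
    have h6 : ModularForm.E₆ τ = 0 := h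
    have h4 : ModularForm.E₄ τ ≠ 0 := fun h4 => e6_ne_zero_of_e4 h4 h
    simp [h4, h6])

/-- `j` is unramified away from the zeros of `E₄` and `E₆`. -/
lemma deriv_jfun_ne_zero {τ : ℍ} (h4 : e4 τ ≠ 0) (h6 : e6 τ ≠ 0) :
    deriv (jfun ∘ ofComplex) τ ≠ 0 :=
  deriv_ne_zero_of_D (Curve.D_jFun τ)
    (div_ne_zero (neg_ne_zero.2 (mul_ne_zero (pow_ne_zero _ h4) h6))
      (ModularForm.discriminant_ne_zero τ))

/-- `j` is holomorphic. -/
lemma jfun_mdiff : MDiff jfun := Curve.mdiff_jFun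

/-- `j` vanishes exactly at the zeros of `E₄`. -/
lemma jfun_eq_zero_iff (τ : ℍ) : jfun τ = 0 ↔ e4 τ = 0 := by
  rw [jfun, div_eq_zero_iff, pow_eq_zero_iff (by norm_num)]
  simp [dsc_ne_zero]

/-- `j = 1728` exactly at the zeros of `E₆`. -/
lemma jfun_eq_1728_iff (τ : ℍ) : jfun τ = 1728 ↔ e6 τ = 0 := by
  rw [jfun, div_eq_iff (dsc_ne_zero τ), dsc_eq]
  constructor
  · intro h
    have : e6 τ ^ 2 = 0 := by linear_combination h
    exact (pow_eq_zero_iff (by norm_num)).mp this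
  · intro h
    rw [h]; ring

end FermatAgent.Period
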