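import Fermat.Agent.Period.Primitive
import Fermat.Agent.Period.LevelOne

/-!
# Modular forms as a submodule of functions
-/

set_option autoImplicit false

noncomputable section

open scoped MatrixGroups ModularForm Manifold Topology Real
open UpperHalfPlane hiding I
open Filter Function Complex Matrix.SpecialLinearGroup

namespace FermatAgent.Period

/-- Modular forms of weight `k` for `Γ ≤ SL(2, ℤ)` as a space of functions. -/
def modFns (Γ : Subgroup SL(2, ℤ)) (k : ℤ) : Submodule ℂ (ℍ → ℂ) where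
  carrier := {f | MDiff f ∧ (∀ γ ∈ Γ, f ∣[k] γ = f) ∧
    ∀ δ : SL(2, ℤ), IsBoundedAtImInfty (f ∣[k] δ)}
  add_mem' {f g} hf hg := ⟨hf.1.add hg.1,
    fun γ h => by rw [SlashAction.add_slash, hf.2.1 γ h, hg.2.1 γ h],
    fun δ => by rw [SlashAction.add_slash]; exact (hf.2.2 δ).add (hg.2.2 δ)⟩
  zero_mem' := ⟨mdifferentiable_const, fun γ _ => SlashAction.zero_slash k γ,
    fun δ => by rw [SlashAction.zero_slash]; exact zero_form_isBoundedAtImInfty⟩
  smul_mem' c f hf := ⟨hf.1.const_smul c,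
    fun γ h => by rw [ModularForm.SL_smul_slash, hf.2.1 γ h],
    fun δ => by rw [ModularForm.SL_smul_slash]; exact (hf.2.2 δ).const_smul_left c⟩

variable {Γ : Subgroup SL(2, ℤ)} {k : ℤ}

lemma mul_mem_modFns {a b : ℤ} {p f : ℍ → ℂ} (hp : p ∈ modFns ⊤ a) (hf : f ∈ modFns Γ b) :
    p * f ∈ modFns Γ (a + b) := by
  refine ⟨hp.1.mul hf.1, fun γ h => ?_, fun δ => ?_⟩
  · rw [ModularForm.mul_slash_SL2, hp.2.1 γ (Subgroup.mem_top γ), hf.2.1 γ h]
  · rw [ModularForm.mul_slash_SL2, hp.2.1 δ (Subgroup.mem_top δ)]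
    have h1 : IsBoundedAtImInfty p := by
      simpa [SlashAction.slash_one] using hp.2.2 1
    exact h1.mul (hf.2.2 δ)

lemma mul_mem_modFns' {a b c : ℤ} {p f : ℍ → ℂ} (hp : p ∈ modFns ⊤ a) (hf : f ∈ modFns Γ b)
    (h : a + b = c) : p * f ∈ modFns Γ c := h ▸ mul_mem_modFns hp hf

/-- Constants have weight zero. -/
lemma const_mem_modFns (c : ℂ) : (fun _ : ℍ => c) ∈ modFns Γ 0 :=
  ⟨mdifferentiable_const, fun γ _ => ModularForm.is_invariant_const γ c,
    fun δ => by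
      rw [show ((fun _ : ℍ => c) ∣[(0 : ℤ)] δ) = (fun _ : ℍ => c) from
        ModularForm.is_invariant_const δ c]
      exact atImInfty.const_boundedAtFilter c⟩

lemma modFns_eq_top_of_levelOne {f : ℍ → ℂ} {k : ℤ} (hf : MDiff f)
    (hinv : ∀ γ : SL(2, ℤ), f ∣[k] γ = f) (hbdd : IsBoundedAtImInfty f) : f ∈ modFns ⊤ k :=
  ⟨hf, fun γ _ => hinv γ, fun δ => by rw [hinv δ]; exact hbdd⟩

/-- `E₄` has weight four and level one. -/
lemma e4_mem : e4 ∈ modFns ⊤ 4 :=
  modFns_eq_top_of_levelOne e4_mdiff e4_slash (e4_tendsto.isBigO_one ℝ)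

/-- `E₆` has weight six and level one. -/
lemma e6_mem : e6 ∈ modFns ⊤ 6 :=
  modFns_eq_top_of_levelOne e6_mdiff e6_slash (e6_tendsto.isBigO_one ℝ)

/-- `Δ` has weight twelve and level one. -/
lemma dsc_mem : dsc ∈ modFns ⊤ 12 :=
  modFns_eq_top_of_levelOne dsc_mdiff dsc_slash (dsc_tendsto.isBigO_one ℝ)

lemma pow_mem_modFns {a : ℤ} {p : ℍ → ℂ} (hp : p ∈ modFns ⊤ a) (n : ℕ) :
    p ^ n ∈ modFns ⊤ (n * a) := by
  induction n with
  | zero => simpa using! const_mem_modFns (Γ := ⊤) 1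
  | succ n ih => rw [pow_succ']; exact mul_mem_modFns' hp ih (by push_cast; ring)

/-- The weight of a monomial in `E₄` and `E₆`. -/
lemma mono_mem (a b : ℕ) : e4 ^ a * e6 ^ b ∈ modFns ⊤ (4 * a + 6 * b) :=
  mul_mem_modFns' (pow_mem_modFns e4_mem a) (pow_mem_modFns e6_mem b) (by ring)

section Bridge

variable [Γ.FiniteIndex]

/-- A member of `modFns` as a `ModularForm`. -/
def toModularForm {f : ℍ → ℂ} (hf : f ∈ modFns Γ k) : ModularForm Γ k where
  toFun := f
  slash_action_eq' := by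
    rintro _ ⟨γ, hγ, rfl⟩
    exact hf.2.1 γ hγ
  holo' := hf.1
  bdd_at_cusps' := by
    intro c hc
    rw [Subgroup.IsArithmetic.isCusp_iff_isCusp_SL2Z] at hc
    rw [OnePoint.isBoundedAt_iff_forall_SL2Z hc]
    exact fun δ _ => hf.2.2 δ

/-- A modular form is among the functions. -/
lemma mem_modFns_of_modularFormClass {F : Type*} [FunLike F ℍ ℂ] [ModularFormClass F Γ k] (f : F) :
    ⇑f ∈ modFns Γ k :=
  ⟨ModularFormClass.holo f,
    fun _ hγ => SlashInvariantFormClass.slash_action_eq f _ (Subgroup.mem_map_of_mem _ hγ),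
    fun δ => ModularFormClass.bdd_at_cusps f (isCusp_SL_smul_infty δ) _ rfl⟩

/-- There are no forms of negative weight. -/
lemma eq_zero_of_neg_weight {f : ℍ → ℂ} (hf : f ∈ modFns Γ k) (hk : k < 0) : f = 0 :=
  congrArg DFunLike.coe (ModularForm.isZero_of_neg_weight hk (toModularForm hf))

omit [Γ.FiniteIndex] in
/-- There are no forms of odd weight if `-1 ∈ Γ`. -/
lemma eq_zero_of_odd_weight {f : ℍ → ℂ} (hneg : (-1 : SL(2, ℤ)) ∈ Γ) (hf : f ∈ modFns Γ k)
    (hk : Odd k) : f = 0 := by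
  funext τ
  have h := congrFun (hf.2.1 _ hneg) τ
  rw [ModularForm.SL_slash_apply, ModularGroup.SL_neg_smul, one_smul,
    ModularGroup.denom_apply] at h
  simp [hk.neg.neg_one_zpow] at h
  simp only [Pi.zero_apply]
  linear_combination (-(1 : ℂ) / 2) * h

/-- A member of `modFns ⊤` as a level one `ModularForm`. -/
def toLevelOne {f : ℍ → ℂ} (hf : f ∈ modFns ⊤ k) : ModularForm 𝒮ℒ k where
  toFun := f
  slash_action_eq' := by
    rintro _ ⟨γ, rfl⟩
    exact hf.2.1 γ (Subgroup.mem_top γ)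
  holo' := hf.1
  bdd_at_cusps' := by
    intro c hc
    rw [OnePoint.isBoundedAt_iff_forall_SL2Z hc]
    exact fun δ _ => hf.2.2 δ

/-- A level one form is among the functions. -/
lemma mem_modFns_top_of_modularForm (f : ModularForm 𝒮ℒ k) : ⇑f ∈ modFns ⊤ k :=
  modFns_eq_top_of_levelOne (ModularFormClass.holo f)
    (fun γ => SlashInvariantFormClass.slash_action_eq f _ ⟨γ, rfl⟩)
    ((levelOne_tendsto f).isBigO_one ℝ)

end Bridge

/-- Every even weight from four on is `4 a + 6 b`. -/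
lemma exists_mono (k : ℕ) (h4 : 4 ≤ k) (hk : Even k) : ∃ a b : ℕ, 4 * a + 6 * b = k := by
  obtain ⟨m, rfl⟩ := hk
  exact ⟨(m + m - 6 * (m % 2)) / 4, m % 2, by omega⟩

end FermatAgent.Period
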